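import Fermat.Agent.LevelLowering.Avoid.Level.Basic
import Fermat.Agent.HeckeCohom.Points
import Fermat.Agent.HeckeCohom.PointExponent

/-!
# Ihara avoidance: every point of a level is a newform

The newform of a point has the twisted eigenvalues and exponent two exactly at the primes where
the character is nontrivial.
-/

set_option autoImplicit false

noncomputable section

open IsLocalRing
open Fermat.Agent.GroupH1

namespace Fermat.Agent.LevelLowering.Avoid

variable {O : Type} [CommRing O] [IsDomain O] [IsDiscreteValuationRing O]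
  [IsAdicComplete (maximalIdeal O) O]

namespace AvoidSetup

variable {p : ℕ} {X : AvoidSetup p O} {r : ℕ} (T : X.TWTuple r)

namespace TWTuple

/-- **Every point is a newform.** -/
theorem formAtPoint : T.FormAtPoint := by
  classical
  intro _ _ hW χ
  have := Fact.mk X.fact_prime.out
  set s := Finset.univ.image T.pr with hsdef
  have hmem : ∀ x, x ∈ s ↔ ∃ i, T.pr i = x := fun x => by simp [s]
  have hprod : T.twLevel = T.level * ∏ x ∈ s, x := by
    rw [twLevel, Finset.prod_image fun x _ y _ h => T.pr_injective h]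
  have hD0 : p * T.level ≠ 0 := mul_ne_zero X.fact_prime.out.ne_zero (NeZero.ne _)
  have hgood : ∀ ℓ : ℕ, ℓ.Prime → (¬ ℓ ∣ p * T.level ↔ ℓ ∉ T.badPrimes) := fun ℓ hℓ => by
    rw [hℓ.dvd_mul, Nat.prime_dvd_prime_iff_eq hℓ X.fact_prime.out, badPrimes, Finset.mem_insert,
      Nat.mem_primeFactors]
    simp [hℓ, NeZero.ne T.level]
  obtain ⟨l₀, hl₀S, hl₀1, hl₀a⟩ := hW.nonEis T.twLevel (NeZero.ne _) T.badPrimes
  have hl₀q : ¬ ∃ j, T.q j = l₀ := by
    rintro ⟨j, rfl⟩
    refine hl₀S (Finset.mem_insert_of_mem (Nat.mem_primeFactors.2 ⟨(T.q j).2, ?_, NeZero.ne _⟩))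
    have := T.pr_dvd_level (Fin.castAdd X.E.card j)
    rwa [pr, Fin.append_left] at this
  have : CharZero (FractionRing O) :=
    charZero_of_injective_algebraMap (IsFractionRing.injective O _)
  have : CharZero (AlgebraicClosure (FractionRing O)) :=
    charZero_of_injective_algebraMap (FaithfulSMul.algebraMap_injective (FractionRing O) _)
  have : FaithfulSMul O (AlgebraicClosure (FractionRing O)) :=
    (faithfulSMul_iff_algebraMap_injective O _).2 (by
      rw [IsScalarTower.algebraMap_eq O (FractionRing O) (AlgebraicClosure (FractionRing O))]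
      exact (algebraMap (FractionRing O) (AlgebraicClosure (FractionRing O))).injective.comp
        (IsFractionRing.injective O (FractionRing O)))
  obtain ⟨M', hM0, g, hM', hg, ⟨R, hR, ι, hι⟩, hexp⟩ :=
    HeckeCohom.exists_newform_of_point T.topChar T.topChar_surjective T.mem_subH_iff T.idl
      (Algebra.adjoin O T.gens)
      (fun x hx y hy => congrArg Subtype.val (mul_comm (⟨x, hx⟩ : T.Alg) ⟨y, hy⟩))
      (fun δ => (T.diaA δ).2) hD0 (dvd_mul_left _ _)
      (fun ℓ hℓ => (T.heckeA ℓ ((hgood ℓ ℓ.2).1 hℓ)).2)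
      T.halfExp T.pow_two_mul_halfExp (s := s)
      (fun q hq => by
        obtain ⟨i, rfl⟩ := (hmem q).1 hq
        exact ⟨T.pr_prime i, T.pr_dvd_level i, T.not_sq_pr_dvd_level i⟩)
      (fun u hu => MonoidHom.mem_ker.2 (funext fun i => by
        show T.compChar i (ZMod.unitsMap (T.pr_dvd_level i) u) = 1
        rw [show ZMod.unitsMap (T.pr_dvd_level i) u = 1 from
          Units.ext (hu _ ((hmem _).2 ⟨i, rfl⟩) (T.pr_dvd_level i)), map_one]))
      ⟨l₀, (hgood _ l₀.2).2 hl₀S, by rw [← hprod]; exact hl₀1, by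
        rw [X_sub_C_mem_eigIdeal_iff, sys, dif_neg hl₀q]
        simpa using hl₀a⟩ χ
  let f : T.Delta →* AlgebraicClosure (FractionRing O) :=
    { toFun := fun δ => χ (T.diaA δ)
      map_one' := (congrArg χ (Subtype.ext (map_one T.dia) : T.diaA 1 = 1)).trans (map_one χ)
      map_mul' := fun x y => (congrArg χ (Subtype.ext (map_mul T.dia x y) :
        T.diaA (x * y) = T.diaA x * T.diaA y)).trans (map_mul χ _ _) }
  refine ⟨M', hM0, g, ⟨hg, hprod ▸ hM', R,
    fun ℓ hℓ h => hR ℓ hℓ ((hgood ℓ hℓ).2 h), ι, fun ℓ h => ?_⟩, fun l => ?_⟩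
  · rw [hι ℓ ℓ.2 ((hgood ℓ ℓ.2).2 h), ← map_mul]
    exact congrArg χ (Subtype.ext rfl)
  · have hiff := HeckeCohom.forall_trivial_iff_genV (M := T.level) X.fact_prime.out.ne_zero T.pr
      T.pr_prime T.pr_injective T.pr_dvd_level T.compChar T.compChar_surjective
      (HeckeCohom.classOf T.topChar) (fun u i => rfl) hmem f l
    refine ⟨fun h1 => (hexp _ ((hmem _).2 ⟨l, rfl⟩)).2 ?_,
      fun h1 => (hexp _ ((hmem _).2 ⟨l, rfl⟩)).1 (hiff.2 h1)⟩
    by_contra hcon
    push Not at hcon
    exact h1 (hiff.1 fun u hu => hcon u hu)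

end TWTuple

end AvoidSetup

end Fermat.Agent.LevelLowering.Avoid
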