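import Fermat.Agent.LevelLowering.Avoid.Level.Basic
import Fermat.Agent.GroupH1.TWLevel

/-!
# Ihara avoidance: the module of a level is free over the diamond operators

The localised `Hom(Γ_H(N), O)` is free over the group algebra of the diamond operators, of the
rank of the module at the base level, by the vanishing of torsion away from Eisenstein ideals.
-/

set_option autoImplicit false

noncomputable section

open IsLocalRing
open Fermat.Agent.GroupH1

namespace Fermat.Agent.LevelLowering.Avoid

variable {O : Type} [CommRing O] [IsDomain O] [IsDiscreteValuationRing O]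
  [IsAdicComplete (maximalIdeal O) O]

namespace AvoidSetup

variable {p : ℕ} {X : AvoidSetup p O} {r : ℕ} (T : X.TWTuple r)

namespace TWTuple

/-- Stabilising at the Taylor–Wiles primes does not change the rank. -/
theorem finrank_top_eq :
    Module.finrank O (LocM T.idl (HMod T.level (⊤ : Subgroup (ZMod T.level)ˣ) O)) =
      Module.finrank O X.BaseSpace := by
  classical
  let Q : Finset Nat.Primes := Finset.univ.image T.q
  let α : Nat.Primes → ResidueField O := T.sys
  have hsys : T.sys = twSystem Q X.a α := by
    funext ℓ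
    by_cases h : ℓ ∈ Q
    · rw [twSystem_of_mem h]
    · rw [twSystem_of_not_mem h]
      exact T.sys_eq_of_forall_ne fun j hj =>
        h (Finset.mem_image.2 ⟨j, Finset.mem_univ j, hj⟩)
  have hlevel : T.level = X.baseLevel * ∏ q ∈ Q, (q : ℕ) := by
    rw [T.level_eq_baseLevel_mul, Finset.prod_image fun x _ y _ h => T.inj h]
  obtain ⟨e, -⟩ := exists_stab_finset (O := O) X.baseLevel Q (fun q hq hd => by
      obtain ⟨j, -, rfl⟩ := Finset.mem_image.1 hq
      rcases (T.q j).2.dvd_mul.1 hd with h | h
      · exact T.not_dvd j h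
      · obtain ⟨q', hq', h'⟩ := (Prime.dvd_finsetProd_iff (T.q j).2.prime _).1 h
        exact T.notMem j
          ((Nat.prime_dvd_prime_iff_eq (T.q j).2 (X.mem_E q' hq').1).1 h' ▸ hq'))
    X.a α (fun q hq => by
      obtain ⟨j, -, rfl⟩ := Finset.mem_image.1 hq
      show IsTWRoot X.a (T.q j) (T.sys (T.q j))
      rw [T.sys_q]
      exact T.root j)
  have key : ∀ (M : ℕ) (b : Nat.Primes → ResidueField O),
      M = X.baseLevel * ∏ q ∈ Q, (q : ℕ) → b = twSystem Q X.a α →
        Module.finrank O (LocM (eigIdeal b) (HMod M (⊤ : Subgroup (ZMod M)ˣ) O)) =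
          Module.finrank O X.BaseSpace := by
    rintro M b rfl rfl
    exact e.finrank_eq.symm
  exact key _ _ hlevel hsys

/-- **The module of a level is free over the diamond operators.** -/
theorem freeLevel : T.FreeLevel := by
  intro _ _ hW
  have := X.fact_prime
  have hp : (p : ResidueField O) = 0 := by
    rw [← map_natCast (residue O), residue_eq_zero_iff]
    exact X.p_mem
  obtain ⟨ϖ, hϖ⟩ := IsDiscreteValuationRing.exists_irreducible O
  obtain ⟨ℓ, hℓ, -, hne⟩ := T.exists_nonEis hW 1 one_ne_zero
  obtain ⟨d, y, hd, hy⟩ := exists_tw_basis (O := O) (hle := le_top) (χ := T.topChar)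
    (hχ := T.topChar_surjective) (hker := T.mem_subH_iff) T.idl hp T.isPGroup_delta
    hϖ.maximalIdeal_eq X.isUnit_two T.neg_one_mem_subH
    ⟨ℓ, fun hd => hℓ (T.mem_badPrimes_of_dvd ℓ.2 (hd.trans (dvd_mul_right _ _))), hne⟩
    (T.exists_three hW)
  rw [T.finrank_top_eq] at hd
  subst hd
  exact ⟨y, hy⟩

end TWTuple

end AvoidSetup

end Fermat.Agent.LevelLowering.Avoid
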