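import Fermat.Agent.LevelLowering.Avoid.Statements
import Fermat.Agent.Lifting.TWGalois
import Fermat.Agent.Lifting.TWLevel
import Fermat.Agent.HeckeAlg.S29FromS30
import Fermat.Agent.TWTwist.Points

/-!
# Ihara avoidance: the Galois side of a level

At a Taylor–Wiles prime the tame value of the deformation generates the same augmentation as the
diamond operator, since both are trivial at the same points.  At an exceptional prime a point with
non-trivial character has a newform of exponent two, hence an inertia element of trace different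
from two; a point with trivial characters is Steinberg somewhere.
-/

set_option autoImplicit false

noncomputable section

open IsLocalRing Polynomial
open Fermat.Agent.GaloisBasics (GalQ Qbar)

namespace Fermat.Agent.LevelLowering.Avoid

section Augmentation

variable {O : Type} [CommRing O] [IsDomain O] [CharZero O] {K : Type} [Field K] [IsAlgClosed K]
  [Algebra O K] [Module.IsTorsionFree O K] {p r : ℕ} [Fact p.Prime] {v : Fin r → ℕ}
  {A M : Type} [CommRing A] [Algebra O A] [AddCommGroup M] [Module O M] [Module.Finite O M]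
  [Module A M] [IsScalarTower O A M] {d : ℕ}

/-- An element of `p`-power order which is one at the points where the diamond operator is one
moves every vector into the augmentation part. -/
theorem exists_sub_eq_smul_sub_of_points
    (hdiv : ∀ c : O, c ≠ 0 → ∃ n : ℕ, c ∣ (p : O) ^ n)
    (δ : Patching.DeltaV p v →* Module.End O M) (b : Fin d → M)
    (hb : Function.Bijective fun c : Fin d → Patching.GroupAlgV O p v =>
      ∑ i, MonoidAlgebra.lift O (Module.End O M) (Patching.DeltaV p v) δ (c i) (b i))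
    (j : Fin r) (D : A) (hD : ∀ x : M, D • x = δ (Patching.genV j) x) (s : A) {k : ℕ}
    (hs : ∀ x : M, s ^ p ^ k • x = x)
    (h1 : ∀ χ : A →ₐ[O] K, (∀ u : A, (∀ x : M, u • x = 0) → χ u = 0) → χ D = 1 → χ s = 1)
    (x : M) : ∃ y : M, s • x - x = D • y - y := by
  have hp0 : (p : O) ≠ 0 := Nat.cast_ne_zero.mpr (Fact.out : p.Prime).ne_zero
  have htf0 : ∀ a : O, (p : O) * a = 0 → a = 0 := fun a h => (mul_eq_zero.mp h).resolve_left hp0
  have hδ1 : ∀ x : M, (D - 1) • x = MonoidAlgebra.lift O (Module.End O M) (Patching.DeltaV p v) δ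
      (MonoidAlgebra.of O _ (Patching.genV j) - 1) x := fun x => by
    rw [sub_smul, one_smul, hD, map_sub, map_one, MonoidAlgebra.lift_of, LinearMap.sub_apply,
      Module.End.one_apply]
  have htfq : ∀ (c : O) (z : M ⧸ LinearMap.range (LinearMap.lsmul A M (D - 1))),
      c • z = 0 → c = 0 ∨ z = 0 := by
    intro c z hcz
    by_cases hc : c = 0
    · exact Or.inl hc
    refine Or.inr ?_
    obtain ⟨n, e, he⟩ := hdiv c hc
    have hpn : ((p : O) ^ n) • z = 0 := by rw [he, mul_comm, mul_smul, hcz, smul_zero]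
    clear hcz he
    induction n with
    | zero => simpa using hpn
    | succ n ih =>
      refine ih ?_
      rw [pow_succ', mul_smul] at hpn
      obtain ⟨w, hw⟩ := Submodule.Quotient.mk_surjective _ (((p : O) ^ n) • z)
      rw [← hw, ← Submodule.Quotient.mk_smul, Submodule.Quotient.mk_eq_zero] at hpn
      obtain ⟨w', hw'⟩ := hpn
      rw [LinearMap.lsmul_apply, hδ1] at hw'
      obtain ⟨y', hy'⟩ := TWTwist.exists_eq_of_natCast_smul_eq δ b hb
        (fun _ _ h => TWTwist.exists_gen_sub_one_mul_of_natCast_mul htf0 j h) hw'.symm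
      rw [← hw, Submodule.Quotient.mk_eq_zero]
      exact ⟨y', by rw [LinearMap.lsmul_apply, hδ1, ← hy']⟩
  have key : s • (Submodule.Quotient.mk x : M ⧸ LinearMap.range (LinearMap.lsmul A M (D - 1))) =
      Submodule.Quotient.mk x := by
    refine TWTwist.smul_eq_self_of_points (K := K) htfq
      (pow_ne_zero k (Fact.out : p.Prime).ne_zero) (fun y => ?_) (fun χ hχ => h1 χ ?_ ?_) _
    · obtain ⟨y, rfl⟩ := Submodule.Quotient.mk_surjective _ y
      rw [← Submodule.Quotient.mk_smul, hs]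
    · exact fun u hu => hχ u fun y => by
        obtain ⟨y, rfl⟩ := Submodule.Quotient.mk_surjective _ y
        rw [← Submodule.Quotient.mk_smul, hu, Submodule.Quotient.mk_zero]
    · refine sub_eq_zero.mp ?_
      rw [← map_one χ, ← map_sub]
      exact hχ _ fun y => by
        obtain ⟨y, rfl⟩ := Submodule.Quotient.mk_surjective _ y
        rw [← Submodule.Quotient.mk_smul, Submodule.Quotient.mk_eq_zero]
        exact ⟨y, rfl⟩
  rw [← Submodule.Quotient.mk_smul, Submodule.Quotient.eq] at key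
  obtain ⟨y, hy⟩ := key
  refine ⟨y, ?_⟩
  rw [LinearMap.lsmul_apply, sub_smul, one_smul] at hy
  exact hy.symm

end Augmentation

section Point

variable {O : Type} [CommRing O] [IsDomain O] [IsDiscreteValuationRing O]
  [IsAdicComplete (maximalIdeal O) O] [CharZero O] [Finite (ResidueField O)]
  {ρbar : ResidualGaloisRep (ResidueField O)}
  {Cond : ∀ ⦃A : Type⦄ [CommRing A] [IsLocalRing A] [Algebra O A], GaloisRepAdic A → Prop}
  {A : Type} [CommRing A] [Algebra O A] [Module.Finite O A] {p q : ℕ} [Fact p.Prime]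

local notation "F" => AlgebraicClosure (FractionRing O)

/-- A point is defined over the integers of a finite extension. -/
theorem exists_integral_point (D : GaloisRep.DeformationRingData O ρbar Cond) (ψ : D.R →ₐ[O] A)
    (j : A →ₐ[O] F) {S : Finset ℕ} {M : ℕ} {f : CuspForm (CongruenceSubgroup.Gamma0 M) 2}
    (htr : Lifting.TracesAt f S D (j.comp ψ)) :
    ∃ (O' : Type) (_ : CommRing O') (_ : IsDomain O') (_ : IsDiscreteValuationRing O')
      (_ : IsAdicComplete (maximalIdeal O') O') (_ : Finite (ResidueField O')) (_ : CharZero O')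
      (_ : Algebra O O') (_ : IsLocalHom (algebraMap O O')) (π : D.R →ₐ[O] O'),
      IsLocalHom (π : D.R →+* O') ∧ Lifting.HasTraces f S D π ∧
        ∃ incl : O' →+* F, Function.Injective incl ∧ ∀ z, incl (π z) = j (ψ z) := by
  obtain ⟨L, hLfin, hL⟩ := HeckeRep.exists_field_range O j
  have := RepTheory.charZero_integralClosure O L
  have := RepTheory.isLocalRing_integralClosure O L
  have := RepTheory.isDiscreteValuationRing_integralClosure O L
  have := RepTheory.isAdicComplete_integralClosure O L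
  have := RepTheory.finite_residueField_integralClosure O L
  have := RepTheory.isLocalHom_integralClosure O L
  have := RepTheory.finite_integralClosure O L
  let π : D.R →ₐ[O] integralClosure O L := (HeckeRep.toIC O j L hL).comp ψ
  let incl : integralClosure O L →+* F :=
    L.val.toRingHom.comp (integralClosure O L).val.toRingHom
  have hincl : Function.Injective incl := fun x y h => Subtype.ext (Subtype.ext h)
  have hval : ∀ x, incl (π x) = j (ψ x) := fun x => HeckeRep.coe_toIC O j L hL (ψ x)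
  refine ⟨integralClosure O L, inferInstance, inferInstance, inferInstance, inferInstance,
    inferInstance, inferInstance, inferInstance, inferInstance, π,
    HeckeRep.isLocalHom_algHom (O := O) π, ?_, incl, hincl, hval⟩
  obtain ⟨R, hR, ι, h⟩ := htr
  obtain ⟨R', ι', hι'⟩ := Lifting.exists_lift_subring incl hincl ι
  have key : ∀ (ℓ : ℕ) (hℓ : ℓ.Prime) (hℓS : ℓ ∉ S),
      ∀ P : ValuationSubring (AlgebraicClosure ℚ), P.LiesOverPrime ℓ →
      ∀ σ : GalQ, P.IsFrobeniusAt σ ℓ →
        ∃ hm : ModularFormClass.qCoeff f ℓ ∈ R', ι' ⟨_, hm⟩ = π (D.ρ.trace σ) :=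
    fun ℓ hℓ hℓS P hP σ hσ =>
      hι' ⟨_, hR ℓ hℓ hℓS⟩ _ ((hval _).trans (h ℓ hℓ hℓS P hP σ hσ).symm)
  refine ⟨R', fun ℓ hℓ hℓS => ?_, ι', fun ℓ hℓ hℓS P hP σ hσ => (key ℓ hℓ hℓS P hP σ hσ).2.symm⟩
  obtain ⟨P, hP⟩ := GaloisBasics.exists_liesOverPrime hℓ
  obtain ⟨σ, hσ⟩ := GaloisBasics.exists_isFrobeniusAt hP hℓ
  exact (key ℓ hℓ hℓS P hP σ hσ).1

/-- **A point with exponent two has an inertia element of trace different from two.** -/
theorem exists_inertia_trace_ne_two (h36 : ConductorLevel.NewformCarayol) (hodd : ρbar.IsOdd)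
    (D : GaloisRep.DeformationRingData O ρbar Cond) (hdet : D.ρ.DetIsCyclotomic p) (hp2 : p ≠ 2)
    (ψ : D.R →ₐ[O] A) (j : A →ₐ[O] F) {S : Finset ℕ} (_hpS : p ∈ S) (hq : q.Prime) (hqp : q ≠ p)
    {M : ℕ} [NeZero M] {g : CuspForm (CongruenceSubgroup.Gamma0 M) 2} (hg : g.IsNewform)
    (htr : Lifting.TracesAt g S D (j.comp ψ)) (hM : M.factorization q = 2) :
    ∃ P : ValuationSubring Qbar, P.LiesOverPrime q ∧
      ∃ σ ∈ P.inertiaSubgroupIn ℚ, j (ψ (D.ρ.trace σ)) ≠ 2 := by
  obtain ⟨O', _, _, _, _, _, _, _, _, π, hπ, ⟨R, hR, ι, h⟩, incl, hincl, hval⟩ :=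
    exists_integral_point D ψ j htr
  have hpO : (p : O') ∈ maximalIdeal O' := by
    rw [← map_natCast (π : D.R →+* O')]
    exact map_nonunit (π : D.R →+* O') _ hdet.1
  have hnu := TWTwist.not_isUnipotentOnInertiaAt_of_newform h36 hp2 hpO
    (D.ρ.baseChangeAlong (π : D.R →+* O') hπ) (Lifting.residual_baseChange_absIrr D π hπ)
    (Lifting.residual_baseChange_isOdd hodd D π hπ) hg S (R := R)
    (fun ℓ hℓ _ hℓS => hR ℓ hℓ hℓS) ι
    (fun ℓ hℓ _ hℓS hℓp P hP σ hσ => by
      rw [TWTwist.charpoly_baseChangeAlong_apply,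
        Lifting.charpoly_frobenius_eq D.ρ Fact.out hℓ hℓp hdet hP hσ, ← h ℓ hℓ hℓS P hP σ hσ]
      simp)
    hq hqp hM
  rw [GaloisRepAdic.IsUnipotentOnInertiaAt] at hnu
  push Not at hnu
  obtain ⟨P, hP, σ, hσ, hne⟩ := hnu
  refine ⟨P, hP, σ, hσ, fun h2 => hne ?_⟩
  have ht : π (D.ρ.trace σ) = 2 := hincl (by rw [hval, h2, map_ofNat])
  rw [ConductorLevel.charpoly_eq_of_finrank_two (GaloisRepAdic.finrank_eq _),
    TWTwist.det_baseChangeAlong_apply, TWTwist.det_eq_one_of_detIsCyclotomic Fact.out hq hqp hdet hP hσ,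
    map_one]
  have := TWTwist.trace_baseChangeAlong_apply (π : D.R →+* O') hπ D.ρ σ
  unfold GaloisRepAdic.trace at this ht
  rw [this, RingHom.coe_coe, ht, map_ofNat, C_1]
  ring

/-- **A Steinberg point has squared Frobenius trace `(q + 1)²`.** -/
theorem sq_trace_frobenius_eq (h35 : ConductorLevel.NewformSteinberg)
    (D : GaloisRep.DeformationRingData O ρbar Cond) (hdet : D.ρ.DetIsCyclotomic p)
    (ψ : D.R →ₐ[O] A) (j : A →ₐ[O] F) {S : Finset ℕ} (hpS : p ∈ S) (hq : q.Prime) (hqp : q ≠ p)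
    {M : ℕ} [NeZero M] {g : CuspForm (CongruenceSubgroup.Gamma0 M) 2} (hg : g.IsNewform)
    (htr : Lifting.TracesAt g S D (j.comp ψ)) (hqM : q ∣ M) (hq2 : ¬ q ^ 2 ∣ M)
    {P : ValuationSubring Qbar} (hP : P.LiesOverPrime q) {φ : GalQ} (hφ : P.IsFrobeniusAt φ q) :
    j (ψ (D.ρ.trace φ)) ^ 2 = ((q : F) + 1) ^ 2 := by
  classical
  obtain ⟨O', _, _, _, _, _, _, _, _, π, hπ, ⟨R, hR, ι, h⟩, incl, hincl, hval⟩ :=
    exists_integral_point D ψ j htr
  have hpO : (p : O') ∈ maximalIdeal O' := by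
    rw [← map_natCast (π : D.R →+* O')]
    exact map_nonunit (π : D.R →+* O') _ hdet.1
  set T : Finset ℕ := S ∪ M.primeFactors with hT
  have hpT : p ∈ T := Finset.mem_union_left _ hpS
  have hMT : ∀ r : ℕ, r.Prime → r ∣ M → r ∈ T := fun r hr hrM =>
    Finset.mem_union_right _ (Nat.mem_primeFactors.mpr ⟨hr, hrM, NeZero.ne M⟩)
  have hout : ∀ ℓ : ℕ, ℓ ∉ (↑T : Set ℕ) → ℓ ∉ S := fun ℓ h h' =>
    h (Finset.mem_coe.mpr (Finset.mem_union_left _ h'))
  let chig := HeckeEigen.eigenChar hg.1 (↑T : Set ℕ)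
  have hle : chig.range ≤ R := by
    rintro _ ⟨t, rfl⟩
    refine TWTwist.apply_mem_of_forall_T (fun r hr hrM => Finset.mem_coe.mpr (hMT r hr hrM)) chig
      (fun ℓ hℓ hℓM hℓT => ?_) t
    rw [HeckeEigen.eigenChar_T hg.1 hℓ hℓM hℓT]
    exact hR ℓ hℓ (hout ℓ hℓT)
  let iota : chig.range →+* O' := ι.comp (Subring.inclusion hle)
  obtain ⟨O'', _, _, _, _, _, _, _, _, hloc, hinj, ρ'', hρ'', hst⟩ :=
    h35 hg p T O' hpO chig (fun ℓ hℓ hℓM hℓS => HeckeEigen.eigenChar_T hg.1 hℓ hℓM hℓS) iota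
      hpT hMT
  set ρ' := D.ρ.baseChangeAlong (π : D.R →+* O') hπ
  have htrace := RepTheory.trace_eq_of_frobenius (TWTwist.frobGenerates_chebotarev T) ρ''
    (ρ'.baseChangeAlong (algebraMap O' O'') hloc) (by
      rintro σ ⟨ℓ, hℓ, hℓT, B, hB, hσ⟩
      have hℓM : ¬ ℓ ∣ M := fun hd => hℓT (Finset.mem_coe.mpr (hMT ℓ hℓ hd))
      have hℓp : ℓ ≠ p := fun e => hℓT (Finset.mem_coe.mpr (e ▸ hpT))
      rw [TWTwist.charpoly_baseChangeAlong_apply, TWTwist.charpoly_baseChangeAlong_apply,
        hρ'' ℓ hℓ hℓM hℓT B hB σ hσ, Lifting.charpoly_frobenius_eq D.ρ Fact.out hℓ hℓp hdet hB hσ]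
      have he : (iota.comp chig.rangeRestrict) (CuspForm.heckeAlgebra.T hℓ hℓM hℓT) =
          ι ⟨_, hR ℓ hℓ (hout ℓ hℓT)⟩ :=
        congrArg ι (Subtype.ext (HeckeEigen.eigenChar_T hg.1 hℓ hℓM hℓT))
      rw [he, ← h ℓ hℓ (hout ℓ hℓT) B hB σ hσ]
      simp) φ
  rw [TWTwist.trace_baseChangeAlong_apply, TWTwist.trace_baseChangeAlong_apply] at htrace
  have hsq : ρ''.trace φ ^ 2 = ((q : O'') + 1) ^ 2 := by
    have hc := hst q hq hqp hqM hq2 P hP φ hφ
    rw [ConductorLevel.charpoly_eq_of_finrank_two ρ''.finrank_eq] at hc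
    unfold GaloisRepAdic.trace
    rcases hc with hc | hc <;>
    · have e0 := congrArg (Polynomial.eval (0 : O'')) hc
      have e1 := congrArg (Polynomial.eval (1 : O'')) hc
      simp at e0 e1
      first
      | rw [show LinearMap.trace O'' ρ''.V (ρ''.ρ φ) = (q : O'') + 1 by
          linear_combination -e1 + e0]
      | rw [show LinearMap.trace O'' ρ''.V (ρ''.ρ φ) = -((q : O'') + 1) by
          linear_combination -e1 + e0, neg_sq]
  rw [htrace] at hsq
  have h1 : π (D.ρ.trace φ) ^ 2 = ((q : O') + 1) ^ 2 := hinj (by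
    simpa only [map_pow, map_add, map_natCast, map_one, RingHom.coe_coe] using hsq)
  have h2 := congrArg incl h1
  simpa only [map_pow, map_add, map_natCast, map_one, RingHom.coe_coe, hval] using h2

end Point

variable {O : Type} [CommRing O] [IsDomain O] [IsDiscreteValuationRing O]
  [IsAdicComplete (maximalIdeal O) O]

/-- Unramifiedness descends along an extension of fields. -/
theorem isUnramifiedAt_of_isEquiv_baseChangeAlong {k k' : Type} [Field k] [Field k'] (f : k →+* k')
    {ρ : ResidualGaloisRep k} {ρ' : ResidualGaloisRep k'}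
    (he : (ρ.baseChangeAlong f).IsEquiv ρ') {q : ℕ} (h : ρ'.IsUnramifiedAt q) :
    ρ.IsUnramifiedAt q := by
  obtain ⟨e⟩ := he
  intro P hP σ hσ
  let _ := f.toAlgebra
  let b := Module.finBasisOfFinrankEq k ρ.V ρ.finrank_eq
  refine LinearMap.ext fun v => b.ext_elem fun i => ?_
  have h1 : (ρ.baseChangeAlong f).ρ σ ((1 : k') ⊗ₜ v) = (1 : k') ⊗ₜ v := by
    refine e.toLinearEquiv.injective ?_
    rw [e.map_apply, h P hP σ hσ]
    rfl
  have h2 := congrArg (fun x => (b.baseChange k').repr x i) h1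
  change (b.baseChange k').repr (((ρ.ρ σ).baseChange k') ((1 : k') ⊗ₜ v)) i = _ at h2
  rw [LinearMap.baseChange_tmul] at h2
  simpa [Module.Basis.baseChange_repr_tmul, RingHom.algebraMap_toAlgebra] using h2

namespace AvoidSetup

variable {p : ℕ} {X : AvoidSetup p O}

/-- The residual representation of a system occurring at the base level is unramified outside
it. -/
theorem isUnramifiedAt_of_baseSpace [CharZero O] [Finite (ResidueField O)] (hW : X.Witness)
    {ρbar : ResidualGaloisRep (ResidueField O)} (hρ : X.IsResidual ρbar)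
    (hbase : Nontrivial X.BaseSpace) {q : ℕ} (hq : q.Prime) (hqp : q ≠ p) (hqB : ¬ q ∣ X.B)
    (hqE : q ∉ X.E) : ρbar.IsUnramifiedAt q := by
  classical
  have := X.fact_prime
  have : NeZero X.baseLevel :=
    ⟨mul_ne_zero X.B_ne_zero (Finset.prod_ne_zero_iff.2 fun l hl => (X.mem_E l hl).1.ne_zero)⟩
  set S : Finset ℕ := insert p X.baseLevel.primeFactors with hS
  have hNS : ∀ l : ℕ, l.Prime → l ∣ X.baseLevel → l ∈ S := fun l hl h =>
    Finset.mem_insert_of_mem (Nat.mem_primeFactors.2 ⟨hl, h, NeZero.ne _⟩)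
  have hqS : q ∉ S := by
    rw [hS, Finset.mem_insert, Nat.mem_primeFactors]
    rintro (h | ⟨-, h, -⟩)
    · exact hqp h
    · rcases hq.dvd_mul.1 h with h | h
      · exact hqB h
      · obtain ⟨l, hl, hd⟩ := (Prime.dvd_finsetProd_iff hq.prime _).1 h
        exact hqE ((Nat.prime_dvd_prime_iff_eq hq (X.mem_E l hl).1).1 hd ▸ hl)
  obtain ⟨l₀, -, hl1, hla⟩ := hW.nonEis X.baseLevel (NeZero.ne _) ∅
  obtain ⟨θ, hθ⟩ := Lifting.exists_theta_of_dvd (N := X.baseLevel) dvd_rfl hNS X.a ⟨l₀, hl1, hla⟩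
  have hθ' : ∀ (ℓ : ℕ) (hℓ : ℓ.Prime) (hℓN : ¬ ℓ ∣ X.baseLevel) (hℓS : ℓ ∉ (↑S : Set ℕ)),
      ∀ A : ValuationSubring (AlgebraicClosure ℚ), A.LiesOverPrime ℓ →
        ∀ σ : GalQ, A.IsFrobeniusAt σ ℓ → LinearMap.charpoly (ρbar.ρ σ) =
          Polynomial.X ^ 2 - C (θ (CuspForm.heckeAlgebra.T hℓ hℓN hℓS)) * Polynomial.X +
            C ((ℓ : ResidueField O)) := by
    intro ℓ hℓ hℓN hℓS A hA σ hσ
    rw [hθ ℓ hℓ hℓN hℓS]
    refine hρ.frob ⟨ℓ, hℓ⟩ (fun e => hℓS ?_) (fun hd => hℓN (hd.trans (dvd_mul_right _ _)))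
      (fun hE => hℓN (dvd_mul_of_dvd_right (Finset.dvd_prod_of_mem (fun l => l) hE) _)) A hA σ hσ
    rw [show ℓ = p from e]
    exact Finset.mem_coe.2 (Finset.mem_insert_self _ _)
  have : Fact (CuspForm.HasIntegralStructure X.baseLevel 2) :=
    HeckeRep.fact_hasIntegralStructure _
  obtain ⟨H, hHπ, hunr⟩ := HeckeRep.nonempty_heckeGaloisRepDatum p X.baseLevel S O θ
    (Finset.mem_insert_self _ _) hNS X.p_mem ρbar hρ.absIrr hθ'
  set f := ResidueField.map (algebraMap O (CuspForm.heckeLocal X.baseLevel (↑S : Set ℕ) O θ))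
  obtain ⟨e⟩ := RepTheory.residual_isEquiv_of_frobenius (TWTwist.frobGenerates_chebotarev S)
    (ρbar.baseChangeAlong f) H.ρ.residual
    (RepTheory.isAbsolutelyIrreducible_baseChangeAlong _ _ hρ.absIrr) (by
      rintro φ ⟨ℓ, hℓ, hℓS, A, hA, hφ⟩
      have hℓN : ¬ ℓ ∣ X.baseLevel := fun h => hℓS (Finset.mem_coe.mpr (hNS ℓ hℓ h))
      rw [HeckeAlg.charpoly_baseChangeAlong, hθ' ℓ hℓ hℓN hℓS A hA φ hφ,
        HeckeAlg.charpoly_residual, H.charpoly_frob ℓ hℓ hℓN hℓS A hA φ hφ]
      simp only [Polynomial.map_sub, Polynomial.map_add, Polynomial.map_mul, Polynomial.map_pow,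
        Polynomial.map_X, Polynomial.map_C, Polynomial.map_natCast, map_natCast, H.residue_π]
      rfl)
  exact isUnramifiedAt_of_isEquiv_baseChangeAlong f ⟨e⟩
    (HeckeAlg.isUnramifiedAt_residual (hunr q hq hqS))

namespace TWTuple

variable {r : ℕ} (T : X.TWTuple r) {ρbar : ResidualGaloisRep (ResidueField O)}
  {𝒟 : ∀ ⦃A : Type⦄ [CommRing A] [IsLocalRing A] [Algebra O A], GaloisRepAdic A → Prop}

omit [IsAdicComplete (maximalIdeal O) O] in
theorem exists_pr_natAdd {q : ℕ} (hq : q ∈ X.E) :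
    ∃ i, T.pr (Fin.natAdd r i) = q :=
  ⟨X.E.equivFin ⟨q, hq⟩, by simp [pr, primeE]⟩

theorem ne_p_of_one_mod {q : ℕ} (hq : q.Prime) (h : p ∣ q - 1) : q ≠ p := fun e => by
  have h2 := hq.two_le
  have := Nat.le_of_dvd (by omega) h
  omega

/-- The eigenvalues of a form of a point are the Frobenius traces at the point. -/
theorem tracesAt_of_formAt [CharZero O] [Finite (ResidueField O)]
    (DQ : GaloisRep.DeformationRingData O ρbar 𝒟) {φ : DQ.R →ₐ[O] T.Alg}
    (hφ : T.HasTraces DQ.ρ.trace φ) {χ : T.Alg →ₐ[O] AlgebraicClosure (FractionRing O)} {M : ℕ}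
    [NeZero M] {g : CuspForm (CongruenceSubgroup.Gamma0 M) 2} (h : T.FormAt χ M g) :
    Lifting.TracesAt g T.badPrimes DQ (χ.comp φ) := by
  obtain ⟨-, -, R, hR, ι, hι⟩ := h
  refine ⟨R, hR, ι, fun ℓ hℓ hℓS P hP σ hσ => ?_⟩
  rw [AlgHom.comp_apply, hφ ⟨ℓ, hℓ⟩ hℓS P hP σ hσ]
  exact (hι ⟨ℓ, hℓ⟩ hℓS).symm

/-- **The Galois side of a level.** -/
theorem galoisLevel (DQ : GaloisRep.DeformationRingData O ρbar 𝒟) : T.GaloisLevel ρbar DQ := by
  classical
  intro hC hk hW hρ hdet hbot h34 h35 h36 hfree hform htriv φ hφ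
  have := X.fact_prime
  have hK : CharZero (AlgebraicClosure (FractionRing O)) := by
    have : CharZero (FractionRing O) :=
      charZero_of_injective_algebraMap (IsFractionRing.injective O _)
    exact charZero_of_injective_algebraMap
      (algebraMap (FractionRing O) (AlgebraicClosure (FractionRing O))).injective
  have : Module.IsTorsionFree O (AlgebraicClosure (FractionRing O)) := by
    rw [Module.isTorsionFree_iff_algebraMap_injective,
      IsScalarTower.algebraMap_eq O (FractionRing O) (AlgebraicClosure (FractionRing O))]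
    exact (algebraMap (FractionRing O) _).injective.comp (IsFractionRing.injective O _)
  obtain ⟨y, hy⟩ := hfree inferInstance inferInstance hW
  rcases subsingleton_or_nontrivial T.Space with hsub | hspace
  · have hA : Subsingleton T.Alg :=
      ⟨fun a b => Subtype.ext (LinearMap.ext fun x => Subsingleton.elim _ _)⟩
    have hno : ∀ χ : T.Alg →ₐ[O] AlgebraicClosure (FractionRing O), False := fun χ =>
      zero_ne_one (α := AlgebraicClosure (FractionRing O))
        (by rw [← map_zero χ, ← map_one χ, Subsingleton.elim (0 : T.Alg) 1])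
    exact ⟨fun _ => 1, fun _ => by simp, fun _ => Subsingleton.elim _ _,
      fun _ => Submodule.ext fun z => by rw [Subsingleton.elim z 0]; simp,
      fun χ => (hno χ).elim, fun χ => (hno χ).elim⟩
  have hbase : Nontrivial X.BaseSpace := by
    by_contra hb
    rw [not_nontrivial_iff_subsingleton] at hb
    obtain ⟨z₁, z₂, hz⟩ := hspace
    obtain ⟨c₁, rfl⟩ := hy.2 z₁
    obtain ⟨c₂, rfl⟩ := hy.2 z₂
    have h0 : Module.finrank O X.BaseSpace = 0 := Module.finrank_zero_of_subsingleton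
    have : IsEmpty (Fin (Module.finrank O X.BaseSpace)) := by rw [h0]; infer_instance
    exact hz (by simp)
  have hpS : p ∈ T.badPrimes := Finset.mem_insert_self _ _
  have hdiv := Lifting.exists_dvd_natCast_pow (O := O) X.p_mem
  have hpr : ∀ j, T.pr (Fin.castAdd X.E.card j) = (T.q j : ℕ) := fun j => by simp [pr]
  have hqp : ∀ j, (T.q j : ℕ) ≠ p := fun j => ne_p_of_one_mod (T.q j).2 (T.one_mod j)
  have hqS : ∀ j, (T.q j : ℕ) ∈ T.badPrimes := fun j =>
    Finset.mem_insert_of_mem (Nat.mem_primeFactors.2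
      ⟨(T.q j).2, hpr j ▸ T.pr_dvd_level _, NeZero.ne _⟩)
  choose s hs using fun j => Lifting.exists_isTameValue DQ hdet (T.q j).2 (hqp j) (T.one_mod j)
    (isUnramifiedAt_of_baseSpace hW hρ hbase (T.q j).2 (hqp j) (T.not_dvd j) (T.notMem j))
    (T.root j) (hρ.frob (T.q j) (hqp j) (T.not_dvd j) (T.notMem j))
  have hpow : ∀ j, φ (s j) ^ p ^ T.expoT j = 1 := fun j => by
    rw [← map_pow, expoT, expo, hpr, (hs j).pow_eq, map_one]
  refine ⟨s, fun j => ?_, hpow, fun j => ?_, fun χ hχ hne q hqE => ?_, fun χ hχ hone => ?_⟩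
  · have hpk : (p : ResidueField DQ.R) = 0 := by
      rw [← map_natCast (residue DQ.R), residue_eq_zero_iff]
      exact hdet.1
    have : CharP (ResidueField DQ.R) p := (CharP.charP_iff_prime_eq_zero Fact.out).2 hpk
    rw [← residue_eq_zero_iff]
    refine (pow_eq_zero_iff (pow_ne_zero ((T.q j : ℕ) - 1 |>.factorization p)
      (Fact.out : p.Prime).ne_zero)).1 ?_
    rw [map_sub, sub_pow_char_pow, ← map_pow, (hs j).pow_eq, ← map_pow, one_pow, sub_self]
  · set l := Fin.castAdd X.E.card j with hl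
    have hs' : ∀ x : T.Space, φ (s j) ^ p ^ T.expoT j • x = x := fun x => by
      rw [hpow, one_smul]
    have hone' : ∀ χ : T.Alg →ₐ[O] AlgebraicClosure (FractionRing O),
        (∀ u : T.Alg, (∀ x : T.Space, u • x = 0) → χ u = 0) →
          χ (T.diaA (Patching.genV l)) = 1 → χ (φ (s j)) = 1 := fun χ _ h1 => by
      obtain ⟨M, _, g, hg, hM⟩ := hform inferInstance inferInstance hW χ
      refine (Lifting.tameValue_at_point hρ.odd DQ hdet φ χ (hs j) (T.q j).2 (hqp j) hpS (hqS j)
        (T.tracesAt_of_formAt DQ hφ hg)).1 h34 hg.1.1 ?_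
      rw [← hpr]
      exact (hM l).2 h1
    have h₁ : ∀ z : T.Space, ∃ w : T.Space,
        T.dia (Patching.genV l) z - z = φ (s j) • w - w :=
      TWTwist.exists_sub_eq_of_points (K := AlgebraicClosure (FractionRing O)) (T := T.Alg)
        X.ne_two X.p_mem hdiv T.dia y hy T.diaA (fun _ _ => rfl) l (φ (s j)) hs' hone'
        fun _ χ _ hsum => by
          obtain ⟨M, _, g, hg, hM⟩ := hform inferInstance inferInstance hW χ
          refine (Lifting.tameValue_at_point hρ.odd DQ hdet φ χ (hs j) (T.q j).2 (hqp j) hpS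
            (hqS j) (T.tracesAt_of_formAt DQ hφ hg)).2 h36 X.ne_two hg.1 ?_
          rw [← hpr]
          refine (hM l).1 fun h1 => ?_
          rw [h1] at hsum
          simp only [one_pow, Finset.sum_const, Finset.card_range, nsmul_eq_mul, mul_one] at hsum
          exact Nat.cast_ne_zero.2 (Fact.out : p.Prime).ne_zero hsum
    have h₂ := exists_sub_eq_smul_sub_of_points (K := AlgebraicClosure (FractionRing O)) hdiv
      T.dia y hy l (T.diaA (Patching.genV l)) (fun _ => rfl) (φ (s j)) hs' hone'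
    show _ = Ideal.span {T.diaA (Patching.genV l) - 1} • (⊤ : Submodule T.Alg T.Space)
    refine le_antisymm ?_ ?_ <;> intro z hz <;>
      rw [Submodule.ideal_span_singleton_smul, Submodule.mem_smul_pointwise_iff_exists] at hz ⊢ <;>
      obtain ⟨w, -, rfl⟩ := hz
    · obtain ⟨w', hw'⟩ := h₂ w
      exact ⟨w', trivial, by rw [sub_smul, one_smul, sub_smul, one_smul, hw']⟩
    · obtain ⟨w', hw'⟩ := h₁ w
      exact ⟨w', trivial, by rw [sub_smul, one_smul, sub_smul, one_smul, ← hw']; rfl⟩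
  · obtain ⟨M, _, g, hg, hM⟩ := hform inferInstance inferInstance hW χ
    obtain ⟨hq, hq1, -⟩ := X.mem_E q hqE
    obtain ⟨i, rfl⟩ := T.exists_pr_natAdd hqE
    exact exists_inertia_trace_ne_two h36 hρ.odd DQ hdet X.ne_two φ χ hpS hq
      (ne_p_of_one_mod hq hq1) hg.1 (T.tracesAt_of_formAt DQ hφ hg) ((hM _).1 (hne i))
  · obtain ⟨q, hqE, M, _, g, hg, hqM, hq2⟩ := htriv inferInstance inferInstance hW hbot χ hone
    obtain ⟨hq, hq1, -⟩ := X.mem_E q hqE
    exact ⟨q, hqE, fun P hP f hf => sq_trace_frobenius_eq h35 DQ hdet φ χ hpS hq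
      (ne_p_of_one_mod hq hq1) hg.1 (T.tracesAt_of_formAt DQ hφ hg) hqM hq2 hP hf⟩

end TWTuple

end AvoidSetup

end Fermat.Agent.LevelLowering.Avoid
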