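import Fermat.Agent.HeckeCohom.LocalLift
import Mathlib.LinearAlgebra.Semisimple
import Mathlib.FieldTheory.Perfect
import Mathlib.FieldTheory.Separable
import Mathlib.RingTheory.Flat.Basic

/-!
# Ihara avoidance: algebras of semisimple operators are reduced

Operators coming from a reduced finite algebra and operators of finite order are semisimple after
extending scalars to a field of characteristic zero, so a commutative algebra they generate on a
free module has no nilpotents.
-/

set_option autoImplicit false

noncomputable section

open Polynomial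
open scoped TensorProduct

namespace Fermat.Agent.LevelLowering.Avoid

variable {O : Type} [CommRing O] [IsDomain O] (K : Type) [Field K] [Algebra O K]
  [IsFractionRing O K] {W : Type} [AddCommGroup W] [Module O W]

/-- A monic polynomial relation in a reduced algebra gives a squarefree one over the field. -/
theorem exists_squarefree_annihilator {A : Type} [CommRing A] [Algebra O A] [IsReduced A] {t : A}
    (ht : IsIntegral O t) :
    ∃ (q : O[X]) (g : K[X]) (c : K), c ≠ 0 ∧ Squarefree g ∧ q.map (algebraMap O K) = C c * g ∧
      Polynomial.aeval t q = 0 := by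
  obtain ⟨P, hP, hPt⟩ := ht
  have hinj : Function.Injective (algebraMap O K) := IsFractionRing.injective O K
  obtain ⟨g, N, hg, -, hPg⟩ := exists_squarefree_dvd_pow_of_ne_zero
    (hP.map (algebraMap O K)).ne_zero
  obtain ⟨b, hb, hq⟩ := IsLocalization.integerNormalization_spec (nonZeroDivisors O) g
  have hb0 : algebraMap O K b ≠ 0 := fun h =>
    nonZeroDivisors.ne_zero hb ((map_eq_zero_iff _ hinj).1 h)
  set q := IsLocalization.integerNormalization (nonZeroDivisors O) g
  have hmap : q.map (algebraMap O K) = C (algebraMap O K b) * g := by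
    rw [hq]; exact Algebra.smul_def b g
  refine ⟨q, g, algebraMap O K b, hb0, hg, hmap, ?_⟩
  have hdvd : P ∣ q ^ N := by
    rw [← Polynomial.map_dvd_map (algebraMap O K) hinj hP, Polynomial.map_pow, hmap, mul_pow]
    exact hPg.trans (dvd_mul_left _ _)
  obtain ⟨w, hw⟩ := hdvd
  refine IsReduced.eq_zero _ ⟨N, ?_⟩
  have h0 : Polynomial.aeval t P = 0 := hPt
  rw [← map_pow, hw, map_mul, h0, zero_mul]

/-- The image of an element of a reduced finite algebra is semisimple over the field. -/
theorem isSemisimple_baseChange_algHom {A : Type} [CommRing A] [Algebra O A] [IsReduced A]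
    [Module.Finite O A] (act : A →ₐ[O] Module.End O W) (t : A) :
    (Module.End.baseChangeHom O K W (act t)).IsSemisimple := by
  obtain ⟨q, g, c, hc, hg, hmap, hq⟩ :=
    exists_squarefree_annihilator K (Algebra.IsIntegral.isIntegral (R := O) t)
  refine Module.End.isSemisimple_of_squarefree_aeval_eq_zero hg ?_
  have h : Polynomial.aeval (Module.End.baseChangeHom O K W (act t))
      (q.map (algebraMap O K)) = 0 := by
    rw [Polynomial.aeval_map_algebraMap]
    show Polynomial.aeval (((Module.End.baseChangeHom O K W).comp act) t) q = 0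
    rw [Polynomial.aeval_algHom_apply, hq, map_zero]
  rw [hmap, map_mul, aeval_C, ← Algebra.smul_def] at h
  exact (smul_eq_zero.1 h).resolve_left hc

omit [IsDomain O] [IsFractionRing O K] in
/-- An operator of finite order is semisimple over the field. -/
theorem isSemisimple_baseChange_of_pow_eq_one [CharZero K] {f : Module.End O W} {n : ℕ}
    (hn : n ≠ 0) (hf : f ^ n = 1) : (Module.End.baseChangeHom O K W f).IsSemisimple :=
  Module.End.isSemisimple_of_squarefree_aeval_eq_zero (p := (X ^ n - 1 : K[X]))
    ((X_pow_sub_one_separable_iff.2 (Nat.cast_ne_zero.2 hn)).squarefree)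
    (by rw [map_sub, map_pow, aeval_X, map_one, ← map_pow, hf, map_one, sub_self])

open IsMulCommutative in
omit [IsDomain O] in
/-- A commutative algebra generated by semisimple operators is reduced. -/
theorem isReduced_adjoin_of_isSemisimple [CharZero K] [Module.Finite O W] [Module.Free O W]
    {s : Set (Module.End O W)} (hcomm : ∀ x ∈ s, ∀ y ∈ s, x * y = y * x)
    (hs : ∀ x ∈ s, (Module.End.baseChangeHom O K W x).IsSemisimple) :
    IsReduced (Algebra.adjoin O s) := by
  have := Algebra.isMulCommutative_adjoin O hcomm
  let Φ := Module.End.baseChangeHom O K W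
  have hc : ∀ x y : Algebra.adjoin O s, Commute (Φ x.1) (Φ y.1) := fun x y =>
    Commute.map (congrArg Subtype.val (mul_comm x y) : Commute x.1 y.1) Φ
  have key : ∀ (x : Module.End O W) (hx : x ∈ Algebra.adjoin O s), (Φ x).IsSemisimple := by
    intro x hx
    induction hx using Algebra.adjoin_induction with
    | mem x hx => exact hs x hx
    | algebraMap a =>
      rw [AlgHom.commutes]
      refine Module.End.isSemisimple_of_squarefree_aeval_eq_zero
        (irreducible_X_sub_C (algebraMap O K a)).squarefree ?_
      rw [map_sub, aeval_X, aeval_C, ← IsScalarTower.algebraMap_apply, sub_self]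
    | add x y hx hy h1 h2 =>
      rw [map_add]
      exact h1.add_of_commute (hc ⟨x, hx⟩ ⟨y, hy⟩) h2
    | mul x y hx hy h1 h2 =>
      rw [map_mul]
      exact h1.mul_of_commute (hc ⟨x, hx⟩ ⟨y, hy⟩) h2
  refine ⟨fun x hx => Subtype.ext ?_⟩
  have h0 : Φ x.1 = 0 := Module.End.eq_zero_of_isNilpotent_isSemisimple
    ((hx.map (Algebra.adjoin O s).val).map Φ) (key x.1 x.2)
  refine LinearMap.ext fun w => ?_
  have h1 : (1 : K) ⊗ₜ[O] (x.1 w) = 0 := LinearMap.congr_fun h0 ((1 : K) ⊗ₜ[O] w)
  have h2 : Function.Injective (fun m : W => (1 : K) ⊗ₜ[O] m) := fun a b hab => by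
    refine (TensorProduct.lid O W).symm.injective
      (Module.Flat.rTensor_preserves_injective_linearMap (M := W) (Algebra.linearMap O K)
        (IsFractionRing.injective O K) ?_)
    simpa using hab
  exact h2 (h1.trans (TensorProduct.tmul_zero W (1 : K)).symm)

end Fermat.Agent.LevelLowering.Avoid
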