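import Fermat.Agent.LevelLowering.Avoid.Level.Basic
import Fermat.Agent.LevelLowering.Avoid.Level.Reduced
import Fermat.Agent.Lifting.TWTwisted
import Fermat.Agent.HeckeRep.Local

/-!
# Ihara avoidance: the algebra of a level is reduced and is fed by the twisted Hecke algebra

The operators act semisimply in characteristic zero, so the algebra is reduced; twisting by the
square root of the diamond operators maps the Hecke algebra of the twisted level into it.
-/

set_option autoImplicit false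

noncomputable section

open IsLocalRing CuspForm
open Fermat.Agent.GroupH1
open Fermat.Agent.HeckeCohom (OpIdx wordEval wordEval_surjective)
open scoped TensorProduct

namespace Fermat.Agent.LevelLowering.Avoid

variable {O : Type} [CommRing O] [IsDomain O] [IsDiscreteValuationRing O]
  [IsAdicComplete (maximalIdeal O) O]

omit [IsAdicComplete (maximalIdeal O) O] in
/-- An action of the local Hecke algebra lands in any subalgebra containing the images of the
Hecke operators. -/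
theorem act_mem_of_generators {W : Type} [AddCommGroup W] [Module O W] [Module.Finite O W]
    {N : ℕ} [NeZero N] {S : Set ℕ} {θ : heckeAlgebra N 2 S →+* ResidueField O}
    (hNS : ∀ q : ℕ, q.Prime → q ∣ N → q ∈ S)
    (act : heckeLocal N S O θ →ₐ[O] Module.End O W) (C : Subalgebra O (Module.End O W))
    (hT : ∀ (ℓ : ℕ) (hℓ : ℓ.Prime) (hℓN : ¬ ℓ ∣ N) (hℓS : ℓ ∉ S),
      act (heckeLocal.π N S O θ (heckeAlgebra.T hℓ hℓN hℓS)) ∈ C)
    (x : heckeLocal N S O θ) : act x ∈ C := by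
  have hπ : ∀ t, act (heckeLocal.π N S O θ t) ∈ C := by
    intro t
    obtain ⟨P, rfl⟩ := wordEval_surjective (N := N) (S := S) t
    induction P using FreeAlgebra.induction with
    | grade0 a => rw [AlgHom.commutes, eq_intCast, map_intCast, map_intCast]; exact intCast_mem C a
    | grade1 i =>
      have hiN : ¬ (i.1 : ℕ) ∣ N := fun hd => i.2 (hNS _ i.1.2 hd)
      rw [show wordEval N S (FreeAlgebra.ι ℤ i) = heckeAlgebra.T i.1.2 hiN i.2 by
        simp [wordEval, hiN]]
      exact hT _ i.1.2 hiN i.2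
    | add a b ha hb => simp only [map_add]; exact add_mem ha hb
    | mul a b ha hb => simp only [map_mul]; exact mul_mem ha hb
  have hbase : ∀ b : heckeBaseAlgebra N S O,
      act (algebraMap (heckeBaseAlgebra N S O) (heckeLocal N S O θ) b) ∈ C := by
    intro b
    obtain ⟨z, rfl⟩ := latticeBaseChange_surjective N S O b
    induction z using TensorProduct.induction_on with
    | zero => simp
    | tmul a t =>
      have h : a ⊗ₜ[ℤ] t = algebraMap O (O ⊗[ℤ] heckeAlgebra N 2 S) a * ((1 : O) ⊗ₜ t) := by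
        rw [Algebra.TensorProduct.algebraMap_apply, Algebra.algebraMap_self, RingHom.id_apply,
          Algebra.TensorProduct.tmul_mul_tmul, mul_one, one_mul]
      rw [h, map_mul, map_mul, map_mul, latticeBaseChange_algebraMap,
        ← IsScalarTower.algebraMap_apply, AlgHom.commutes]
      exact mul_mem (C.algebraMap_mem a) (hπ t)
    | add a b ha hb => simp only [map_add]; exact add_mem ha hb
  obtain ⟨⟨b, s⟩, h⟩ := IsLocalization.surj (heckeLocalSubmonoid N S O θ) x
  obtain ⟨u, hu⟩ := IsLocalization.map_units (heckeLocal N S O θ) s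
  have hx : x = algebraMap (heckeBaseAlgebra N S O) (heckeLocal N S O θ) b *
      (↑u⁻¹ : heckeLocal N S O θ) := by
    rw [Units.eq_mul_inv_iff_mul_eq, hu]
    exact h
  rw [hx, map_mul]
  refine mul_mem (hbase b) (HeckeCohom.mem_of_mul_eq_one C (y := act (u : heckeLocal N S O θ))
    (hu ▸ hbase s) ?_ ?_ (Algebra.IsIntegral.isIntegral _))
  · rw [← map_mul, Units.mul_inv, map_one]
  · rw [← map_mul, Units.inv_mul, map_one]

namespace AvoidSetup

variable {p : ℕ} {X : AvoidSetup p O} {r : ℕ} (T : X.TWTuple r)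

namespace TWTuple

/-- **The algebra of a level is reduced and is an image of the twisted local Hecke algebra.** -/
theorem heckeLevel : T.HeckeLevel := by
  intro _ _ hW hbase
  classical
  have := X.fact_prime
  have : Nontrivial (Lifting.levelLoc O X.baseLevel X.a) := hbase
  have hNS : ∀ q : ℕ, q.Prime → q ∣ T.twLevel → q ∈ T.badPrimes :=
    fun q hq h => T.mem_badPrimes_of_dvd hq h
  obtain ⟨ℓ₀, -, h1, hne⟩ := hW.nonEis T.twLevel (NeZero.ne _) T.badPrimes
  have hdvd : X.baseLevel ∣ T.twLevel :=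
    (T.level_eq_baseLevel_mul ▸ dvd_mul_right _ _ : X.baseLevel ∣ T.level).trans
      (dvd_mul_right _ _)
  obtain ⟨θ, hθ⟩ := Lifting.exists_theta_of_dvd hdvd hNS X.a ⟨ℓ₀, by
    rw [← map_natCast (ZMod.castHom hdvd (ZMod X.baseLevel)) (ℓ₀ : ℕ), h1, map_one], hne⟩
  obtain ⟨ℓ₁, -, hℓ₁, hne₁⟩ := T.exists_nonEis hW T.twLevel (NeZero.ne _)
  let s : Finset ℕ := Finset.univ.image T.pr
  have hs' : ∏ l, T.pr l = ∏ q ∈ s, q :=
    (Finset.prod_image (f := fun q : ℕ => q) fun a _ b _ h => T.pr_injective h).symm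
  obtain ⟨act, -, hact⟩ := HeckeCohom.exists_twistedLocalAct T.topChar T.topChar_surjective
    T.mem_subH_iff T.idl (p := p) X.p_mem T.isPGroup_delta T.halfExp T.pow_two_mul_halfExp
    (s := s) (M' := T.twLevel) (by rw [twLevel, hs'])
    (fun q hq => by
      obtain ⟨l, -, rfl⟩ := Finset.mem_image.1 hq
      exact ⟨T.pr_prime l, T.pr_dvd_level l, T.not_sq_pr_dvd_level l⟩)
    (fun u hu => by
      rw [MonoidHom.mem_ker]
      funext l
      show T.compChar l (ZMod.unitsMap (T.pr_dvd_level l) u) = 1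
      rw [show ZMod.unitsMap (T.pr_dvd_level l) u = 1 from Units.ext
        (hu _ (Finset.mem_image_of_mem _ (Finset.mem_univ l)) (T.pr_dvd_level l)), map_one])
    (S := (↑T.badPrimes : Set ℕ))
    (fun ℓ hℓ hd => Finset.mem_coe.2 (hNS ℓ hℓ (hd.trans (dvd_mul_right _ _)))) θ
    (fun ℓ hℓ hℓN hℓS => by
      obtain ⟨c, hc⟩ := residue_surjective (X.a ⟨ℓ, hℓ⟩)
      refine ⟨c, hc.trans (hθ ℓ hℓ hℓN hℓS).symm,
        (X_sub_C_mem_eigIdeal_iff (ℓ := (⟨ℓ, hℓ⟩ : Nat.Primes))).2 ?_⟩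
      rw [T.sys_eq_of_notMem (ℓ := ⟨ℓ, hℓ⟩) fun h => hℓS (Finset.mem_coe.2 h), hc])
    ⟨ℓ₁, hℓ₁, hne₁⟩
  have hact' : ∀ (ℓ : ℕ) (hℓ : ℓ.Prime) (hℓN : ¬ ℓ ∣ T.twLevel)
      (hℓS : ℓ ∉ (↑T.badPrimes : Set ℕ)),
      act (heckeLocal.π T.twLevel (↑T.badPrimes : Set ℕ) O θ (heckeAlgebra.T hℓ hℓN hℓS)) =
        (T.twA ⟨ℓ, hℓ⟩ hℓS : Module.End O T.Space) := fun ℓ hℓ hℓN hℓS =>
    LinearMap.ext fun x => hact ℓ hℓ hℓN hℓS x
  have hmem : ∀ z, act z ∈ Algebra.adjoin O T.gens :=
    act_mem_of_generators (fun q hq h => Finset.mem_coe.2 (hNS q hq h)) act _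
      fun ℓ hℓ hℓN hℓS => hact' ℓ hℓ hℓN hℓS ▸ (T.twA ⟨ℓ, hℓ⟩ hℓS).2
  have : Fact (CuspForm.HasIntegralStructure T.twLevel 2) :=
    HeckeRep.fact_hasIntegralStructure T.twLevel
  refine ⟨?_, θ, act.codRestrict _ hmem, fun ℓ hℓ hℓN hℓS =>
    ⟨hθ ℓ hℓ hℓN hℓS, Subtype.ext (hact' ℓ hℓ hℓN hℓS)⟩⟩
  have : IsReduced (heckeLocal T.twLevel (↑T.badPrimes : Set ℕ) O θ) :=
    HeckeRep.isReduced_heckeLocal T.twLevel (↑T.badPrimes : Set ℕ) O θ
      fun q hq h => Finset.mem_coe.2 (hNS q hq h)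
  let K := FractionRing O
  have : CharZero K := charZero_of_injective_algebraMap (IsFractionRing.injective O K)
  have hdia : ∀ δ, (Module.End.baseChangeHom O K T.Space (T.dia δ)).IsSemisimple := fun δ => by
    obtain ⟨m, hm⟩ := T.isPGroup_delta δ
    exact isSemisimple_baseChange_of_pow_eq_one K (n := p ^ m)
      (pow_ne_zero _ X.fact_prime.out.ne_zero) (by rw [← map_pow, hm, map_one])
  refine isReduced_adjoin_of_isSemisimple K T.gens_comm ?_
  rintro f (⟨δ, rfl⟩ | ⟨ℓ, hℓ, rfl⟩)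
  · exact hdia δ
  · have hℓN : ¬ (ℓ : ℕ) ∣ T.twLevel := fun h => hℓ (hNS ℓ ℓ.2 h)
    set δ := HeckeCohom.classOf T.topChar (HeckeCohom.unitAt T.level ℓ) ^ T.halfExp
    set t := heckeLocal.π T.twLevel (↑T.badPrimes : Set ℕ) O θ (heckeAlgebra.T ℓ.2 hℓN hℓ)
    have h2 : act t = T.dia δ * T.heckeEnd ℓ := hact' ℓ ℓ.2 hℓN hℓ
    have h3 : T.heckeEnd ℓ = T.dia δ⁻¹ * act t := by
      rw [h2, ← mul_assoc, ← map_mul, inv_mul_cancel, map_one, one_mul]
    rw [h3, map_mul]
    refine (hdia δ⁻¹).mul_of_commute (Commute.map ?_ _)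
      (isSemisimple_baseChange_algHom K act t)
    rw [h2, Commute, SemiconjBy, ← mul_assoc, ← map_mul, mul_assoc, ← T.dia_heckeEnd_comm,
      ← mul_assoc, ← map_mul, mul_comm]

end TWTuple

end AvoidSetup

end Fermat.Agent.LevelLowering.Avoid
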