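import Fermat.Agent.LevelLowering.Avoid.Descent

/-!
# The eigenvalue of `T_q` after descent at `q`

With `trace ∘ res = q + 1` and `res ∘ T_q = U_q ∘ res + al ∘ ⟨q⟩⁻¹ ∘ res`, the descended class of an
eigenclass with `U_q = α` is `trace (al x)` and has `T_q = α + q / (χ(q) α)`.
-/

set_option autoImplicit false

noncomputable section

open Matrix
open Fermat.Agent.GroupH1
open Fermat.Agent.HeckeLattice (toGL toGL_mul toGL_one CosetSystem)
open scoped MatrixGroups OnePoint

namespace Fermat.Agent.LevelLowering.Avoid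

variable {M : ℕ} {H₀ : Subgroup (ZMod M)ˣ} {q : ℕ} [hq : Fact q.Prime] (hM : ¬ q ∣ M)

/-- The representative of `T_q` at infinity divided by the Atkin–Lehner matrix. -/
def wDiv : G₀ (M * q) :=
  ⟨⟨!![bezA M q ^ 2 * q + bezB M q * M, bezB M q * (bezA M q - 1);
      ((M * q : ℕ) : ℤ) * (bezA M q - 1), bezB M q * M + q], by
    rw [Matrix.det_fin_two_of]
    push_cast
    linear_combination (bezA M q * q + bezB M q * M + 1) * bez_eq hq.out hM⟩,
    mem_G₀.2 ((ZMod.intCast_zmod_eq_zero_iff_dvd _ _).2 ⟨bezA M q - 1, by simp⟩)⟩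

lemma wDiv_mul_alGL : toGL (wDiv hM) * alGL hM = repGL M q (wIdx hM) := by
  refine Units.ext ?_
  rw [Units.val_mul, coe_alGL, coe_repGL, coe_toGL, ← realMat_mul]
  refine congrArg realMat ?_
  rw [repInt_infty, alMat]
  have hb := bez_eq hq.out hM
  ext i k
  fin_cases i <;> fin_cases k <;> simp [wDiv, Matrix.mul_apply, Fin.sum_univ_two] <;>
    (first
      | linear_combination (bezA M q * q : ℤ) * hb
      | linear_combination (-bezB M q : ℤ) * hb
      | linear_combination ((M : ℤ) * q) * hb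
      | linear_combination (q : ℤ) * hb)

lemma ulUnit_alSq_mul_wDiv :
    ulUnit (⟨alSq hM, G₀_le (alSq hM).2⟩ : G₀ M) * ulUnit (⟨wDiv hM, G₀_le (wDiv hM).2⟩ : G₀ M) =
      1 := by
  have hbM := congrArg (Int.cast : ℤ → ZMod M) (bez_eq hq.out hM)
  push_cast at hbM
  rw [ZMod.natCast_self, mul_zero, add_zero] at hbM
  ext
  simp [coe_ulUnit, alSq, wDiv]
  linear_combination ((bezA M q : ZMod M) * q + 1) * hbM

section Ops

variable {B : Type*} [AddCommGroup B]

omit hq in
lemma diaOp_diaOp {N : ℕ} {H : Subgroup (ZMod N)ˣ} (g h : G₀ N)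
    (φ : Additive (GammaH N H) →+ B) : diaOp g (diaOp h φ) = diaOp (h * g) φ := by
  refine AddMonoidHom.ext fun γ => ?_
  rw [← ofMul_toMul γ, diaOp_apply, diaOp_apply, diaOp_apply, conjHom_mul]

/-- `al ∘ al ∘ ⟨wDiv⟩ = 1`. -/
theorem alOp_alOp_wDiv (φ : Additive (GammaH (M * q) (levelH H₀ q)) →+ B) :
    alOp hM (alOp hM (diaOp (wDiv hM) φ)) = φ := by
  rw [alOp_alOp, diaOp_diaOp]
  refine diaOp_eq_self ((mem_GammaH_iff_ulUnit _).2 ?_) φ
  rw [Subgroup.mem_comap, ulUnit_mul, map_mul, ← ulUnit_incl, ← ulUnit_incl, mul_comm,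
    ulUnit_alSq_mul_wDiv]
  exact H₀.one_mem

/-- `res ∘ T_q = U_q ∘ res + al ∘ ⟨wDiv⟩ ∘ res`. -/
theorem resOp_transfer_self (φ : Additive (GammaH M H₀) →+ B) :
    resOp H₀ q ((heckeSystem M H₀ q).transfer φ) =
      (heckeSystem (M * q) (levelH H₀ q) q).transfer (resOp H₀ q φ) +
        alOp hM (diaOp (wDiv hM) (resOp H₀ q φ)) := by
  refine AddMonoidHom.ext fun γ => ?_
  rw [← ofMul_toMul γ, resOp, resHom_apply, AddMonoidHom.add_apply, CosetSystem.transfer_apply,
    CosetSystem.transfer_apply, sum_hIdx_split hM, add_comm, alOp_apply, diaOp_apply,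
    resHom_apply]
  set c := Additive.toMul γ
  congr 1
  · refine Finset.sum_congr rfl fun j _ => ?_
    rw [resHom_apply]
    refine congrArg (fun g => φ (Additive.ofMul g)) (((heckeSystem M H₀ q).eq_of_rep_mul
      (y := emb hM ((heckeSystem (M * q) (levelH H₀ q) q).next c j)) ?_).2)
    show repGL M q (emb hM j) * _ = _ * repGL M q (emb hM _)
    rw [repGL_emb, repGL_emb]
    exact (heckeSystem (M * q) (levelH H₀ q) q).rep_mul c j
  · refine congrArg (fun g => φ (Additive.ofMul g)) (((heckeSystem M H₀ q).eq_of_rep_mul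
      (y := wIdx hM) ?_).2)
    show repGL M q (wIdx hM) * toGL c = toGL (conjHom _ (wDiv hM) _) * repGL M q (wIdx hM)
    rw [← wDiv_mul_alGL, mul_assoc, al_mul, ← mul_assoc, ← mul_assoc]
    refine congrArg (· * alGL hM) ?_
    simp only [toGL, conjHom, MonoidHom.coe_mk, OneHom.coe_mk, map_mul, map_inv, mul_assoc,
      inv_mul_cancel, mul_one]

/-- `trace ∘ res = q + 1`. -/
theorem traceOp_resOp (φ : Additive (GammaH M H₀) →+ B) :
    traceOp hM (resOp H₀ q φ) = (q + 1) • φ := by
  refine AddMonoidHom.ext fun γ => ?_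
  rw [← ofMul_toMul γ, traceOp, DoubleSystem.transfer_apply, AddMonoidHom.nsmul_apply]
  set c := Additive.toMul γ
  set D := traceSystem H₀ hM
  have key : ∀ x, resOp H₀ q φ (Additive.ofMul (D.cocycle c x)) =
      φ (Additive.ofMul c) + (φ (Additive.ofMul (transversal H₀ hM x)) -
        φ (Additive.ofMul (transversal H₀ hM (D.next c x)))) := by
    intro x
    have h : (⟨D.cocycle c x, levelH_le (D.cocycle c x).2⟩ : GammaH M H₀) =
        transversal H₀ hM x * c * (transversal H₀ hM (D.next c x))⁻¹ := by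
      refine eq_mul_inv_of_mul_eq (HeckeLattice.toGL_injective ?_)
      rw [toGL_mul, toGL_mul]
      exact (D.rep_mul c x).symm
    rw [resOp, resHom_apply, h, ofMul_mul, ofMul_mul, ofMul_inv, map_add, map_add, map_neg]
    abel
  have hcard : Fintype.card (Option (ZMod q)) = q + 1 := by rw [Fintype.card_option, ZMod.card]
  simp only [key, Finset.sum_add_distrib, Finset.sum_sub_distrib, Finset.sum_const,
    Finset.card_univ, hcard]
  rw [show ∑ x, φ (Additive.ofMul (transversal H₀ hM (D.next c x))) =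
      ∑ x, φ (Additive.ofMul (transversal H₀ hM x)) from
    Equiv.sum_comp (D.nextPerm c) (fun x => φ (Additive.ofMul (transversal H₀ hM x))), sub_self,
    add_zero]

end Ops

variable [NeZero M] {K : Type} [Field K] [CharZero K]

omit [NeZero M] [CharZero K] in
lemma X_resHLin_self (y : HMod M H₀ K) :
    resHLin H₀ q ((MvPolynomial.X (primeOf q) : HeckePoly K) • y) =
      (MvPolynomial.X (primeOf q) : HeckePoly K) • resHLin H₀ q y +
        alHLin hM (diaLin (wDiv hM) (resHLin H₀ q y)) := by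
  obtain ⟨φ, rfl⟩ := toH.surjective y
  rw [X_smul_toH]
  show toH (resOp H₀ q ((heckeSystem M H₀ q).transfer φ)) = _
  rw [resOp_transfer_self hM]
  show _ = (MvPolynomial.X (primeOf q) : HeckePoly K) • toH (resOp H₀ q φ) +
    alHLin hM (diaLin (wDiv hM) (toH (resOp H₀ q φ)))
  rw [X_smul_toH, diaLin_toH, alHLin_toH, map_add]

omit [NeZero M] [CharZero K] in
lemma traceHLin_resHLin (y : HMod M H₀ K) :
    traceHLin hM (resHLin H₀ q y) = (q + 1 : K) • y := by
  obtain ⟨φ, rfl⟩ := toH.surjective y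
  show toH (traceOp hM (resOp H₀ q φ)) = _
  rw [traceOp_resOp, map_nsmul, ← Nat.cast_smul_eq_nsmul K, Nat.cast_add, Nat.cast_one]

omit [NeZero M] [CharZero K] in
lemma alHLin_alHLin_wDiv (x : HMod (M * q) (levelH H₀ q) K) :
    alHLin hM (alHLin hM (diaLin (wDiv hM) x)) = x := by
  obtain ⟨φ, rfl⟩ := toH.surjective x
  rw [diaLin_toH, alHLin_toH, alHLin_toH, alOp_alOp_wDiv]

omit [NeZero M] [CharZero K] in
/-- `trace ∘ U_q ∘ al = q trace`. -/
lemma traceHLin_U_al (v : HMod (M * q) (levelH H₀ q) K) :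
    traceHLin hM ((MvPolynomial.X (primeOf q) : HeckePoly K) • alHLin hM v) =
      (q : K) • traceHLin hM v := by
  have h := congrArg (traceHLin hM) (resHLin_traceHLin hM v)
  rw [traceHLin_resHLin, map_add, add_smul, one_smul, add_comm] at h
  exact (add_left_cancel h).symm

/-- `T_q ∘ trace`. -/
lemma X_traceHLin_self (v : HMod (M * q) (levelH H₀ q) K) :
    (MvPolynomial.X (primeOf q) : HeckePoly K) • traceHLin hM v =
      traceHLin hM (alHLin hM (diaLin (wDiv hM)
        ((MvPolynomial.X (primeOf q) : HeckePoly K) • alHLin hM v))) +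
        traceHLin hM (alHLin hM (diaLin (wDiv hM) v)) := by
  refine resHLin_injective (q := q) ?_
  rw [X_resHLin_self hM, map_add (resHLin H₀ q), resHLin_traceHLin, resHLin_traceHLin,
    resHLin_traceHLin, alHLin_alHLin_wDiv, alHLin_alHLin_wDiv, smul_add, map_add, map_add]
  abel

variable (P : Set Nat.Primes) (hP : primeOf q ∉ P) {a : Nat.Primes → K} {χ : (ZMod M)ˣ → K}

include hM hP in
/-- **Descent at `q` with the eigenvalue of `T_q`.** -/
theorem exists_descent_eigen {x : HMod (M * q) (levelH H₀ q) K} (hx0 : x ≠ 0)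
    (hx : IsEigen P a (fun g => χ (ulUnit ⟨g, G₀_le g.2⟩)) x) {α : K}
    (hU : (MvPolynomial.X (primeOf q) : HeckePoly K) • x = α • x) {u : (ZMod M)ˣ}
    (hu : (u : ZMod M) = q) (hα : χ u * α ^ 2 ≠ 1) :
    α ≠ 0 ∧ ∃ z : HMod M H₀ K, z ≠ 0 ∧ IsEigen P a (fun g => χ (ulUnit g)) z ∧
      (MvPolynomial.X (primeOf q) : HeckePoly K) • z = (α + (q : K) / (χ u * α)) • z := by
  have hu' : ulUnit (⟨alSq hM, G₀_le (alSq hM).2⟩ : G₀ M) = u :=
    Units.ext ((ulUnit_alSq hM).trans hu.symm)
  set U : HeckePoly K := MvPolynomial.X (primeOf q) with hUdef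
  set c := χ u with hc
  set c' := χ (ulUnit (⟨wDiv hM, G₀_le (wDiv hM).2⟩ : G₀ M))
  have hd : diaLin (alSq hM) x = c • x := by rw [hc, ← hu']; exact hx.2 (alSq hM)
  have hal : alHLin hM (alHLin hM x) = c • x := by rw [alHLin_alHLin, hd]
  have hw : diaLin (wDiv hM) x = c' • x := hx.2 (wDiv hM)
  have hcc : c * c' = 1 := by
    have h1 := alHLin_alHLin_wDiv hM x
    rw [hw, map_smul, map_smul, hal, smul_smul] at h1
    have h2 : (c' * c - 1) • x = 0 := by rw [sub_smul, one_smul, h1, sub_self]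
    by_contra h
    exact hx0 (smul_eq_zero_hMod (sub_ne_zero.2 (by rwa [mul_comm])) x h2)
  have hUal : U • alHLin hM (alHLin hM x) = (c * α) • x := by
    rw [hal, smul_comm, hU, smul_smul]
  set y := traceHLin hM x
  set z := traceHLin hM (alHLin hM x)
  have e1 : (c * α) • y = (q : K) • z := by
    rw [← traceHLin_U_al hM (alHLin hM x), ← hUdef, hUal, map_smul]
  have hdal : diaLin (wDiv hM) (alHLin hM x) = c' • alHLin hM x := by
    rw [diaLin_alHLin, hw, map_smul]
  have e2 : U • z = α • z + y := by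
    have e := X_traceHLin_self hM (alHLin hM x)
    rw [← hUdef] at e
    rw [e, hUal, hdal, map_smul (diaLin (wDiv hM)), hw, smul_smul, map_smul, map_smul, map_smul,
      hal, smul_smul, map_smul]
    rw [show c * α * c' = α by linear_combination α * hcc,
      show c' * c = 1 by linear_combination hcc, one_smul]
  have hz : z ≠ 0 := by
    intro h2
    rw [h2, smul_zero, smul_zero, zero_add] at e2
    have h1 : y = 0 := e2.symm
    have e1' : U • alHLin hM x = -x := by
      rw [← sub_eq_zero, sub_neg_eq_add, add_comm, ← resHLin_traceHLin]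
      exact (congrArg (resHLin H₀ q) h1).trans (map_zero _)
    have e3 : (c * α) • x = -alHLin hM x := by
      rw [← hUal, ← sub_eq_zero, sub_neg_eq_add, add_comm, ← resHLin_traceHLin]
      exact (congrArg (resHLin H₀ q) h2).trans (map_zero _)
    have e4 : (c * α ^ 2) • x = x := by
      have := congrArg (U • ·) e3
      simp only [smul_neg, e1', neg_neg] at this
      rw [smul_comm, hU, smul_smul] at this
      rwa [pow_two, ← mul_assoc]
    exact hx0 (smul_eq_zero_hMod (sub_ne_zero.2 hα) x (by rw [sub_smul, one_smul, e4, sub_self]))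
  have hαne : c * α ≠ 0 := fun h => by
    rw [h, zero_smul] at e1
    exact hz (smul_eq_zero_hMod (Nat.cast_ne_zero.2 hq.out.ne_zero) z e1.symm)
  refine ⟨right_ne_zero_of_mul hαne, z, hz, (hx.al hM hP).trace hM hP, ?_⟩
  rw [e2, add_smul, ← inv_smul_smul₀ hαne y, e1, smul_smul, ← div_eq_inv_mul]

end Fermat.Agent.LevelLowering.Avoid
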