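import Fermat.Agent.GroupH1.TW
import Mathlib.RingTheory.IntegralClosure.Algebra.Basic
import Mathlib.RingTheory.Ideal.GoingUp
import Mathlib.Algebra.CharP.Lemmas
import Mathlib.Algebra.Module.PID

/-!
# Residual systems of eigenclasses

Eigenvalues of classes in `Hom(Γ_H(N), K)` are integral over `O`; eigenvalues whose relations lie
in the maximal ideal of a residual system reduce to it; an eigenclass reducing to a residual system
makes the localised module of its level non-zero.
-/

set_option autoImplicit false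

noncomputable section

open IsLocalRing
open Fermat.Agent.GroupH1
open Fermat.Agent.HeckeLattice (CosetSystem)

namespace Fermat.Agent.LevelLowering.Avoid

variable {O : Type} [CommRing O] {K : Type} [Field K] [Algebra O K] {N : ℕ}
  {H : Subgroup (ZMod N)ˣ}

/-- The values of a class. -/
def valueSpan (v : HMod N H K) : Submodule O K :=
  Submodule.span O (Set.range fun γ : GammaH N H => toH.symm v (Additive.ofMul γ))

lemma mem_valueSpan (v : HMod N H K) (γ : GammaH N H) :
    toH.symm v (Additive.ofMul γ) ∈ valueSpan (O := O) v := Submodule.subset_span ⟨γ, rfl⟩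

lemma valueSpan_fg [NeZero N] (v : HMod N H K) : (valueSpan (O := O) v).FG := by
  obtain ⟨S, hS⟩ := (Group.fg_def.1 (inferInstance : Group.FG (GammaH N H)) :
    (⊤ : Subgroup (GammaH N H)).FG)
  classical
  refine ⟨S.image fun γ => toH.symm v (Additive.ofMul γ), le_antisymm ?_ ?_⟩
  · refine Submodule.span_le.2 fun y hy => ?_
    obtain ⟨γ, -, rfl⟩ := Finset.mem_image.1 (Finset.mem_coe.1 hy)
    exact mem_valueSpan v γ
  · refine Submodule.span_le.2 ?_
    rintro _ ⟨g, rfl⟩
    have hg : g ∈ Subgroup.closure (S : Set (GammaH N H)) := hS ▸ trivial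
    induction hg using Subgroup.closure_induction with
    | mem x hx => exact Submodule.subset_span (Finset.mem_coe.2 (Finset.mem_image_of_mem _ hx))
    | one => simp
    | mul a b _ _ ha hb =>
      simp only [SetLike.mem_coe, ofMul_mul, map_add] at ha hb ⊢
      exact add_mem ha hb
    | inv a _ ha =>
      simp only [SetLike.mem_coe, ofMul_inv, map_neg] at ha ⊢
      exact neg_mem ha

/-- The eigenvalue relation on values. -/
lemma sum_cocycle_eq_mul {ℓ : ℕ} [Fact ℓ.Prime] {v : HMod N H K} {c : K}
    (hv : (MvPolynomial.X (primeOf ℓ) : HeckePoly K) • v = c • v) (γ : GammaH N H) :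
    ∑ x, toH.symm v (Additive.ofMul ((heckeSystem N H ℓ).cocycle γ x)) =
      c * toH.symm v (Additive.ofMul γ) := by
  obtain ⟨φ, rfl⟩ := toH.surjective v
  rw [X_smul_toH, ← map_smul, toH.injective.eq_iff] at hv
  have h := DFunLike.congr_fun hv (Additive.ofMul γ)
  rw [CosetSystem.transfer_apply, AddMonoidHom.smul_apply, smul_eq_mul] at h
  simpa using h

/-- Eigenvalues preserve the values. -/
lemma smul_mem_valueSpan {v : HMod N H K} {b : Nat.Primes → K}
    (hv : ∀ ℓ, (MvPolynomial.X ℓ : HeckePoly K) • v = b ℓ • v) (ℓ : Nat.Primes) {y : K}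
    (hy : y ∈ valueSpan (O := O) v) : b ℓ * y ∈ valueSpan (O := O) v := by
  obtain ⟨ℓ, hℓ⟩ := ℓ
  have : Fact ℓ.Prime := ⟨hℓ⟩
  induction hy using Submodule.span_induction with
  | mem y hy =>
    obtain ⟨γ, rfl⟩ := hy
    have h := hv (primeOf ℓ)
    rw [← sum_cocycle_eq_mul h γ]
    exact Submodule.sum_mem _ fun x _ => mem_valueSpan v _
  | zero => rw [mul_zero]; exact Submodule.zero_mem _
  | add a c _ _ ha hc => rw [mul_add]; exact add_mem ha hc
  | smul r a _ ha => rw [mul_smul_comm]; exact Submodule.smul_mem _ r ha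

lemma valueSpan_ne_bot {v : HMod N H K} (hv : v ≠ 0) : valueSpan (O := O) v ≠ ⊥ := fun h => by
  refine hv (toH.symm.injective (AddMonoidHom.ext fun γ => ?_))
  have h1 := mem_valueSpan (O := O) v (Additive.toMul γ)
  rw [h, Submodule.mem_bot] at h1
  simpa using h1

/-- **Eigenvalues are integral.** -/
theorem isIntegral_of_eigen [NeZero N] {v : HMod N H K} (hv0 : v ≠ 0) {b : Nat.Primes → K}
    (hv : ∀ ℓ, (MvPolynomial.X ℓ : HeckePoly K) • v = b ℓ • v) (ℓ : Nat.Primes) :
    IsIntegral O (b ℓ) :=
  isIntegral_of_smul_mem_submodule (valueSpan (O := O) v) (valueSpan_ne_bot hv0) (valueSpan_fg v)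
    (b ℓ) fun _ hy => smul_mem_valueSpan hv ℓ hy

section Reduction

variable [IsLocalRing O]

/-- A reduction of the integers of `K` compatible with that of `O`. -/
structure Reduction (O : Type) [CommRing O] [IsLocalRing O] (K : Type) [Field K] [Algebra O K] where
  κ : Type
  [field : Field κ]
  red : integralClosure O K →+* κ
  ι : ResidueField O →+* κ
  comm : ∀ r : O, red (algebraMap O _ r) = ι (residue O r)

attribute [instance] Reduction.field

/-- `x` reduces to `s`. -/
def Reduction.Reduces (R : Reduction O K) (x : K) (s : ResidueField O) : Prop :=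
  ∃ h : IsIntegral O x, R.red ⟨x, h⟩ = R.ι s

omit [IsLocalRing O] in
/-- A system of integral values with relations in `eigIdeal s` reduces to `s` somewhere. -/
theorem exists_reduction [IsLocalRing O] (b : Nat.Primes → K) (hb : ∀ ℓ, IsIntegral O (b ℓ))
    (s : Nat.Primes → ResidueField O)
    (h : ∀ u : HeckePoly O, MvPolynomial.eval₂ (algebraMap O K) b u = 0 → u ∈ eigIdeal s) :
    ∃ R : Reduction O K, ∀ ℓ, R.Reduces (b ℓ) (s ℓ) := by
  let f : HeckePoly O →ₐ[O] integralClosure O K := MvPolynomial.aeval fun ℓ => ⟨b ℓ, hb ℓ⟩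
  let _ : Algebra (HeckePoly O) (integralClosure O K) := (f : HeckePoly O →+* _).toAlgebra
  have : IsScalarTower O (HeckePoly O) (integralClosure O K) :=
    IsScalarTower.of_algebraMap_eq fun r => (f.commutes r).symm
  have : Algebra.IsIntegral O (integralClosure O K) := integralClosure.AlgebraIsIntegral
  have : Algebra.IsIntegral (HeckePoly O) (integralClosure O K) := Algebra.IsIntegral.tower_top O
  have hf : ∀ u, ((f u : integralClosure O K) : K) = MvPolynomial.eval₂ (algebraMap O K) b u :=
    fun u => DFunLike.congr_fun (MvPolynomial.algHom_ext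
      (f := (integralClosure O K).val.comp f) (g := MvPolynomial.aeval b) fun ℓ => by simp [f]) u
  obtain ⟨Q, hQ, hQP⟩ := Ideal.exists_ideal_over_maximal_of_isIntegral
    (S := integralClosure O K) (eigIdeal s) fun u hu => h u (by
      rw [← hf, show f u = 0 from hu]; rfl)
  let _ : Field (integralClosure O K ⧸ Q) := Ideal.Quotient.field Q
  let ι : ResidueField O →+* integralClosure O K ⧸ Q := Ideal.Quotient.lift (maximalIdeal O)
    ((Ideal.Quotient.mk Q).comp (algebraMap O _)) fun r hr => by
      have h1 : (MvPolynomial.C r : HeckePoly O) ∈ Q.comap (algebraMap (HeckePoly O) _) :=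
        hQP.symm ▸ C_mem_eigIdeal hr
      rw [RingHom.comp_apply, Ideal.Quotient.eq_zero_iff_mem]
      rw [Ideal.mem_comap] at h1
      rwa [← f.commutes r, MvPolynomial.algebraMap_eq]
  refine ⟨{ κ := integralClosure O K ⧸ Q, red := Ideal.Quotient.mk Q, ι := ι,
            comm := fun r => rfl }, fun ℓ => ⟨hb ℓ, ?_⟩⟩
  obtain ⟨r, hr⟩ := residue_surjective (s ℓ)
  have h1 : (MvPolynomial.X ℓ - MvPolynomial.C r : HeckePoly O) ∈
      Q.comap (algebraMap (HeckePoly O) _) := hQP.symm ▸ X_sub_C_mem_eigIdeal_iff.2 hr.symm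
  rw [Ideal.mem_comap] at h1
  show Ideal.Quotient.mk Q _ = ι (s ℓ)
  rw [← hr, show ι (residue O r) = Ideal.Quotient.mk Q (algebraMap O _ r) from rfl,
    Ideal.Quotient.eq]
  convert h1 using 1
  show _ = f _
  simp [f]

variable (R : Reduction O K)

omit [IsLocalRing O] in
/-- Reductions are transported along equalities. -/
lemma Reduction.Reduces.congr [IsLocalRing O] {R : Reduction O K} {x : K} {s s' : ResidueField O}
    (h : R.Reduces x s) (h' : s = s') : R.Reduces x s' := h' ▸ h

lemma Reduction.reduces_algebraMap (r : O) : R.Reduces (algebraMap O K r) (residue O r) :=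
  ⟨isIntegral_algebraMap, R.comm r⟩

/-- Natural numbers reduce to themselves. -/
lemma Reduction.reduces_natCast (n : ℕ) : R.Reduces (n : K) (n : ResidueField O) := by
  simpa using R.reduces_algebraMap (n : O)

variable {R}

/-- Reductions are multiplicative. -/
lemma Reduction.Reduces.mul {x y : K} {s t : ResidueField O} (hx : R.Reduces x s)
    (hy : R.Reduces y t) : R.Reduces (x * y) (s * t) :=
  ⟨hx.1.mul hy.1, by
    rw [map_mul R.ι, ← hx.2, ← hy.2, ← map_mul]
    rfl⟩

/-- Reductions are additive. -/
lemma Reduction.Reduces.add {x y : K} {s t : ResidueField O} (hx : R.Reduces x s)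
    (hy : R.Reduces y t) : R.Reduces (x + y) (s + t) :=
  ⟨hx.1.add hy.1, by
    rw [map_add R.ι, ← hx.2, ← hy.2, ← map_add]
    rfl⟩

/-- The reduction is unique. -/
lemma Reduction.Reduces.unique {x : K} {s t : ResidueField O} (hx : R.Reduces x s)
    (hy : R.Reduces x t) : s = t := R.ι.injective (hx.2.symm.trans hy.2)

/-- Roots of unity of `p`-power order reduce to `1`. -/
theorem Reduction.reduces_one_of_pow {p : ℕ} [Fact p.Prime] (hp : (p : O) ∈ maximalIdeal O)
    {x : K} {n : ℕ} (hx : x ^ p ^ n = 1) : R.Reduces x 1 := by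
  have hint : IsIntegral O x := IsIntegral.of_pow (pow_pos (Fact.out : p.Prime).pos n)
    (hx.symm ▸ isIntegral_one)
  refine ⟨hint, ?_⟩
  have h0 : (p : R.κ) = 0 := by
    rw [← map_natCast (R.red.comp (algebraMap O (integralClosure O K))), RingHom.comp_apply, R.comm,
      (residue_eq_zero_iff _).2 hp, map_zero]
  have : CharP R.κ p := (CharP.charP_iff_prime_eq_zero Fact.out).2 h0
  rw [map_one]
  refine sub_eq_zero.1 (pow_eq_zero_iff (pow_ne_zero n (Fact.out : p.Prime).ne_zero) |>.1 ?_)
  rw [sub_pow_char_pow, one_pow, ← map_pow, show (⟨x, hint⟩ : integralClosure O K) ^ p ^ n = 1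
    from Subtype.ext hx, map_one, sub_self]

/-- The value of a polynomial reduces to its residual value. -/
lemma Reduction.reduces_eval {b : Nat.Primes → K} {s : Nat.Primes → ResidueField O}
    (h : ∀ ℓ, R.Reduces (b ℓ) (s ℓ)) (u : HeckePoly O) :
    R.Reduces (MvPolynomial.eval₂ (algebraMap O K) b u)
      (MvPolynomial.eval₂Hom (residue O) s u) := by
  induction u using MvPolynomial.induction_on with
  | C r =>
    rw [MvPolynomial.eval₂_C, MvPolynomial.eval₂Hom_C]
    exact R.reduces_algebraMap r
  | add u w hu hw => rw [MvPolynomial.eval₂_add, map_add]; exact hu.add hw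
  | mul_X u ℓ hu =>
    rw [MvPolynomial.eval₂_mul, MvPolynomial.eval₂_X, map_mul, MvPolynomial.eval₂Hom_X']
    exact hu.mul (h ℓ)

variable [IsDomain O] [IsDiscreteValuationRing O] [FaithfulSMul O K] [NeZero N]

set_option linter.overlappingInstances false in
/-- **An eigenclass makes the localised module non-zero.** -/
theorem nontrivial_locM_of_eigen {v : HMod N H K} (hv0 : v ≠ 0) {b : Nat.Primes → K}
    (hv : ∀ ℓ, (MvPolynomial.X ℓ : HeckePoly K) • v = b ℓ • v) {s : Nat.Primes → ResidueField O}
    (hs : ∀ ℓ, R.Reduces (b ℓ) (s ℓ)) : Nontrivial (LocM (eigIdeal s) (HMod N H O)) := by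
  classical
  by_contra hcon
  rw [not_nontrivial_iff_subsingleton] at hcon
  -- one element outside the ideal kills the module
  obtain ⟨S, hS⟩ := (Module.Finite.fg_top : (⊤ : Submodule O (HMod N H O)).FG)
  choose u hu hu0 using fun w : HMod N H O =>
    (toLocM_eq_zero_iff (eigIdeal s)).1 (Subsingleton.elim (toLocM (eigIdeal s) w) 0)
  set U := ∏ w ∈ S, u w with hU
  have hUm : U ∉ eigIdeal s := fun h => by
    obtain ⟨w, -, hw⟩ := (Ideal.IsPrime.prod_mem_iff).1 h
    exact hu w hw
  have hkill : ∀ w : HMod N H O, U • w = 0 := fun w => by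
    have hw : w ∈ Submodule.span O (S : Set (HMod N H O)) := hS ▸ trivial
    induction hw using Submodule.span_induction with
    | mem x hx => rw [hU, ← Finset.prod_erase_mul S u hx, mul_smul, hu0, smul_zero]
    | zero => rw [smul_zero]
    | add a c _ _ ha hc => rw [smul_add, ha, hc, add_zero]
    | smul r a _ ha => rw [smul_comm, ha, smul_zero]
  set L := valueSpan (O := O) v
  have : Module.Finite O L := Module.Finite.iff_fg.2 (valueSpan_fg v)
  have : Module.IsTorsionFree O K := Module.isTorsionFree_iff_algebraMap_injective.2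
    (FaithfulSMul.algebraMap_injective O K)
  have : Module.Free O L := Module.free_of_finite_type_torsion_free'
  have hmem : ∀ (p : HeckePoly O) {y : K}, y ∈ L →
      MvPolynomial.eval₂ (algebraMap O K) b p * y ∈ L := by
    intro p
    induction p using MvPolynomial.induction_on with
    | C r => intro y hy; rw [MvPolynomial.eval₂_C, ← Algebra.smul_def]; exact L.smul_mem r hy
    | add p p' hp hp' =>
      intro y hy
      rw [MvPolynomial.eval₂_add, add_mul]
      exact add_mem (hp hy) (hp' hy)
    | mul_X p ℓ hp =>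
      intro y hy
      rw [MvPolynomial.eval₂_mul, MvPolynomial.eval₂_X, mul_assoc]
      exact hp (smul_mem_valueSpan hv ℓ hy)
  let vL : GammaH N H → L := fun γ => ⟨_, mem_valueSpan v γ⟩
  obtain ⟨γ₀, hγ₀⟩ : ∃ γ, toH.symm v (Additive.ofMul γ) ≠ 0 := by
    by_contra! h
    exact hv0 (toH.symm.injective (AddMonoidHom.ext fun γ => by simpa using h (Additive.toMul γ)))
  let w : HeckePoly O → GammaH N H → L := fun p γ =>
    ⟨_, hmem p (mem_valueSpan v γ)⟩
  have key : ∀ (π : L →ₗ[O] O) (p : HeckePoly O) (γ : GammaH N H),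
      toH.symm (p • toH (AddMonoidHom.mk' (fun δ => π (vL (Additive.toMul δ))) fun δ δ' => by
        rw [← map_add]
        exact congrArg π (Subtype.ext (map_add (toH.symm v) δ δ')))) (Additive.ofMul γ) =
        π (w p γ) := by
    intro π p
    induction p using MvPolynomial.induction_on with
    | C r =>
      intro γ
      rw [C_smul, map_smul, LinearEquiv.symm_apply_apply, AddMonoidHom.smul_apply]
      show r • π (vL γ) = π _
      rw [← map_smul π]
      exact congrArg π (Subtype.ext (by
        show r • toH.symm v _ = MvPolynomial.eval₂ _ b (MvPolynomial.C r) * _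
        rw [MvPolynomial.eval₂_C, ← Algebra.smul_def]))
    | add p p' hp hp' =>
      intro γ
      rw [add_smul, map_add, AddMonoidHom.add_apply, hp, hp', ← map_add]
      exact congrArg π (Subtype.ext (by simp [w, add_mul]))
    | mul_X p ℓ hp =>
      intro γ
      obtain ⟨ℓ, hℓ⟩ := ℓ
      have : Fact ℓ.Prime := ⟨hℓ⟩
      set ψ := toH (AddMonoidHom.mk' (fun δ => π (vL (Additive.toMul δ))) fun δ δ' => by
        rw [← map_add]
        exact congrArg π (Subtype.ext (map_add (toH.symm v) δ δ'))) with hψ
      rw [mul_comm p, mul_smul]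
      obtain ⟨φ, hφ⟩ := toH.surjective (p • ψ)
      have hφ' : ∀ δ, φ (Additive.ofMul δ) = π (w p δ) := fun δ => by
        rw [← hp δ, ← hφ, LinearEquiv.symm_apply_apply]
      show toH.symm ((MvPolynomial.X (primeOf ℓ) : HeckePoly O) • (p • ψ)) _ = _
      rw [← hφ, X_smul_toH, LinearEquiv.symm_apply_apply, CosetSystem.transfer_apply]
      simp only [hφ', ← map_sum]
      refine congrArg π (Subtype.ext ?_)
      rw [AddSubmonoidClass.coe_finsetSum]
      show ∑ x, MvPolynomial.eval₂ _ b p * toH.symm v _ =
        MvPolynomial.eval₂ _ b (MvPolynomial.X (primeOf ℓ) * p) * toH.symm v (Additive.ofMul γ)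
      rw [← Finset.mul_sum, sum_cocycle_eq_mul (hv (primeOf ℓ)) γ, MvPolynomial.eval₂_mul,
        MvPolynomial.eval₂_X]
      ring
  have h0 : w U γ₀ = 0 := by
    refine (Module.forall_dual_apply_eq_zero_iff O _).1 fun π => ?_
    rw [← key π U γ₀, hkill, map_zero]
    rfl
  have h1 : MvPolynomial.eval₂ (algebraMap O K) b U = 0 :=
    (mul_eq_zero.1 (congrArg Subtype.val h0)).resolve_right hγ₀
  refine hUm (mem_eigIdeal.2 ?_)
  have h2 := Reduction.reduces_eval hs U
  rw [h1] at h2
  exact h2.unique (by simpa using R.reduces_natCast 0)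

end Reduction

end Fermat.Agent.LevelLowering.Avoid
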