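import Fermat.Agent.LevelLowering.Avoid.Level.Characters
import Fermat.Agent.LevelLowering.Avoid.Level.DescentEigen
import Fermat.Agent.LevelLowering.Avoid.Level.Residue

/-!
# Descent at all exceptional primes

An eigenclass at the level of a Taylor–Wiles tuple none of whose exceptional primes satisfies
`χ(q) U_q² = 1` descends to `B ∏ q_j`; its residual system there forces a non-zero module at `B`.
-/

set_option autoImplicit false

noncomputable section

open IsLocalRing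
open Fermat.Agent.GroupH1
open scoped MatrixGroups

namespace Fermat.Agent.LevelLowering.Avoid

variable {K : Type} [Field K] [CharZero K]

/-- Descent at a set of primes. -/
theorem exists_descent_finset {B' : ℕ} [NeZero B'] (H₀ : Subgroup (ZMod B')ˣ)
    (ε₀ : (ZMod B')ˣ → K) (S : Finset ℕ) :
    (∀ q ∈ S, q.Prime ∧ ¬ q ∣ B') → ∀ (N : ℕ) [NeZero N], N = B' * ∏ q ∈ S, q →
      ∀ (hd : B' ∣ N) (b : Nat.Primes → K),
      HasClass N (H₀.comap (ZMod.unitsMap hd)) b (fun g => ε₀ (ZMod.unitsMap hd (ulUnit g))) →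
      (∀ (q : Nat.Primes) (u : (ZMod B')ˣ), (q : ℕ) ∈ S → (u : ZMod B') = (q : ℕ) →
        ε₀ u * b q ^ 2 ≠ 1) →
      ∃ b' : Nat.Primes → K, HasClass B' H₀ b' (fun g => ε₀ (ulUnit g)) ∧
        (∀ ℓ : Nat.Primes, (ℓ : ℕ) ∉ S → b' ℓ = b ℓ) ∧
        ∀ (q : Nat.Primes) (u : (ZMod B')ˣ), (q : ℕ) ∈ S → (u : ZMod B') = (q : ℕ) →
          b q ≠ 0 ∧ b' q = b q + ((q : ℕ) : K) / (ε₀ u * b q) := by
  induction S using Finset.induction with
  | empty =>
    intro _ N _ hN hd b hc _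
    rw [Finset.prod_empty, mul_one] at hN
    subst hN
    have h1 : ∀ u : (ZMod N)ˣ, ZMod.unitsMap hd u = u := fun u => by rw [ZMod.unitsMap_self]; rfl
    refine ⟨b, hc.of_eq ?_ (fun g => by rw [h1]), fun _ _ => rfl, by simp⟩
    ext u
    rw [Subgroup.mem_comap, h1]
  | insert q s hqs ih =>
    intro hS N _ hN hd b hc hne
    obtain ⟨hqp, hqB⟩ := hS q (Finset.mem_insert_self q s)
    have hq : Fact q.Prime := ⟨hqp⟩
    obtain rfl : N = (B' * ∏ x ∈ s, x) * q := by rw [hN, Finset.prod_insert hqs]; ring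
    set M := B' * ∏ x ∈ s, x with hM
    have : NeZero M := ⟨left_ne_zero_of_mul (NeZero.ne (M * q))⟩
    have hqM : ¬ q ∣ M := fun h => by
      rcases hqp.dvd_mul.1 h with h | h
      · exact hqB h
      · obtain ⟨x, hx, hqx⟩ := (hqp.prime.dvd_finsetProd_iff _).1 h
        exact hqs ((Nat.prime_dvd_prime_iff_eq hqp (hS x (Finset.mem_insert_of_mem hx)).1).1 hqx ▸
          hx)
    have hdM : B' ∣ M := dvd_mul_right _ _
    have hcc : ∀ u, ZMod.unitsMap hd u =
        ZMod.unitsMap hdM (ZMod.unitsMap (dvd_mul_right M q) u) := fun u => by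
      rw [← MonoidHom.comp_apply (ZMod.unitsMap hdM), ZMod.unitsMap_comp]
    obtain ⟨v, hv0, hv, hvd⟩ := hc.of_eq (H' := levelH (H₀.comap (ZMod.unitsMap hdM)) q) (by
      ext u
      simp only [levelH, Subgroup.mem_comap, hcc]) (ε' := fun g : G₀ (M * q) =>
        ε₀ (ZMod.unitsMap hdM (ulUnit (⟨g, G₀_le g.2⟩ : G₀ M)))) (fun g => by
      rw [ulUnit_incl, hcc])
    set χ : (ZMod M)ˣ → K := fun u => ε₀ (ZMod.unitsMap hdM u) with hχ
    have hu : ∃ u : (ZMod M)ˣ, (u : ZMod M) = q :=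
      ⟨ZMod.unitOfCoprime q (hqp.coprime_iff_not_dvd.2 hqM), rfl⟩
    obtain ⟨u, hu⟩ := hu
    have hu' : (ZMod.unitsMap hdM u : ZMod B') = q := by
      simp [ZMod.unitsMap_def, hu]
    obtain ⟨hbq, z, hz0, hz, hzq⟩ := exists_descent_eigen hqM {ℓ | ℓ ≠ primeOf q} (fun h => h rfl)
      (a := b) (χ := χ) hv0 ⟨fun ℓ _ => hv ℓ, hvd⟩ (hv (primeOf q)) hu
      (hne (primeOf q) _ (Finset.mem_insert_self q s) hu')
    classical
    obtain ⟨b₁, hb₁q, hb₁⟩ : ∃ b₁ : Nat.Primes → K,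
        b₁ (primeOf q) = b (primeOf q) + (q : K) / (χ u * b (primeOf q)) ∧
          ∀ ℓ, ℓ ≠ primeOf q → b₁ ℓ = b ℓ :=
      ⟨Function.update b (primeOf q) _, Function.update_self .., fun ℓ h =>
        Function.update_of_ne h _ b⟩
    have hz' : ∀ ℓ, (MvPolynomial.X ℓ : HeckePoly K) • z = b₁ ℓ • z := fun ℓ => by
      by_cases h : ℓ = primeOf q
      · subst h
        rw [hb₁q]
        exact hzq
      · rw [hb₁ ℓ h]
        exact hz.1 ℓ h
    have hne' : ∀ ℓ : Nat.Primes, (ℓ : ℕ) ∈ s → ℓ ≠ primeOf q := fun ℓ hℓ e => hqs (e ▸ hℓ :)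
    obtain ⟨b', hb', hb's, hb'q⟩ := ih (fun x hx => hS x (Finset.mem_insert_of_mem hx)) M rfl hdM b₁
      ⟨z, hz0, hz', hz.2⟩ (fun ℓ w hℓ hw => by
        rw [hb₁ ℓ (hne' ℓ hℓ)]
        exact hne ℓ w (Finset.mem_insert_of_mem hℓ) hw)
    refine ⟨b', hb', fun ℓ hℓ => ?_, fun ℓ w hℓ hw => ?_⟩
    · rw [Finset.mem_insert, not_or] at hℓ
      rw [hb's ℓ hℓ.2, hb₁ ℓ fun e => hℓ.1 (congrArg Subtype.val e)]
    · rcases Finset.mem_insert.1 hℓ with h | h
      · obtain rfl : ℓ = primeOf q := Subtype.ext h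
        refine ⟨hbq, ?_⟩
        rw [hb's _ hqs, hb₁q]
        simp only [hχ]
        rw [show ZMod.unitsMap hdM u = w from Units.ext (hu'.trans hw.symm)]
      · have := hb'q ℓ w h hw
        rwa [hb₁ ℓ (hne' ℓ h)] at this

variable {O : Type} [CommRing O] [IsDomain O] [IsDiscreteValuationRing O]
  [IsAdicComplete (maximalIdeal O) O] [Algebra O K]

namespace AvoidSetup

variable {p : ℕ} {X : AvoidSetup p O}

omit [IsAdicComplete (maximalIdeal O) O] [Algebra O K] in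
/-- A prime `≡ 1 (mod p)` is `1` in the residue field. -/
theorem cast_eq_one_of_dvd (X : AvoidSetup p O) {q : ℕ} (hq : q.Prime) (h : p ∣ q - 1) :
    (q : ResidueField O) = 1 := by
  have hp : (p : ResidueField O) = 0 := by
    rw [← map_natCast (residue O), residue_eq_zero_iff]; exact X.p_mem
  obtain ⟨c, hc⟩ := h
  rw [show q = p * c + 1 by have := hq.pos; omega, Nat.cast_add, Nat.cast_mul, hp, zero_mul,
    zero_add, Nat.cast_one]

namespace TWTuple

variable {r : ℕ} (T : X.TWTuple r)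

/-- The Taylor–Wiles primes as a finset. -/
def qSet : Finset Nat.Primes := Finset.univ.image T.q

/-- The roots at the Taylor–Wiles primes. -/
def rootFun : Nat.Primes → ResidueField O := fun ℓ => if h : ∃ j, T.q j = ℓ then T.α h.choose else 1

omit [IsAdicComplete (maximalIdeal O) O] in
theorem rootFun_q (j : Fin r) : T.rootFun (T.q j) = T.α j := by
  have h : ∃ i, T.q i = T.q j := ⟨j, rfl⟩
  rw [rootFun, dif_pos h, T.inj h.choose_spec]

/-- The residual system below. -/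
def botSys : Nat.Primes → ResidueField O := twSystem T.qSet X.bottomSys T.rootFun

omit [IsAdicComplete (maximalIdeal O) O] in
/-- At an exceptional prime the system at the bottom is `a + a⁻¹`. -/
theorem botSys_of_mem {q : Nat.Primes} (hq : (q : ℕ) ∈ X.E) :
    T.botSys q = X.a q + (X.a q)⁻¹ := by
  rw [botSys, twSystem_of_not_mem, bottomSys, if_pos hq]
  intro h
  obtain ⟨j, -, rfl⟩ := Finset.mem_image.1 h
  exact T.notMem j hq

omit [IsAdicComplete (maximalIdeal O) O] in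
/-- Outside the exceptional primes the system below is that of the level. -/
theorem botSys_of_notMem {ℓ : Nat.Primes} (hℓ : (ℓ : ℕ) ∉ X.E) : T.botSys ℓ = T.sys ℓ := by
  by_cases h : ∃ j, T.q j = ℓ
  · obtain ⟨j, rfl⟩ := h
    have h' : ∃ i, T.q i = T.q j := ⟨j, rfl⟩
    rw [botSys, twSystem_of_mem (show T.q j ∈ T.qSet from Finset.mem_image_of_mem _ (Finset.mem_univ j)), rootFun_q, sys,
      dif_pos h', T.inj h'.choose_spec]
  · rw [botSys, twSystem_of_not_mem (fun hm => h (by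
      obtain ⟨j, -, hj⟩ := Finset.mem_image.1 hm
      exact ⟨j, hj⟩)), bottomSys, if_neg hℓ, sys, dif_neg h]

omit [IsAdicComplete (maximalIdeal O) O] in
/-- At an exceptional prime the residual system is the given one. -/
theorem sys_of_mem {q : Nat.Primes} (hq : (q : ℕ) ∈ X.E) : T.sys q = X.a q := by
  rw [sys, dif_neg]
  rintro ⟨j, rfl⟩
  exact T.notMem j hq

omit [CharZero K] in
/-- **A class at the level without exceptional primes gives one at `B`.** -/
theorem nontrivial_bottomSpace [CharZero O] [FaithfulSMul O K] (hW : X.Witness)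
    {R : Reduction O K} {b : Nat.Primes → K} {ε : G₀ T.botLevel → K}
    (hc : HasClass T.botLevel T.botChar.ker b ε) (hb : ∀ ℓ, R.Reduces (b ℓ) (T.botSys ℓ)) :
    Nontrivial X.BottomSpace := by
  classical
  obtain ⟨v, hv0, hv, -⟩ := hc
  have hW₀ := nontrivial_locM_of_eigen hv0 hv hb
  have : NeZero X.B := ⟨X.B_ne_zero⟩
  have : Fact p.Prime := X.fact_prime
  let H := T.botChar.ker
  let Δ := (⊤ : Subgroup (ZMod T.botLevel)ˣ) ⧸ H.subgroupOf ⊤
  let _ : CommGroup Δ := QuotientGroup.Quotient.commGroup (H.subgroupOf ⊤)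
  let θ : (⊤ : Subgroup (ZMod T.botLevel)ˣ) →* Δ := QuotientGroup.mk' (H.subgroupOf ⊤)
  have hker : ∀ u : (⊤ : Subgroup (ZMod T.botLevel)ˣ), (u : (ZMod T.botLevel)ˣ) ∈ H ↔ θ u = 1 :=
    fun u => by rw [QuotientGroup.mk'_apply, QuotientGroup.eq_one_iff, Subgroup.mem_subgroupOf]
  let _ : Fintype Δ := Fintype.ofFinite _
  have hpow : ∀ u : (ZMod T.botLevel)ˣ, u ^ p ^ (∑ l, T.expo l) ∈ H := fun u => by
    rw [MonoidHom.mem_ker, map_pow]; exact T.delta_pow_eq_one _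
  have hΔ : IsPGroup p Δ := fun g => ⟨∑ l, T.expo l, by
    obtain ⟨u, rfl⟩ := QuotientGroup.mk'_surjective _ g
    rw [← map_pow]
    exact (hker _).1 (hpow u)⟩
  have hneg : (-1 : (ZMod T.botLevel)ˣ) ∈ H := by
    have h1 := hpow (-1)
    rwa [← T.two_mul_add_one, pow_succ, pow_mul, neg_one_sq, one_pow, one_mul] at h1
  have hM : T.botLevel = X.B * ∏ q ∈ T.qSet, (q : ℕ) := by
    rw [botLevel, qSet, Finset.prod_image fun i _ j _ h => T.inj h]
  have hQ : ∀ q ∈ T.qSet, ¬ (q : ℕ) ∣ X.B := fun q hq => by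
    obtain ⟨j, -, rfl⟩ := Finset.mem_image.1 hq
    exact T.not_dvd j
  have hα : ∀ q ∈ T.qSet, IsTWRoot X.bottomSys q (T.rootFun q) := fun q hq => by
    obtain ⟨j, -, rfl⟩ := Finset.mem_image.1 hq
    have := T.root j
    rw [rootFun_q]
    rwa [IsTWRoot, bottomSys, if_neg (T.notMem j)]
  have hp : (p : ResidueField O) = 0 := by
    rw [← map_natCast (residue O), residue_eq_zero_iff]; exact X.p_mem
  let S : Finset ℕ := X.E ∪ X.B.primeFactors ∪ T.qSet.image (fun q : Nat.Primes => (q : ℕ))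
  have hS : ∀ ℓ : Nat.Primes, (ℓ : ℕ) ∉ S →
      ℓ ∉ T.qSet ∧ ¬ (ℓ : ℕ) ∣ X.B ∧ X.bottomSys ℓ = X.a ℓ := fun ℓ h => by
    simp only [S, Finset.mem_union, Nat.mem_primeFactors, not_or] at h
    refine ⟨fun hm => h.2 (Finset.mem_image_of_mem _ hm), fun hd => h.1.2 ⟨ℓ.2, hd, X.B_ne_zero⟩, ?_⟩
    rw [bottomSys, if_neg h.1.1]
  obtain ⟨ℓ₀, hℓ₀, -, hne⟩ := hW.nonEis X.B X.B_ne_zero S
  obtain ⟨h1, h2, h3⟩ := hS ℓ₀ hℓ₀
  have h3' : IsUnit (3 : O) ∨ ∃ ℓ : Nat.Primes, ℓ ∉ T.qSet ∧ (ℓ : ℕ) % 3 = 2 ∧ ¬ (ℓ : ℕ) ∣ X.B ∧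
      X.bottomSys ℓ ≠ 0 := hW.three.imp_right fun h => by
    obtain ⟨ℓ, hℓ, hmod, ha⟩ := h S
    obtain ⟨e1, e2, e3⟩ := hS ℓ hℓ
    exact ⟨ℓ, e1, hmod, e2, by rwa [e3]⟩
  obtain ⟨-, -, -, -, d, w, hd, hbij⟩ := exists_tw_level X.B T.qSet hM hQ X.bottomSys T.rootFun hα H
    θ (QuotientGroup.mk'_surjective _) hker hp hΔ X.isUnit_two hneg
    ⟨ℓ₀, h1, h2, by rwa [h3]⟩ h3'
  by_contra hcon
  rw [not_nontrivial_iff_subsingleton] at hcon
  have hd0 : d = 0 := by rw [hd]; exact Module.finrank_zero_of_subsingleton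
  subst hd0
  exact (not_nontrivial_iff_subsingleton.2 hbij.2.subsingleton) hW₀

end TWTuple

end AvoidSetup

end Fermat.Agent.LevelLowering.Avoid
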