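import Fermat.Agent.GroupH1.TW
import Fermat.Agent.KummerES.AssemblyEigen
import Mathlib.FieldTheory.IsAlgClosed.Basic
import Mathlib.RingTheory.Ideal.GoingUp

/-!
# The eigenclass of a point of a localised Hecke algebra

A point of an algebra of diamond and Hecke operators on the localisation of `Hom(Γ_H(N), O)` at a
maximal ideal `m` comes from a class in `Hom(Γ_H(N), K)` which is an eigenvector of all Hecke
operators and all diamond operators; the polynomials vanishing on its eigenvalues lie in `m`.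
-/

set_option autoImplicit false

noncomputable section

open IsLocalRing
open Fermat.Agent.GroupH1
open Fermat.Agent.HeckeLattice (CosetSystem)

namespace Fermat.Agent.LevelLowering.Avoid

/-- A point of a subalgebra of a finite algebra extends to the algebra. -/
theorem exists_extend_point {O B K : Type} [CommRing O] [CommRing B] [Algebra O B]
    [Module.Finite O B] [Field K] [IsAlgClosed K] [Algebra O K] (A : Subalgebra O B)
    (χ : A →ₐ[O] K) : ∃ χ' : B →ₐ[O] K, ∀ a : A, χ' a = χ a := by
  have : Algebra.IsIntegral O B := Algebra.IsIntegral.of_finite O B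
  have : Algebra.IsIntegral A B := Algebra.IsIntegral.tower_top O
  set P : Ideal A := RingHom.ker χ
  have : P.IsPrime := RingHom.ker_isPrime χ
  obtain ⟨Q, -, hQ, hQP⟩ := Ideal.exists_ideal_over_prime_of_isIntegral P (⊥ : Ideal B)
    (fun a ha => by
      have : a = 0 := Subtype.ext (by simpa using ha)
      exact this ▸ P.zero_mem)
  have : Q.LiesOver P := ⟨hQP.symm⟩
  let _ : Algebra (A ⧸ P) K := (Ideal.Quotient.lift P (χ : A →+* K) fun a ha => ha).toAlgebra
  have : FaithfulSMul (A ⧸ P) K := (faithfulSMul_iff_algebraMap_injective _ _).2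
    (RingHom.lift_injective_of_ker_le_ideal _ _ le_rfl)
  have : Module.IsTorsionFree (A ⧸ P) (B ⧸ Q) := Module.isTorsionFree_iff_algebraMap_injective.2
    (FaithfulSMul.algebraMap_injective _ _)
  have : Module.IsTorsionFree (A ⧸ P) K := Module.isTorsionFree_iff_algebraMap_injective.2
    (FaithfulSMul.algebraMap_injective _ _)
  have : Algebra.IsIntegral (A ⧸ P) (B ⧸ Q) := Ideal.Quotient.algebra_isIntegral_of_liesOver Q P
  have : IsDomain (A ⧸ P) := Ideal.Quotient.isDomain P
  have : Algebra.IsAlgebraic (A ⧸ P) (B ⧸ Q) := Algebra.IsIntegral.isAlgebraic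
  let L : B ⧸ Q →ₐ[A ⧸ P] K := IsAlgClosed.lift
  have hL : ∀ a : A, L (Ideal.Quotient.mk Q (a : B)) = χ a := fun a =>
    L.commutes (Ideal.Quotient.mk P a)
  exact ⟨{ (L : B ⧸ Q →+* K).comp (Ideal.Quotient.mk Q) with
      commutes' := fun r => (hL (algebraMap O A r)).trans (χ.commutes r) }, hL⟩

variable {O : Type} [CommRing O] [IsDomain O] [IsDiscreteValuationRing O]
  [IsAdicComplete (maximalIdeal O) O] {N : ℕ} [NeZero N] {H : Subgroup (ZMod N)ˣ} {Δ : Type}
  [CommGroup Δ] [Fintype Δ] (θ : (⊤ : Subgroup (ZMod N)ˣ) →* Δ) (hθ : Function.Surjective θ)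
  (hker : ∀ u : (⊤ : Subgroup (ZMod N)ˣ), (u : (ZMod N)ˣ) ∈ H ↔ θ u = 1)

/-- The values at the elements of the group as functionals. -/
def evLin (γ : GammaH N H) : HMod N H O →ₗ[O] O where
  toFun w := toH.symm w (Additive.ofMul γ)
  map_add' x y := by simp
  map_smul' r x := by simp

omit [IsDomain O] [IsDiscreteValuationRing O] [IsAdicComplete (maximalIdeal O) O] [NeZero N] in
lemma evLin_toH (γ : GammaH N H) (φ : Additive (GammaH N H) →+ O) :
    evLin γ (toH φ) = φ (Additive.ofMul γ) := rfl

/-- The operators on the module of a level. -/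
def opGens : Set (Module.End (HeckePoly O) (HMod N H O)) :=
  Set.range (deckLin (O := O) le_top θ hθ hker) ∪
    Set.range fun ℓ : Nat.Primes => (MvPolynomial.X ℓ : HeckePoly O) • 1

/-- The algebra of all operators on the module of a level. -/
abbrev opAlg : Subalgebra O (Module.End (HeckePoly O) (HMod N H O)) :=
  Algebra.adjoin O (opGens θ hθ hker)

omit [IsDomain O] [IsDiscreteValuationRing O] [IsAdicComplete (maximalIdeal O) O] [Fintype Δ] in
lemma opGens_comm : ∀ x ∈ opGens (O := O) θ hθ hker, ∀ y ∈ opGens (O := O) θ hθ hker, x * y = y * x := by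
  rintro x (⟨δ, rfl⟩ | ⟨ℓ, rfl⟩) y (⟨ε, rfl⟩ | ⟨ℓ', rfl⟩)
  · refine LinearMap.ext fun v => ?_
    obtain ⟨φ, rfl⟩ := toH.surjective v
    simp only [Module.End.mul_apply, deckLin_toH, DeckData.conj_conj, mul_comm ε δ]
  · exact LinearMap.ext fun v => map_smul (deckLin (O := O) le_top θ hθ hker δ) _ v
  · exact LinearMap.ext fun v => (map_smul (deckLin (O := O) le_top θ hθ hker ε) _ v).symm
  · refine LinearMap.ext fun v => ?_
    simp only [Module.End.mul_apply, LinearMap.smul_apply, Module.End.one_apply]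
    exact smul_comm _ _ v

instance opAlg_commRing : CommRing (opAlg (O := O) θ hθ hker) :=
  { (opAlg (O := O) θ hθ hker).toRing with
    mul_comm := (Algebra.isMulCommutative_adjoin O (opGens_comm θ hθ hker)).is_comm.comm }

/-- The span of the values at the elements of the group. -/
abbrev evSpan : Submodule O (HMod N H O →ₗ[O] O) := Submodule.span O (Set.range (evLin (H := H)))

omit [IsDomain O] [IsDiscreteValuationRing O] [IsAdicComplete (maximalIdeal O) O] [Fintype Δ] in
/-- The span is stable under the operators. -/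
lemma comp_mem_evSpan (t : opAlg (O := O) θ hθ hker) :
    ∀ f ∈ evSpan (O := O) (N := N) (H := H),
      f ∘ₗ (t : Module.End (HeckePoly O) (HMod N H O)).restrictScalars O ∈ evSpan := by
  obtain ⟨t, ht⟩ := t
  induction ht using Algebra.adjoin_induction with
  | mem x hx =>
    intro f hf
    induction hf using Submodule.span_induction with
    | mem g hg =>
      obtain ⟨γ, rfl⟩ := hg
      rcases hx with ⟨δ, rfl⟩ | ⟨ℓ, rfl⟩
      · refine Submodule.subset_span
          ⟨((deckDataGammaH le_top θ hθ hker).conjSystem δ).cocycle γ (), LinearMap.ext fun v => ?_⟩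
        obtain ⟨φ, rfl⟩ := toH.surjective v
        show _ = evLin γ (deckLin le_top θ hθ hker δ (toH φ))
        rw [deckLin_toH, evLin_toH, evLin_toH, DoubleSystem.transfer_apply, Fintype.sum_unique]
      · obtain ⟨ℓ, hℓ⟩ := ℓ
        have : Fact ℓ.Prime := ⟨hℓ⟩
        have e : evLin γ ∘ₗ ((MvPolynomial.X (primeOf ℓ) : HeckePoly O) •
            (1 : Module.End (HeckePoly O) (HMod N H O))).restrictScalars O =
              ∑ x, evLin ((heckeSystem N H ℓ).cocycle γ x) := LinearMap.ext fun v => by
          obtain ⟨φ, rfl⟩ := toH.surjective v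
          show evLin γ ((MvPolynomial.X (primeOf ℓ) : HeckePoly O) • toH φ) = _
          rw [X_smul_toH, evLin_toH, CosetSystem.transfer_apply, LinearMap.sum_apply]
          rfl
        exact e ▸ Submodule.sum_mem _ fun x _ => Submodule.subset_span ⟨_, rfl⟩
    | zero => simp
    | add a b _ _ ha hb => rw [LinearMap.add_comp]; exact add_mem ha hb
    | smul r a _ ha => rw [LinearMap.smul_comp]; exact Submodule.smul_mem _ r ha
  | algebraMap r =>
    intro f hf
    convert Submodule.smul_mem _ r hf using 1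
    ext v
    simp [Module.algebraMap_end_apply]
  | add a b _ _ ha hb =>
    intro f hf
    convert add_mem (ha f hf) (hb f hf) using 1
    ext v
    simp
  | mul a b _ _ ha hb =>
    intro f hf
    exact hb _ (ha f hf)

/-- The action of the operators on the span. -/
def evAct : opAlg (O := O) θ hθ hker →+* Module.End O (evSpan (O := O) (N := N) (H := H)) where
  toFun t :=
    { toFun := fun f => ⟨_, comp_mem_evSpan θ hθ hker t f.1 f.2⟩
      map_add' := fun f g => Subtype.ext (LinearMap.add_comp _ _ _)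
      map_smul' := fun r f => Subtype.ext (LinearMap.smul_comp _ _ _) }
  map_one' := LinearMap.ext fun f => Subtype.ext (LinearMap.ext fun v => rfl)
  map_mul' s t := LinearMap.ext fun f => Subtype.ext (LinearMap.ext fun v => by
    rw [mul_comm s t]; rfl)
  map_zero' := LinearMap.ext fun f => Subtype.ext (LinearMap.ext fun v => map_zero f.1)
  map_add' s t := LinearMap.ext fun f => Subtype.ext (LinearMap.ext fun v => map_add f.1 _ _)

/-- The operators on the localisation. -/
def locAct (m : Ideal (HeckePoly O)) [m.IsMaximal] :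
    Module.End (HeckePoly O) (HMod N H O) →ₐ[O] Module.End O (LocM m (HMod N H O)) where
  toFun f := (mapLocM m f).restrictScalars O
  map_one' := by
    rw [mapLocM, Module.End.one_eq_id, IsLocalizedModule.map_id]
    rfl
  map_mul' f g := by
    rw [Module.End.mul_eq_comp, mapLocM,
      IsLocalizedModule.map_comp' m.primeCompl (toLocM m) (toLocM m) (toLocM m)]
    rfl
  map_zero' := by rw [mapLocM, map_zero]; rfl
  map_add' f g := by rw [mapLocM, map_add]; rfl
  commutes' r := by
    refine LinearMap.ext fun v => ?_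
    obtain ⟨v, rfl⟩ := toLocM_surjective O m v
    show mapLocM m _ (toLocM m v) = r • toLocM m v
    rw [mapLocM_toLocM, Module.algebraMap_end_apply, LinearMap.map_smul_of_tower]

variable (m : Ideal (HeckePoly O)) [m.IsMaximal]

omit [IsDomain O] [IsDiscreteValuationRing O] [IsAdicComplete (maximalIdeal O) O] [NeZero N] in
lemma locAct_X (ℓ : Nat.Primes) [IsDomain O] [IsDiscreteValuationRing O]
    [IsAdicComplete (maximalIdeal O) O] [NeZero N] :
    locAct (N := N) (H := H) m ((MvPolynomial.X ℓ : HeckePoly O) • 1) =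
      Algebra.lsmul O O (LocM m (HMod N H O)) (MvPolynomial.X ℓ : HeckePoly O) := by
  refine LinearMap.ext fun v => ?_
  obtain ⟨v, rfl⟩ := toLocM_surjective O m v
  exact (mapLocM_toLocM m _ v).trans (map_smul (toLocM m) _ v)

/-- The Hecke operator at `ℓ` among the operators. -/
def opHecke (ℓ : Nat.Primes) : opAlg (O := O) θ hθ hker :=
  ⟨_, Algebra.subset_adjoin (Or.inr ⟨ℓ, rfl⟩)⟩

/-- The diamond operator of `δ` among the operators. -/
def opDeck (δ : Δ) : opAlg (O := O) θ hθ hker :=
  ⟨_, Algebra.subset_adjoin (Or.inl ⟨δ, rfl⟩)⟩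

omit [IsAdicComplete (maximalIdeal O) O] [Fintype Δ] in
/-- **The eigenclass of a point of all operators.** -/
theorem exists_eigenclass {K : Type} [Field K] [IsAlgClosed K] [Algebra O K]
    [FaithfulSMul O K] (ψ : opAlg (O := O) θ hθ hker →ₐ[O] K) :
    ∃ v : HMod N H K, v ≠ 0 ∧
      (∀ ℓ, (MvPolynomial.X ℓ : HeckePoly K) • v = ψ (opHecke θ hθ hker ℓ) • v) ∧
      ∀ δ, deckLin le_top θ hθ hker δ v = ψ (opDeck θ hθ hker δ) • v := by
  -- the functional on the values at the elements of the group
  have : Module.Finite O (evSpan (O := O) (N := N) (H := H)) := inferInstance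
  let _ : AddCommGroup (evSpan (O := O) (N := N) (H := H)) := Submodule.addCommGroup _
  let _ : Module (opAlg (O := O) θ hθ hker) (evSpan (O := O) (N := N) (H := H)) :=
    Module.compHom (evSpan (O := O) (N := N) (H := H)) (evAct θ hθ hker)
  have hsmul : ∀ (t : opAlg (O := O) θ hθ hker) (f : evSpan (O := O) (N := N) (H := H)),
      t • f = evAct θ hθ hker t f :=
    fun _ _ => rfl
  have : IsScalarTower O (opAlg (O := O) θ hθ hker) (evSpan (O := O) (N := N) (H := H)) :=
    ⟨fun r t f => by
      rw [hsmul, hsmul]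
      exact Subtype.ext (LinearMap.ext fun v => LinearMap.map_smul f.1 r _)⟩
  have : Module.Finite (opAlg (O := O) θ hθ hker) (evSpan (O := O) (N := N) (H := H)) :=
    Module.Finite.of_restrictScalars_finite O _ _
  have hfaith : ∀ t : opAlg (O := O) θ hθ hker,
      (∀ f : evSpan (O := O) (N := N) (H := H), t • f = 0) → t = 0 := by
    intro t ht
    refine Subtype.ext (LinearMap.ext fun w => toH.symm.injective (AddMonoidHom.ext fun γ => ?_))
    rw [← ofMul_toMul γ]
    have h1 := congrArg Subtype.val (ht ⟨evLin (Additive.toMul γ), Submodule.subset_span ⟨_, rfl⟩⟩)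
    exact LinearMap.congr_fun h1 w
  obtain ⟨x, hx0, hx⟩ := KummerES.Tate.exists_eigenfunctional
    (L := evSpan (O := O) (N := N) (H := H)) hfaith (ψ : opAlg (O := O) θ hθ hker →+* K)
  let ev' : GammaH N H → evSpan (O := O) (N := N) (H := H) := fun γ =>
    ⟨evLin γ, Submodule.subset_span ⟨_, rfl⟩⟩
  let φ : Additive (GammaH N H) →+ K := AddMonoidHom.mk' (fun γ => x (ev' (Additive.toMul γ)))
    fun γ γ' => by
      rw [← map_add]
      exact congrArg x (Subtype.ext (LinearMap.ext fun v => map_add (toH.symm v) _ _))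
  have hev : ∀ (t : opAlg (O := O) θ hθ hker) (γ : GammaH N H),
      x (t • ev' γ) = ψ t * φ (Additive.ofMul γ) := fun t γ =>
    hx t _
  refine ⟨toH φ, ?_, ?_, ?_⟩
  · intro h0
    refine hx0 (AddMonoidHom.ext ?_)
    rintro ⟨f, hf⟩
    induction hf using Submodule.span_induction with
    | mem g hg =>
      obtain ⟨γ, rfl⟩ := hg
      exact DFunLike.congr_fun ((map_eq_zero_iff _ toH.injective).1 h0) (Additive.ofMul γ)
    | zero => exact map_zero x
    | add a b ha hb iha ihb =>
      rw [show (⟨a + b, add_mem ha hb⟩ : evSpan (O := O) (N := N) (H := H)) = ⟨a, ha⟩ + ⟨b, hb⟩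
        from rfl, map_add, iha, ihb]
      simp only [AddMonoidHom.zero_apply, add_zero]
    | smul r a ha iha =>
      let a' : evSpan (O := O) (N := N) (H := H) := ⟨a, ha⟩
      rw [show (⟨r • a, Submodule.smul_mem _ r ha⟩ : evSpan (O := O) (N := N) (H := H)) =
        algebraMap O (opAlg (O := O) θ hθ hker) r • a' from
          ((algebraMap_smul (opAlg (O := O) θ hθ hker) r a').trans rfl).symm, hx, iha]
      simp
  · rintro ⟨ℓ, hℓ⟩
    have : Fact ℓ.Prime := ⟨hℓ⟩
    show (MvPolynomial.X (primeOf ℓ) : HeckePoly K) • toH φ = _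
    rw [X_smul_toH, ← map_smul]
    refine congrArg toH (AddMonoidHom.ext fun γ => ?_)
    rw [← ofMul_toMul γ, AddMonoidHom.smul_apply, smul_eq_mul, ← hev, CosetSystem.transfer_apply]
    show ∑ i, x (ev' _) = _
    rw [← map_sum]
    refine congrArg x (Subtype.ext ?_)
    rw [hsmul, AddSubmonoidClass.coe_finsetSum]
    refine LinearMap.ext fun v => ?_
    obtain ⟨φ', rfl⟩ := toH.surjective v
    rw [LinearMap.sum_apply]
    show _ = evLin _ ((MvPolynomial.X (primeOf ℓ) : HeckePoly O) • toH φ')
    rw [X_smul_toH, evLin_toH, CosetSystem.transfer_apply]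
    rfl
  · intro δ
    rw [deckLin_toH, ← map_smul]
    refine congrArg toH (AddMonoidHom.ext fun γ => ?_)
    rw [← ofMul_toMul γ, AddMonoidHom.smul_apply, smul_eq_mul, ← hev, DoubleSystem.transfer_apply,
      Fintype.sum_unique]
    show x (ev' _) = _
    refine congrArg x (Subtype.ext (LinearMap.ext fun v => ?_))
    obtain ⟨φ', rfl⟩ := toH.surjective v
    show _ = evLin _ (deckLin le_top θ hθ hker δ (toH φ'))
    simp only [deckLin_toH, evLin_toH, DoubleSystem.transfer_apply, Fintype.sum_unique]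
    rfl

/-- The images of the operators on the localisation. -/
abbrev locAlg : Subalgebra O (Module.End O (LocM m (HMod N H O))) :=
  (opAlg (O := O) θ hθ hker).map (locAct m)

/-- The localisation of an operator. -/
def toLocAlg : opAlg (O := O) θ hθ hker →ₐ[O] locAlg θ hθ hker m :=
  ((locAct m).comp (opAlg (O := O) θ hθ hker).val).codRestrict _ fun t => ⟨t, t.2, rfl⟩

instance locAlg_commRing : CommRing (locAlg θ hθ hker m) :=
  { (locAlg θ hθ hker m).toRing with
    mul_comm := by
      rintro ⟨_, a, ha, rfl⟩ ⟨_, c, hc, rfl⟩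
      refine Subtype.ext ?_
      show locAct m a * locAct m c = locAct m c * locAct m a
      rw [← map_mul, ← map_mul]
      exact congrArg (locAct m) (congrArg Subtype.val
        (mul_comm (⟨a, ha⟩ : opAlg (O := O) θ hθ hker) ⟨c, hc⟩)) }

omit [Fintype Δ] in
/-- A polynomial killing the eigenvalues of a point of the localised operators lies in `m`. -/
theorem mem_of_eval₂_eq_zero {K : Type} [Field K] [Algebra O K]
    (χ : locAlg θ hθ hker m →ₐ[O] K) {u : HeckePoly O}
    (hu : MvPolynomial.eval₂ (algebraMap O K)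
      (fun ℓ => χ (toLocAlg θ hθ hker m (opHecke θ hθ hker ℓ))) u = 0) : u ∈ m := by
  by_contra hum
  let L : HeckePoly O →ₐ[O] locAlg θ hθ hker m :=
    MvPolynomial.aeval fun ℓ => toLocAlg θ hθ hker m (opHecke θ hθ hker ℓ)
  have hL : (locAlg θ hθ hker m).val.comp L = Algebra.lsmul O O (LocM m (HMod N H O)) :=
    MvPolynomial.algHom_ext fun ℓ => by
      rw [AlgHom.comp_apply, MvPolynomial.aeval_X]
      exact locAct_X m ℓ
  have hχL : ∀ q, χ (L q) = MvPolynomial.eval₂ (algebraMap O K)
      (fun ℓ => χ (toLocAlg θ hθ hker m (opHecke θ hθ hker ℓ))) q := fun q =>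
    DFunLike.congr_fun (MvPolynomial.algHom_ext (f := χ.comp L)
      (g := MvPolynomial.aeval fun ℓ => χ (toLocAlg θ hθ hker m (opHecke θ hθ hker ℓ)))
      fun ℓ => by simp [L]) q
  obtain ⟨t, w, hw, htw⟩ := exists_smul_inv O (V := HMod N H O) m hum
  have hone : L t * L u = 1 := Subtype.ext (LinearMap.ext fun y => by
    obtain ⟨y, rfl⟩ := toLocM_surjective O m y
    show (((locAlg θ hθ hker m).val.comp L) t) (((locAlg θ hθ hker m).val.comp L) u
      (toLocM m y)) = toLocM m y
    rw [hL]
    show t • u • toLocM m y = toLocM m y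
    rw [← map_smul, ← map_smul, toLocM_eq_iff]
    exact ⟨w, hw, by rw [← mul_smul t u, htw]⟩)
  have h3 := congrArg χ hone
  rw [map_mul, map_one, hχL u, hu, mul_zero] at h3
  exact zero_ne_one h3

omit [Fintype Δ] in
/-- **The eigenclass of a point.** -/
theorem exists_eigen_of_point {K : Type} [Field K] [IsAlgClosed K] [Algebra O K]
    [FaithfulSMul O K] (G : Set Nat.Primes)
    (χ : Algebra.adjoin O (Set.range (diamond (O := O) le_top θ hθ hker m) ∪
      (fun ℓ : Nat.Primes => Algebra.lsmul O O (LocM m (HMod N H O))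
        (MvPolynomial.X ℓ : HeckePoly O)) '' G) →ₐ[O] K) :
    ∃ (v : HMod N H K) (b : Nat.Primes → K) (e : Δ → K), v ≠ 0 ∧
      (∀ ℓ, (MvPolynomial.X ℓ : HeckePoly K) • v = b ℓ • v) ∧
      (∀ δ, deckLin le_top θ hθ hker δ v = e δ • v) ∧
      (∀ u : HeckePoly O, MvPolynomial.eval₂ (algebraMap O K) b u = 0 → u ∈ m) ∧
      (∀ δ h, e δ = χ ⟨diamond le_top θ hθ hker m δ, h⟩) ∧
      ∀ ℓ ∈ G, ∀ h, b ℓ = χ ⟨Algebra.lsmul O O (LocM m (HMod N H O))
        (MvPolynomial.X ℓ : HeckePoly O), h⟩ := by
  classical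
  have : Module.Finite O (LocM m (HMod N H O)) := finite_locM m
  set B := locAlg θ hθ hker m
  let S : Set (Module.End O (LocM m (HMod N H O))) :=
    Set.range (diamond (O := O) le_top θ hθ hker m) ∪
      (fun ℓ : Nat.Primes => Algebra.lsmul O O (LocM m (HMod N H O))
        (MvPolynomial.X ℓ : HeckePoly O)) '' G
  let π := toLocAlg θ hθ hker m
  have hXr : ∀ ℓ, (π (opHecke θ hθ hker ℓ) : Module.End O (LocM m (HMod N H O))) =
      Algebra.lsmul O O (LocM m (HMod N H O)) (MvPolynomial.X ℓ : HeckePoly O) :=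
    fun ℓ => locAct_X m ℓ
  have hSB : Algebra.adjoin O S ≤ B := Algebra.adjoin_le (by
    rintro _ (⟨δ, rfl⟩ | ⟨ℓ, -, rfl⟩)
    · exact ⟨_, (opDeck θ hθ hker δ).2, rfl⟩
    · exact ⟨_, (opHecke θ hθ hker ℓ).2, hXr ℓ⟩)
  have : IsNoetherian O (Module.End O (LocM m (HMod N H O))) :=
    isNoetherian_of_isNoetherianRing_of_finite O _
  have : Module.Finite O B := inferInstanceAs (Module.Finite O B.toSubmodule)
  let A : Subalgebra O B := (Algebra.adjoin O S).comap B.val
  let χA : A →ₐ[O] K := χ.comp ((B.val.comp A.val).codRestrict _ fun a => a.2)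
  obtain ⟨χ', hχ'⟩ := exists_extend_point A χA
  obtain ⟨v, hv0, hvX, hvD⟩ := exists_eigenclass θ hθ hker (χ'.comp π)
  refine ⟨v, fun ℓ => χ' (π (opHecke θ hθ hker ℓ)), fun δ => χ' (π (opDeck θ hθ hker δ)), hv0,
    hvX, hvD, fun u => mem_of_eval₂_eq_zero θ hθ hker m χ', fun δ h => ?_, fun ℓ _ h => ?_⟩
  · show χ' (π (opDeck θ hθ hker δ)) = _
    rw [show π (opDeck θ hθ hker δ) = ((⟨⟨diamond le_top θ hθ hker m δ, hSB h⟩, h⟩ : A) : B) from
      Subtype.ext rfl, hχ']
    rfl
  · show χ' (π (opHecke θ hθ hker ℓ)) = _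
    rw [show π (opHecke θ hθ hker ℓ) = ((⟨⟨_, hSB h⟩, h⟩ : A) : B) from Subtype.ext (hXr ℓ), hχ']
    rfl

end Fermat.Agent.LevelLowering.Avoid
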