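import Fermat.Agent.Newforms.Main
import Fermat.Agent.Newforms.MainLemma
import Fermat.Agent.EisensteinDescent.EigenBound
import Fermat.Agent.TWTwist.Twist

/-!
# An old prime is not Steinberg

If an eigenform of level `q M`, `q ∤ M`, has `a_q ^ 2 = 1`, its good eigensystem does not occur
at level `M`: otherwise `a_q` would be a root of `X ^ 2 - t X + q` with `|t| < q + 1`.
-/

set_option autoImplicit false

noncomputable section

open ModularFormClass UpperHalfPlane CongruenceSubgroup ModularForm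
open scoped MatrixGroups ModularForm Real

namespace Fermat.Agent.LevelLowering.Avoid

open Fermat.Agent.Newforms
open Fermat.Agent.HeckeLift (qCoeff_smul qCoeff_sub qCoeff_at_zero qCoeff_heckeTLin
  qCoeff_heckeULin qCoeff_add qCoeff_zero)

variable {L : ℕ} [NeZero L] {q : ℕ}

/-- Removing the coefficients of index divisible by `p`. -/
theorem exists_depleted_prime (hq : q.Prime) (hqL : q ∣ L) (h : CuspForm (Gamma0 L) 2) :
    ∃ h' : CuspForm (Gamma0 (q * L)) 2,
      ∀ n, qCoeff ⇑h' n = if q ∣ n then 0 else qCoeff ⇑h n := by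
  have : NeZero q := ⟨hq.ne_zero⟩
  refine ⟨raise (q * L) (dvd_mul_left L q) h -
    (q : ℂ)⁻¹ • degen q (CuspForm.heckeULin 2 hqL h), fun n => ?_⟩
  rw [qCoeff_sub, qCoeff_smul, qCoeff_degen, coe_raise, qCoeff_heckeULin hq hqL]
  split_ifs with hn
  · rw [Nat.div_mul_cancel hn, show (2 : ℤ) - 1 = 1 by norm_num, zpow_one,
      inv_mul_cancel_left₀ (Nat.cast_ne_zero.2 hq.ne_zero), sub_self]
  · rw [mul_zero, sub_zero]

/-- Keeping the coefficients of index prime to a set of primes. -/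
theorem exists_depleted (S : Finset ℕ) :
    ∀ (L : ℕ) [NeZero L] (h : CuspForm (Gamma0 L) 2), (∀ p ∈ S, p.Prime ∧ p ∣ L) →
      ∀ (L' : ℕ) [NeZero L'], L' = L * ∏ p ∈ S, p → ∃ h' : CuspForm (Gamma0 L') 2,
        ∀ n, qCoeff ⇑h' n = if ∀ p ∈ S, ¬ p ∣ n then qCoeff ⇑h n else 0 := by
  induction S using Finset.induction with
  | empty =>
    intro L _ h _ L' _ hL'
    refine ⟨raise L' (by simp [hL']) h, fun n => ?_⟩
    rw [coe_raise, if_pos (by simp)]
  | insert p S hpS ih =>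
    intro L _ h hS L' _ hL'
    obtain ⟨hp, hpL⟩ := hS p (Finset.mem_insert_self p S)
    have : NeZero p := ⟨hp.ne_zero⟩
    obtain ⟨h₁, hh₁⟩ := exists_depleted_prime hp hpL h
    obtain ⟨h₂, hh₂⟩ := ih (p * L) h₁ (fun x hx => ⟨(hS x (Finset.mem_insert_of_mem hx)).1,
      (hS x (Finset.mem_insert_of_mem hx)).2.trans (dvd_mul_left L p)⟩) L'
      (by rw [hL', Finset.prod_insert hpS]; ring)
    refine ⟨h₂, fun n => ?_⟩
    rw [hh₂, hh₁]
    simp only [Finset.forall_mem_insert]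
    by_cases h1 : p ∣ n <;> simp [h1]

/-- **Lowering the level** of a form whose coefficients live on multiples of `q`. -/
theorem exists_eq_degen (hq : q.Prime) (_hqL : ¬ q ∣ L) [NeZero q]
    (f : CuspForm (Gamma0 (q * L)) 2) (hf : ∀ n, ¬ q ∣ n → qCoeff ⇑f n = 0) :
    ∃ K : CuspForm (Gamma0 L) 2, ∀ n, qCoeff ⇑f (n * q) = (q : ℂ) * qCoeff ⇑K n := by
  set F : ℍ → ℂ := ⇑f ∣[(2 : ℤ)] heckeMatrix q 0 with hFdef
  have hback : F ∣[(2 : ℤ)] heckeDiagMatrix q = ⇑f := by
    have hmul : heckeMatrix q 0 * heckeDiagMatrix q = scalarGL q := by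
      ext i j
      fin_cases i <;> fin_cases j <;>
        simp [hq.ne_zero, val_scalarGL hq.ne_zero, Matrix.mul_apply, Fin.sum_univ_two]
    rw [hFdef, ← SlashAction.slash_mul, hmul, slash_scalarGL hq.ne_zero]
  have hinv : ∀ g : SL(2, ℤ), (L : ℤ) ∣ g 1 0 → (q : ℤ) ∣ g 0 1 →
      F ∣[(2 : ℤ)] Matrix.SpecialLinearGroup.mapGL ℝ g = F := by
    rintro g ⟨s, hs⟩ ⟨t, ht⟩
    let g' : SL(2, ℤ) := mkSL (g 0 0) t ((q : ℤ) * g 1 0) (g 1 1)
      (by linear_combination det_SL g + g 1 0 * ht)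
    have hmul : heckeMatrix q 0 * Matrix.SpecialLinearGroup.mapGL ℝ g
        = Matrix.SpecialLinearGroup.mapGL ℝ g' * heckeMatrix q 0 := by
      have htR := congrArg (Int.cast : ℤ → ℝ) ht
      push_cast at htR
      ext i j
      fin_cases i <;> fin_cases j <;>
        simp [g', hq.ne_zero, Matrix.mul_apply, Fin.sum_univ_two, htR] <;> ring
    rw [hFdef, ← SlashAction.slash_mul, hmul, SlashAction.slash_mul,
      slash_eq_coe f _ (mapGL_mem_gamma0GL ⟨s, by simp [g', hs]; ring⟩)]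
  have hexp : Sieve.HasExp q (fun n => (q : ℂ)⁻¹ * qCoeff ⇑f n) F := by
    intro τ
    have h1 := CongruenceSubgroup.one_mem_strictPeriods_Gamma0 (q * L)
    have : Fact (IsCusp OnePoint.infty (gamma0GL (q * L))) :=
      ⟨Subgroup.isCusp_of_mem_strictPeriods one_pos h1⟩
    have hs := (UpperHalfPlane.hasSum_qExpansion one_pos
      (SlashInvariantFormClass.periodic_comp_ofComplex f h1) (CuspFormClass.holo f)
      (ModularFormClass.bdd_at_infty f) (heckeMatrix q 0 • τ)).mul_left (q : ℂ)⁻¹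
    have hqp : Function.Periodic.qParam 1 ((heckeMatrix q 0 • τ : ℍ) : ℂ) =
        Function.Periodic.qParam q (τ : ℂ) := by
      rw [coe_heckeMatrix_smul hq.ne_zero, Function.Periodic.qParam, Function.Periodic.qParam]
      congr 1
      push_cast
      field_simp
      ring
    rw [hFdef, slash_heckeMatrix_apply 2 hq.ne_zero]
    refine hs.congr_fun fun n => ?_
    rw [hqp, smul_eq_mul, mul_assoc]
    rfl
  have hT : ∀ j : ℤ, F ∣[(2 : ℤ)] Matrix.SpecialLinearGroup.mapGL ℝ (Sieve.upper j) = F := by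
    intro j
    funext τ
    obtain ⟨τ', hτ', happ⟩ := Sieve.slash_upper_apply F j τ
    rw [happ]
    refine ((hexp τ').congr_fun fun n => ?_).unique (hexp τ)
    by_cases hn : q ∣ n
    · obtain ⟨m, rfl⟩ := hn
      have hq0 : (q : ℂ) ≠ 0 := Nat.cast_ne_zero.2 hq.ne_zero
      have he : Function.Periodic.qParam q (τ' : ℂ) ^ q = Function.Periodic.qParam q (τ : ℂ) ^ q := by
        rw [Function.Periodic.qParam, Function.Periodic.qParam, ← Complex.exp_nat_mul,
          ← Complex.exp_nat_mul, Complex.exp_eq_exp_iff_exists_int]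
        refine ⟨j, ?_⟩
        rw [hτ']
        push_cast
        field_simp
      rw [pow_mul, pow_mul, he]
    · simp [hf n hn]
  have hΓ : ∀ γ ∈ gamma0GL L, F ∣[(2 : ℤ)] γ = F := by
    rintro _ ⟨g, hg, rfl⟩
    have hg' : (L : ℤ) ∣ g 1 0 := mem_Gamma0_iff.mp hg
    have key : ∀ g : SL(2, ℤ), (L : ℤ) ∣ g 1 0 → ¬ (q : ℤ) ∣ g 1 1 →
        F ∣[(2 : ℤ)] Matrix.SpecialLinearGroup.mapGL ℝ g = F := by
      intro g hg hd
      have := Fact.mk hq
      have hd' : ((g 1 1 : ℤ) : ZMod q) ≠ 0 := fun e =>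
        hd ((ZMod.intCast_zmod_eq_zero_iff_dvd _ _).mp e)
      obtain ⟨j, hj⟩ := ZMod.intCast_surjective (((g 0 1 : ℤ) : ZMod q) / ((g 1 1 : ℤ) : ZMod q))
      conv_lhs => rw [show g = Sieve.upper j * ((Sieve.upper j)⁻¹ * g) by group, map_mul,
        SlashAction.slash_mul, hT]
      refine hinv _ ?_ ((ZMod.intCast_zmod_eq_zero_iff_dvd _ _).mp ?_)
      · simpa [Sieve.upper, Matrix.mul_apply, Fin.sum_univ_two, Matrix.adjugate_fin_two] using hg
      · simp [Sieve.upper, Matrix.mul_apply, Fin.sum_univ_two, Matrix.adjugate_fin_two, hj,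
          div_mul_cancel₀ _ hd']
    by_cases hd : (q : ℤ) ∣ g 1 1
    · have hc : ¬ (q : ℤ) ∣ g 1 0 := fun hc => (Nat.prime_iff_prime_int.mp hq).not_dvd_one (by
        rw [← det_SL g]
        exact dvd_sub (hd.mul_left _) (hc.mul_left _))
      conv_lhs => rw [show g = g * Sieve.upper 1 * Sieve.upper (-1) by
        rw [mul_assoc, show Sieve.upper 1 * Sieve.upper (-1) = 1 from by
          ext a b; fin_cases a <;> fin_cases b <;>
            simp [Sieve.upper, Matrix.mul_apply, Fin.sum_univ_two], mul_one],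
        map_mul, SlashAction.slash_mul]
      rw [key (g * Sieve.upper 1) (by
          simpa [Sieve.upper, Matrix.mul_apply, Fin.sum_univ_two] using hg') (fun e => hc (by
          have e' : (q : ℤ) ∣ g 1 0 + g 1 1 := by
            simpa [Sieve.upper, Matrix.mul_apply, Fin.sum_univ_two] using e
          exact (dvd_add_left hd).mp e')), hT]
    · exact key g hg' hd
  have hcusp : IsCuspidalFun 2 F := by
    have : ∃ g : GL (Fin 2) ℚ,
        Matrix.GeneralLinearGroup.map (Rat.castHom ℝ) g = heckeMatrix q 0 := by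
      refine ⟨Matrix.GeneralLinearGroup.mkOfDetNeZero !![1, 0; 0, (q : ℚ)]
        (by simpa using hq.ne_zero), ?_⟩
      ext i j
      fin_cases i <;> fin_cases j <;>
        simp [hq.ne_zero, Matrix.GeneralLinearGroup.mkOfDetNeZero]
    obtain ⟨g, hg⟩ := this
    rw [hFdef, ← hg]
    exact (isCuspidalFun_coe f).slash_ratMap g
  refine ⟨mkCuspForm L 2 F hcusp hΓ, fun n => ?_⟩
  rw [show f = degen q (mkCuspForm L 2 F hcusp hΓ) from DFunLike.coe_injective hback.symm,
    qCoeff_degen, if_pos (dvd_mul_left q n), Nat.mul_div_cancel _ hq.pos]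
  simp

/-- A form of level prime to `q` with coefficients on multiples of `q` is zero. -/
theorem qCoeff_eq_zero_of_supported (hq : q.Prime) (hqL : ¬ q ∣ L) (f : CuspForm (Gamma0 L) 2)
    (hf : ∀ n, ¬ q ∣ n → qCoeff ⇑f n = 0) (n : ℕ) : qCoeff ⇑f n = 0 := by
  have : NeZero q := ⟨hq.ne_zero⟩
  have := Fermat.Agent.HeckeLift.finiteDimensional_cuspForm (N := L) (k := 2)
  let V : Submodule ℂ (CuspForm (Gamma0 L) 2) :=
    { carrier := {h | ∀ n, ¬ q ∣ n → qCoeff ⇑h n = 0}
      add_mem' := fun {a b} ha hb n hn => by rw [qCoeff_add, ha n hn, hb n hn, add_zero]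
      zero_mem' := fun n _ => qCoeff_zero n
      smul_mem' := fun c h hh n hn => by rw [qCoeff_smul, hh n hn, mul_zero] }
  have hex : ∀ h : V, ∃ h' : V, ∀ n, qCoeff ⇑(h'.1) n =
      if q ∣ n then (q : ℂ) * qCoeff ⇑(h.1) (n / q) else 0 := fun h => by
    obtain ⟨K, hK⟩ := exists_eq_degen hq hqL (raise (q * L) (dvd_mul_left L q) h.1)
      fun n hn => h.2 n hn
    have hc : ∀ n, qCoeff ⇑(CuspForm.heckeTLin 2 hq hqL h.1 - (q : ℂ) • K) n =
        if q ∣ n then (q : ℂ) * qCoeff ⇑(h.1) (n / q) else 0 := fun n => by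
      rw [qCoeff_sub, qCoeff_smul, ← hK, coe_raise, qCoeff_heckeTLin, add_sub_cancel_left,
        show (2 : ℤ) - 1 = 1 by norm_num, zpow_one]
    exact ⟨⟨_, fun n hn => by rw [hc, if_neg hn]⟩, hc⟩
  choose Φ hΦ using hex
  let Φₗ : V →ₗ[ℂ] V :=
    { toFun := Φ
      map_add' := fun a b => Subtype.ext (eq_of_qCoeff fun n => by
        rw [Submodule.coe_add, qCoeff_add, hΦ, hΦ, hΦ, Submodule.coe_add]
        split_ifs
        · rw [qCoeff_add, mul_add]
        · rw [add_zero])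
      map_smul' := fun c a => Subtype.ext (eq_of_qCoeff fun n => by
        rw [RingHom.id_apply, Submodule.coe_smul, qCoeff_smul, hΦ, hΦ, Submodule.coe_smul]
        split_ifs
        · rw [qCoeff_smul, mul_left_comm]
        · rw [mul_zero]) }
  have hinj : Function.Injective Φₗ := fun a b h => Subtype.ext (eq_of_qCoeff fun n => by
    have := congrArg (fun x : V => qCoeff ⇑(x.1) (n * q)) h
    simp only [Φₗ, LinearMap.coe_mk, AddHom.coe_mk, hΦ, if_pos (dvd_mul_left q n),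
      Nat.mul_div_cancel _ hq.pos] at this
    exact mul_left_cancel₀ (Nat.cast_ne_zero.2 hq.ne_zero) this)
  have key : ∀ n, ∀ h : V, qCoeff ⇑(h.1) n = 0 := fun n => by
    induction n using Nat.strong_induction_on with
    | _ n ih =>
      intro h
      obtain ⟨h', rfl⟩ := (LinearMap.injective_iff_surjective.mp hinj) h
      show qCoeff ⇑(Φ h').1 n = 0
      rw [hΦ]
      split_ifs with hn
      · rcases n.eq_zero_or_pos with rfl | h0
        · rw [Nat.zero_div, qCoeff_at_zero, mul_zero]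
        · rw [ih _ (Nat.div_lt_self h0 hq.one_lt) h', mul_zero]
      · rfl
  exact key n ⟨f, hf⟩

/-- **An old prime is not Steinberg.** -/
theorem qCoeff_sq_ne_one_of_old {M M₀ : ℕ} [NeZero M] [NeZero M₀] (hq : q.Prime) (hqM : ¬ q ∣ M)
    (hM₀ : M₀ ∣ M) {f : CuspForm (Gamma0 (q * M)) 2} (hf : f.IsNormalizedEigenform)
    {g₀ : CuspForm (Gamma0 M₀) 2} (hg₀ : g₀.IsNormalizedEigenform)
    (heq : ∀ ℓ : ℕ, ℓ.Prime → ¬ ℓ ∣ q * M → qCoeff ⇑g₀ ℓ = qCoeff ⇑f ℓ) :
    qCoeff ⇑f q ^ 2 ≠ 1 := by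
  intro hsq
  have : NeZero q := ⟨hq.ne_zero⟩
  obtain ⟨g, hg, hgg⟩ := goodEigensystem_of_dvd hM₀ (NeZero.pos M) g₀ hg₀
  have hco : ∀ n : ℕ, n.Coprime (q * M) → qCoeff ⇑g n = qCoeff ⇑f n :=
    TWTwist.qCoeff_eq_of_coprime hf hg (fun p _ h => h) (fun p _ h => h.trans (dvd_mul_left M q))
      fun p hp hn => (hgg p hp fun e => hn (e.trans (dvd_mul_left M q))).trans (heq p hp hn)
  set S := M.primeFactors with hS
  set L := M * ∏ p ∈ S, p with hL
  have : NeZero L := ⟨mul_ne_zero (NeZero.ne M)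
    (Finset.prod_ne_zero_iff.2 fun p hp => (Nat.prime_of_mem_primeFactors hp).ne_zero)⟩
  have hqL : ¬ q ∣ L := fun e => by
    rcases hq.dvd_mul.1 e with e | e
    · exact hqM e
    · obtain ⟨p, hp, hqp⟩ := (hq.prime.dvd_finsetProd_iff _).1 e
      exact hqM ((Nat.prime_dvd_prime_iff_eq hq (Nat.prime_of_mem_primeFactors hp)).1 hqp ▸
        Nat.dvd_of_mem_primeFactors hp)
  have hMS : ∀ n, (∀ p ∈ S, ¬ p ∣ n) ↔ n.Coprime M := fun n =>
    ⟨fun h => Nat.coprime_of_dvd fun p hp hpn hpM =>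
      h p (Nat.mem_primeFactors.2 ⟨hp, hpM, NeZero.ne M⟩) hpn,
    fun h p hp hpn => (Nat.prime_of_mem_primeFactors hp).not_dvd_one
      (h ▸ Nat.dvd_gcd hpn (Nat.dvd_of_mem_primeFactors hp))⟩
  obtain ⟨g', hg'⟩ := exists_depleted S M g (fun p hp =>
    ⟨Nat.prime_of_mem_primeFactors hp, Nat.dvd_of_mem_primeFactors hp⟩) L rfl
  obtain ⟨f', hf'⟩ := exists_depleted S (q * M) f (fun p hp =>
    ⟨Nat.prime_of_mem_primeFactors hp, (Nat.dvd_of_mem_primeFactors hp).trans (dvd_mul_left M q)⟩)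
    (q * L) (mul_assoc q M _).symm
  simp only [hMS] at hg' hf'
  obtain ⟨K, hK⟩ := exists_eq_degen hq hqL (f' - raise (q * L) (dvd_mul_left L q) g') fun n hn => by
    rw [qCoeff_sub, coe_raise, hf', hg']
    split_ifs with h
    · rw [hco n (Nat.Coprime.mul_right ((hq.coprime_iff_not_dvd.2 hn).symm) h), sub_self]
    · rw [sub_self]
  set α := qCoeff ⇑f q
  set t := qCoeff ⇑g q
  have hcM : q.Coprime M := hq.coprime_iff_not_dvd.2 hqM
  have hv := qCoeff_eq_zero_of_supported hq hqL ((q : ℂ) • K - (α - t) • g') (fun n hn => by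
    rw [qCoeff_sub, qCoeff_smul, qCoeff_smul, ← hK, qCoeff_sub, coe_raise, hf', hg', hg']
    by_cases h : n.Coprime M
    · have hnq : n.Coprime q := (hq.coprime_iff_not_dvd.2 hn).symm
      rw [if_pos (Nat.Coprime.mul_left h hcM), if_pos (Nat.Coprime.mul_left h hcM), if_pos h,
        hf.qCoeff_mul_of_coprime _ _ hnq, hg.qCoeff_mul_of_coprime _ _ hnq,
        hco n (hnq.mul_right h)]
      ring
    · have h' : ¬ (n * q).Coprime M := fun e => h (Nat.Coprime.coprime_mul_right e)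
      rw [if_neg h', if_neg h', if_neg h]
      ring) q
  rw [qCoeff_sub, qCoeff_smul, qCoeff_smul, ← hK, qCoeff_sub, coe_raise, hf', hg', hg',
    if_pos (Nat.Coprime.mul_left hcM hcM), if_pos (Nat.Coprime.mul_left hcM hcM), if_pos hcM,
    show q * q = q ^ (0 + 2) by ring, hf.qCoeff_prime_pow_of_dvd q 0 hq (dvd_mul_right q M),
    hg.qCoeff_prime_pow_of_not_dvd q 0 hq hqM, pow_zero, zero_add, pow_one, hg.qCoeff_one] at hv
  have h1 : α * t = q + 1 := by linear_combination (-1 : ℂ) * hv + hsq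
  have h2 : ‖α‖ = 1 := by
    have := congrArg norm hsq
    rw [norm_pow, norm_one] at this
    exact (pow_eq_one_iff_of_nonneg (norm_nonneg α) two_ne_zero).1 this
  have h3 := congrArg norm h1
  rw [norm_mul, h2, one_mul, show ((q : ℂ) + 1) = ((q + 1 : ℕ) : ℂ) by push_cast; ring,
    Complex.norm_natCast] at h3
  have := EisensteinDescent.norm_qCoeff_lt_succ hg hq hqM
  rw [h3] at this
  push_cast at this
  exact lt_irrefl _ this

end Fermat.Agent.LevelLowering.Avoid
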