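import Fermat.Agent.HeckeCohom.TwistAll

/-!
# Twisting away a character, at every prime

The iterated twist intertwines `T_ℓ` or `U_ℓ` at every prime outside the twisting set.
-/

set_option autoImplicit false

noncomputable section

open Fermat.Agent.HeckeCohom
open Fermat.Agent.GroupH1 (heckeSystem)

namespace Fermat.Agent.LevelLowering.Avoid

variable {K : Type*} [Field K] [CharZero K]

/-- **Iterated twisting at every prime outside the set.** -/
theorem exists_twistMap_away (h : ℕ) (s : Finset ℕ) :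
    ∀ (M M' : ℕ) [NeZero M] [NeZero M'], M' = M * ∏ q ∈ s, q → ∀ (χ : ZMod M →* K),
      (∀ q ∈ s, q.Prime ∧ q ∣ M ∧ ¬ q * q ∣ M) → (∀ u : (ZMod M)ˣ, χ u ^ (2 * h + 1) = 1) →
      FactorsThrough s χ →
      ∃ Φ : (Additive (G1 M) →+ K) →ₗ[K] (Additive (CongruenceSubgroup.Gamma0 M') →+ K),
        ∀ φ, IsChiHom χ φ → (Φ φ = 0 → φ = 0) ∧
          ∀ (ℓ : ℕ) [Fact ℓ.Prime], ℓ ∉ s → ∀ u : (ZMod M)ˣ,
            (∀ x ∈ s, ∀ hx : x ∣ M, ZMod.castHom hx (ZMod x) (u : ZMod M) = ℓ) →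
            heckeOp M' ℓ Fact.out K (Φ φ)
              = χ u ^ h • Φ ((heckeSystem M ⊥ ℓ).transfer φ) := by
  classical
  induction s using Finset.induction with
  | empty =>
    intro M M' _ _ hM' χ _ _ hfac
    obtain rfl : M' = M := by simpa using hM'
    have hχ : ∀ u : (ZMod M')ˣ, χ u = 1 := fun u => hfac u (by simp)
    refine ⟨descend M' K, fun φ hφ => ⟨eq_zero_of_descend_eq_zero hχ hφ, fun ℓ _ _ u _ => ?_⟩⟩
    rw [heckeOp_descend, hχ, one_pow, one_smul]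
  | insert q s hqs ih =>
    intro M M' _ _ hM' χ hs hord hfac
    obtain ⟨hqp, hqM, hqq⟩ := hs q (Finset.mem_insert_self q s)
    have : Fact q.Prime := ⟨hqp⟩
    obtain ⟨m, rfl⟩ := exists_eq_mul_left_of_dvd hqM
    have hm : ¬ q ∣ m := fun hd => hqq (Nat.mul_dvd_mul_right hd q)
    have : NeZero (q * (m * q)) := ⟨mul_ne_zero hqp.ne_zero (NeZero.ne _)⟩
    have hM1 : M' = q * (m * q) * ∏ x ∈ s, x := by
      rw [hM', Finset.prod_insert hqs]; ring
    obtain ⟨χ₁, hord₁, hfac₁, -, T, hT⟩ := exists_twistStep h hm χ hord hqs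
      (fun x hx => (hs x (Finset.mem_insert_of_mem hx)).1) hfac
    have hs' : ∀ x ∈ s, x.Prime ∧ x ∣ q * (m * q) ∧ ¬ x * x ∣ q * (m * q) := by
      intro x hx
      obtain ⟨hxp, hxM, hxx⟩ := hs x (Finset.mem_insert_of_mem hx)
      have h1 : Nat.Coprime x q := (Nat.coprime_primes hxp hqp).2 fun e => hqs (e ▸ hx)
      exact ⟨hxp, hxM.trans (dvd_mul_left _ _),
        fun hd => hxx ((Nat.Coprime.mul_left h1 h1).dvd_of_dvd_mul_left hd)⟩
    obtain ⟨Φ, hΦ⟩ := ih (q * (m * q)) M' hM1 χ₁ hs' hord₁ hfac₁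
    refine ⟨Φ.comp T, fun φ hφ => ?_⟩
    obtain ⟨h1, h2, h3⟩ := hT φ hφ
    obtain ⟨h4, h5⟩ := hΦ _ h1
    refine ⟨fun e => h2 (h4 e), fun ℓ hℓ hℓs u hu => ?_⟩
    rw [Finset.mem_insert, not_or] at hℓs
    obtain ⟨v, rfl⟩ := ZMod.unitsMap_surjective (dvd_mul_left (m * q) q) u
    have hcc : ∀ {x : ℕ} (hx : x ∣ m * q) (a : ZMod (q * (m * q))),
        ZMod.castHom hx (ZMod x) (ZMod.castHom (dvd_mul_left (m * q) q) (ZMod (m * q)) a)
          = ZMod.castHom (hx.trans (dvd_mul_left (m * q) q)) (ZMod x) a := fun hx a => by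
      obtain ⟨a, rfl⟩ := ZMod.intCast_surjective a
      simp
    have h3' := h3 ℓ (fun e => hℓs.1 ((Nat.prime_dvd_prime_iff_eq hℓ.out hqp).1 e)) v
      ((hcc (dvd_mul_left q m) v).symm.trans (hu q (Finset.mem_insert_self q s) _))
    rw [LinearMap.comp_apply, LinearMap.comp_apply, h5 ℓ hℓs.2 v fun x hx hxM => ?_, ← map_smul,
      h3', map_smul]
    · rfl
    · exact (hcc (hs x (Finset.mem_insert_of_mem hx)).2.1 v).symm.trans
        (hu x (Finset.mem_insert_of_mem hx) _)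

end Fermat.Agent.LevelLowering.Avoid
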