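import Fermat.Agent.LevelLowering.Avoid.Level.Basic
import Fermat.Agent.LevelLowering.Avoid.Level.Bottom
import Fermat.Agent.LevelLowering.Avoid.Level.EigenSystem
import Fermat.Agent.LevelLowering.Avoid.Level.OldPrime
import Fermat.Agent.LevelLowering.Avoid.Level.Twist
import Fermat.Agent.HeckeCohom.Points

/-!
# A point trivial at the exceptional primes is Steinberg at one of them

The class of such a point either has `⟨q⟩ U_q ^ 2 ≠ 1` at every exceptional prime, and then descends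
to `B ∏ q_j` and gives the residual system at `B`, or it is twisted to an eigenform with
`a_q ^ 2 = 1` at one of them, whose newform has `q` exactly dividing its level.
-/

set_option autoImplicit false

noncomputable section

open IsLocalRing ModularFormClass
open Fermat.Agent.GroupH1
open scoped MatrixGroups

namespace Fermat.Agent.LevelLowering.Avoid

section

variable {O : Type} [CommRing O] [IsLocalRing O] {K : Type} [Field K] [Algebra O K]

/-- The residue of the eigenvalue after descent. -/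
theorem Reduction.reduces_descent {R : Reduction O K} {c x y : K} {s : ResidueField O} {n : ℕ}
    (hx : R.Reduces x s) (hc : R.Reduces c 1) (hn : (n : ResidueField O) = 1) (hy : IsIntegral O y)
    (h : c * x * y = c * x * x + n) : R.Reduces y (s + s⁻¹) := by
  obtain ⟨hcx, hcx'⟩ := hc.mul hx
  obtain ⟨hr, hr'⟩ := ((hc.mul hx).mul hx).add (R.reduces_natCast n)
  have e : R.ι (1 * s) * R.red ⟨y, hy⟩ = R.ι (1 * s * s + n) := by
    rw [← hcx', ← hr', ← map_mul]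
    exact congrArg R.red (Subtype.ext h)
  rw [one_mul, hn] at e
  have hs : s ≠ 0 := fun h0 => by simp [h0] at e
  refine ⟨hy, mul_left_cancel₀ ((map_ne_zero R.ι).2 hs) ?_⟩
  rw [e, ← map_mul]
  congr 1
  field_simp

end

/-- `toG1` is linear. -/
theorem toG1_smul_field {M : ℕ} {H : Subgroup (ZMod M)ˣ} {K : Type} [Field K] (c : K)
    (x : HMod M H K) :
    HeckeCohom.toG1 (K := K) (c • x) = c • HeckeCohom.toG1 (K := K) x := by
  refine AddMonoidHom.ext fun γ => ?_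
  rw [← ofMul_toMul γ, AddMonoidHom.smul_apply, HeckeCohom.toG1_apply, HeckeCohom.toG1_apply,
    map_smul]
  rfl

/-- A prime dividing the level of an eigenform once, but not that of its newform, is not
Steinberg. -/
theorem qCoeff_sq_ne_one_of_not_dvd {L M₀ : ℕ} [NeZero L] [NeZero M₀] {q : ℕ} (hq : q.Prime)
    (hqL : q ∣ L) (hsq : ¬ q * q ∣ L) (hM₀ : M₀ ∣ L) (hqM₀ : ¬ q ∣ M₀)
    {f : CuspForm (CongruenceSubgroup.Gamma0 L) 2} (hf : f.IsNormalizedEigenform)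
    {g : CuspForm (CongruenceSubgroup.Gamma0 M₀) 2} (hg : g.IsNormalizedEigenform)
    (heq : ∀ ℓ : ℕ, ℓ.Prime → ¬ ℓ ∣ L → qCoeff ⇑g ℓ = qCoeff ⇑f ℓ) : qCoeff ⇑f q ^ 2 ≠ 1 := by
  obtain ⟨M, rfl⟩ := hqL
  have : NeZero M := ⟨right_ne_zero_of_mul (NeZero.ne (q * M))⟩
  exact qCoeff_sq_ne_one_of_old hq (fun e => hsq (mul_dvd_mul_left _ e))
    (((hq.coprime_iff_not_dvd.2 hqM₀).symm).dvd_of_dvd_mul_left hM₀) hf hg heq

variable {O : Type} [CommRing O] [IsDomain O] [IsDiscreteValuationRing O]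
  [IsAdicComplete (maximalIdeal O) O]

namespace AvoidSetup.TWTuple

variable {p : ℕ} {X : AvoidSetup p O} {r : ℕ} (T : X.TWTuple r)

omit [IsAdicComplete (maximalIdeal O) O] in
/-- A unit `≡ 1` at the Taylor–Wiles primes has trivial Taylor–Wiles part. -/
theorem twPart_twChar_eq_one {u : (ZMod T.level)ˣ}
    (h : ∀ (j : Fin r) (hd : (T.q j : ℕ) ∣ T.level),
      ZMod.castHom hd (ZMod (T.q j : ℕ)) (u : ZMod T.level) = 1) :
    T.twPart (T.twChar u) = 1 := by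
  refine funext fun l => ?_
  induction l using Fin.addCases with
  | left j =>
    simp only [twPart, MonoidHom.pi_apply, Fin.addCases_left, Pi.evalMonoidHom_apply,
      Pi.one_apply]
    show T.compChar _ (ZMod.unitsMap (T.pr_dvd_level _) u) = 1
    have aux : ∀ {d : ℕ}, d = (T.q j : ℕ) → ∀ hd : d ∣ T.level, ZMod.unitsMap hd u = 1 := by
      rintro _ rfl hd
      exact Units.ext (h j hd)
    rw [aux (T.pr_castAdd j), map_one]
  | right i => simp [twPart, Fin.addCases_right]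

omit [IsAdicComplete (maximalIdeal O) O] in
/-- An exceptional prime divides the level. -/
theorem dvd_level_of_mem {q : ℕ} (hq : q ∈ X.E) : q ∣ T.level :=
  ((Finset.dvd_prod_of_mem (fun x => x) hq).trans (dvd_mul_left _ T.botLevel)).trans
    (dvd_of_eq T.level_eq.symm)

/-- The Taylor–Wiles primes. -/
def qNat : Finset ℕ := Finset.univ.image fun j => (T.q j : ℕ)

/-- The level of the forms twisted at the Taylor–Wiles primes only. -/
def qTwLevel : ℕ := T.level * ∏ x ∈ T.qNat, x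

omit [IsAdicComplete (maximalIdeal O) O] in
/-- A Taylor–Wiles prime divides the level exactly once. -/
theorem prop_of_mem_qNat {x : ℕ} (hx : x ∈ T.qNat) :
    x.Prime ∧ x ∣ T.level ∧ ¬ x * x ∣ T.level := by
  obtain ⟨j, -, rfl⟩ := Finset.mem_image.1 hx
  have h1 := T.not_sq_pr_dvd_level (Fin.castAdd X.E.card j)
  have h2 := T.pr_dvd_level (Fin.castAdd X.E.card j)
  rw [T.pr_castAdd] at h1 h2
  exact ⟨(T.q j).2, h2, h1⟩

instance neZero_qTwLevel : NeZero T.qTwLevel :=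
  ⟨mul_ne_zero (NeZero.ne T.level)
    (Finset.prod_ne_zero_iff.2 fun _ hx => (T.prop_of_mem_qNat hx).1.ne_zero)⟩

omit [IsAdicComplete (maximalIdeal O) O] in
/-- An exceptional prime is not a Taylor–Wiles prime. -/
theorem notMem_qNat {q : ℕ} (hq : q ∈ X.E) : q ∉ T.qNat := fun hm => by
  obtain ⟨j, -, hj⟩ := Finset.mem_image.1 hm
  exact T.notMem j (hj ▸ hq)

omit [IsAdicComplete (maximalIdeal O) O] in
/-- The level twisted at the Taylor–Wiles primes divides the twisted level. -/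
theorem qTwLevel_dvd_twLevel : T.qTwLevel ∣ T.twLevel := by
  rw [qTwLevel, qNat, twLevel, Fin.prod_univ_add,
    Finset.prod_image fun i _ j _ hij => T.inj (Subtype.ext hij)]
  refine mul_dvd_mul_left _ (Dvd.dvd.mul_right (dvd_of_eq ?_) _)
  exact Finset.prod_congr rfl fun j _ => (T.pr_castAdd j).symm

omit [IsAdicComplete (maximalIdeal O) O] in
/-- An exceptional prime divides the level twisted at the Taylor–Wiles primes exactly once. -/
theorem not_sq_dvd_qTwLevel {q : Nat.Primes} (hqE : (q : ℕ) ∈ X.E) :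
    ¬ (q : ℕ) * (q : ℕ) ∣ T.qTwLevel := fun e => by
  have hne : ∀ {x : ℕ}, x ∈ T.qNat → Nat.Coprime (q : ℕ) x := fun {x} hx =>
    (Nat.coprime_primes q.2 (T.prop_of_mem_qNat hx).1).2 fun e => T.notMem_qNat hqE (e ▸ hx)
  have hcop : Nat.Coprime ((q : ℕ) * (q : ℕ)) (∏ x ∈ T.qNat, x) :=
    Nat.Coprime.prod_right fun x hx => Nat.Coprime.mul_left (hne hx) (hne hx)
  have h1 := T.not_sq_pr_dvd_level (Fin.natAdd r (X.E.equivFin ⟨(q : ℕ), hqE⟩))
  rw [pr, Fin.append_right, primeE, Equiv.symm_apply_apply] at h1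
  exact h1 (hcop.dvd_of_dvd_mul_right e)

omit [IsAdicComplete (maximalIdeal O) O] in
/-- A unit at the level of the bottom lifts to the level, keeping its residues at the Taylor–Wiles
primes. -/
theorem exists_unit_lift {u₀ : (ZMod T.botLevel)ˣ} {n : ℕ} (hu₀ : (u₀ : ZMod T.botLevel) = n) :
    ∃ u : (ZMod T.level)ˣ, ZMod.unitsMap T.botLevel_dvd_level u = u₀ ∧
      ∀ x ∈ T.qNat, ∀ hx : x ∣ T.level, ZMod.castHom hx (ZMod x) (u : ZMod T.level) = n := by
  obtain ⟨u, hu⟩ := ZMod.unitsMap_surjective T.botLevel_dvd_level u₀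
  refine ⟨u, hu, fun x hx hxd => ?_⟩
  obtain ⟨j, -, rfl⟩ := Finset.mem_image.1 hx
  have hjb : (T.q j : ℕ) ∣ T.botLevel := T.pr_castAdd j ▸ T.pr_castAdd_dvd j
  have h1 := congrArg (fun z : (ZMod T.botLevel)ˣ =>
    ZMod.castHom hjb (ZMod (T.q j : ℕ)) (z : ZMod T.botLevel)) hu
  simp only [hu₀, map_natCast] at h1
  rw [← h1]
  exact DFunLike.congr_fun (Subsingleton.elim (ZMod.castHom hxd (ZMod (T.q j : ℕ)))
    ((ZMod.castHom hjb _).comp (ZMod.castHom T.botLevel_dvd_level (ZMod T.botLevel)))) _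

variable {K : Type} [Field K] [CharZero K] [Algebra O K]

/-- The character of a point on the diamond operators. -/
def pointChar (χ : T.Alg →ₐ[O] K) : T.Delta →* K where
  toFun δ := χ (T.diaA δ)
  map_one' := (congrArg χ (Subtype.ext (map_one T.dia) : T.diaA 1 = 1)).trans (map_one χ)
  map_mul' x y := (congrArg χ (Subtype.ext (map_mul T.dia x y) :
    T.diaA (x * y) = T.diaA x * T.diaA y)).trans (map_mul χ _ _)

/-- An eigenclass of the residual system has `χ(q) U_q ^ 2 = 1` at some exceptional prime `q`: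
otherwise it descends and the system occurs at level `B`. -/
theorem exists_sq_eq_one [CharZero O] [FaithfulSMul O K] (hW : X.Witness)
    (hB : ¬ Nontrivial X.BottomSpace) {v : HMod T.level T.subH K} {b : Nat.Primes → K}
    (hv0 : v ≠ 0) (hv : ∀ ℓ, (MvPolynomial.X ℓ : HeckePoly K) • v = b ℓ • v) (e : T.Delta →* K)
    (hd : ∀ g, diaLin g v =
      e (T.botChar (ZMod.unitsMap T.botLevel_dvd_level (ulUnit g))) • v)
    {R : Reduction O K} (hR : ∀ ℓ, R.Reduces (b ℓ) (T.sys ℓ)) :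
    ∃ (q : Nat.Primes) (u : (ZMod T.botLevel)ˣ), (q : ℕ) ∈ X.E ∧
      (u : ZMod T.botLevel) = (q : ℕ) ∧ e (T.botChar u) * b q ^ 2 = 1 := by
  have := X.fact_prime
  by_contra hA
  let ε₀ : (ZMod T.botLevel)ˣ → K := fun u => e (T.botChar u)
  refine hB ?_
  have hc : HasClass T.level (T.botChar.ker.comap (ZMod.unitsMap T.botLevel_dvd_level)) b
      fun g => ε₀ (ZMod.unitsMap T.botLevel_dvd_level (ulUnit g)) :=
    HasClass.cor T.subH_le (fun g hg => by
      rw [Subgroup.mem_comap, MonoidHom.mem_ker] at hg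
      show e _ = 1
      rw [hg, map_one]) ⟨v, hv0, hv, hd⟩
  obtain ⟨b', hb', hoff, hon⟩ := exists_descent_finset T.botChar.ker ε₀ X.E
    (fun q hq => ⟨(X.mem_E q hq).1, T.not_dvd_botLevel hq⟩) T.level T.level_eq _ b hc
    fun q u hq hu h => hA ⟨q, u, hq, hu, h⟩
  refine T.nontrivial_bottomSpace hW hb' (R := R) fun ℓ => ?_
  by_cases hℓ : (ℓ : ℕ) ∈ X.E
  · rw [T.botSys_of_mem hℓ]
    set u : (ZMod T.botLevel)ˣ :=
      ZMod.unitOfCoprime ℓ (ℓ.2.coprime_iff_not_dvd.2 (T.not_dvd_botLevel hℓ))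
    obtain ⟨hb0, hbl⟩ := hon ℓ u hℓ rfl
    obtain ⟨w, hw0, hw, -⟩ := hb'
    have hu : ε₀ u ≠ 0 := ((Group.isUnit (T.botChar u)).map e).ne_zero
    refine Reduction.reduces_descent (c := ε₀ u) (n := (ℓ : ℕ))
      ((hR ℓ).congr (T.sys_of_mem hℓ)) ?_ (X.cast_eq_one_of_dvd ℓ.2 (X.mem_E _ hℓ).2.1)
      (isIntegral_of_eigen hw0 hw ℓ) ?_
    · refine Reduction.reduces_one_of_pow (p := p) X.p_mem (n := ∑ l, T.expo l) ?_
      rw [← map_pow, T.delta_pow_eq_one, map_one]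
    · rw [hbl, mul_add, mul_div_cancel₀ _ (mul_ne_zero hu hb0)]
  · rw [hoff ℓ hℓ, T.botSys_of_notMem hℓ]
    exact hR ℓ

omit [IsAdicComplete (maximalIdeal O) O] in
/-- Twisting an eigenclass by the square root of the inverse of its character gives a class on
`Γ₀` with the eigenvalues of the point, and of square one at `q`. -/
theorem exists_twisted_hom (χ : T.Alg →ₐ[O] K) (htw : T.pointChar χ = (T.pointChar χ).comp T.twPart)
    {v : HMod T.level T.subH K} {b : Nat.Primes → K} (hv0 : v ≠ 0)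
    (hv : ∀ ℓ, (MvPolynomial.X ℓ : HeckePoly K) • v = b ℓ • v)
    (hve : ∀ δ, deckLin le_top T.topChar T.topChar_surjective T.mem_subH_iff δ v =
      T.pointChar χ δ • v)
    (hb : ∀ (ℓ : Nat.Primes) (h : (ℓ : ℕ) ∉ T.badPrimes), b ℓ = χ (T.heckeA ℓ h))
    {q : Nat.Primes} {u₀ : (ZMod T.botLevel)ˣ} (hqE : (q : ℕ) ∈ X.E)
    (hu₀ : (u₀ : ZMod T.botLevel) = (q : ℕ))
    (hsq : T.pointChar χ (T.botChar u₀) * b q ^ 2 = 1) :
    ∃ (φ : Additive (CongruenceSubgroup.Gamma0 T.qTwLevel) →+ K) (a : ℕ → K), φ ≠ 0 ∧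
      a (q : ℕ) ^ 2 = 1 ∧
      (∀ (ℓ : Nat.Primes) (h : (ℓ : ℕ) ∉ T.badPrimes), a (ℓ : ℕ) = χ (T.twA ℓ h)) ∧
      (∀ (ℓ : Nat.Primes), (ℓ : ℕ) ∉ T.badPrimes → ((ℓ : ℕ) : ZMod T.level) = 1 →
        a (ℓ : ℕ) = b ℓ) ∧
      ∀ (ℓ : ℕ) (hℓ : ℓ.Prime), ℓ ∉ T.badPrimes ∨ ℓ = (q : ℕ) →
        HeckeCohom.heckeOp T.qTwLevel ℓ hℓ K φ = a ℓ • φ := by
  classical
  set eh := T.pointChar χ with heh
  set n := ∑ l, T.expo l
  set h := (p ^ n - 1) / 2
  have h2n : 2 * h + 1 = p ^ n := T.two_mul_add_one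
  have hord : ∀ δ : T.Delta, δ ^ (2 * h + 1) = 1 := fun δ => h2n ▸ T.delta_pow_eq_one δ
  have hinv : ∀ δ : T.Delta, δ⁻¹ ^ (2 * h) = δ := fun δ => by
    rw [inv_pow]
    exact inv_eq_of_mul_eq_one_left (by rw [← pow_succ']; exact hord δ)
  -- the twist
  let f₀ : (ZMod T.level)ˣ →* Kˣ := ((eh.comp T.twChar).comp (invMonoidHom)).toHomUnits
  let χc : ZMod T.level →* K := (MulChar.ofUnitHom f₀).toMonoidHom
  have hχc : ∀ u : (ZMod T.level)ˣ, χc u = eh (T.twChar u⁻¹) := fun u =>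
    MulChar.ofUnitHom_coe f₀ u
  set φ := HeckeCohom.toG1 (O := K) (K := K) v
  have hφ0 : φ ≠ 0 := fun h0 => hv0 (HeckeCohom.toG1_eq_zero h0)
  have hφT : ∀ (ℓ : ℕ) [Fact ℓ.Prime], (heckeSystem T.level ⊥ ℓ).transfer φ = b (primeOf ℓ) • φ :=
    fun ℓ _ => by rw [← HeckeCohom.toG1_X_smul, hv, toG1_smul_field]
  have hφ : HeckeCohom.IsChiHom χc φ := HeckeCohom.isChiHom_iff_conjSystem.2 fun δ => by
    rw [HeckeCohom.toG1_deck T.topChar T.topChar_surjective T.mem_subH_iff, hve, toG1_smul_field,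
      hχc, inv_inv]
    rfl
  obtain ⟨Φ, hΦ⟩ := exists_twistMap_away h T.qNat T.level T.qTwLevel rfl χc
    (fun x hx => T.prop_of_mem_qNat hx)
    (fun u => by rw [hχc, ← map_pow, hord, map_one]) (fun u hu => by
      rw [hχc, map_inv, DFunLike.congr_fun htw, MonoidHom.comp_apply, map_inv,
        T.twPart_twChar_eq_one fun j hd' =>
          hu _ (Finset.mem_image_of_mem _ (Finset.mem_univ j)) hd',
        inv_one, map_one])
  obtain ⟨hΦ0, hΦT⟩ := hΦ φ hφ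
  obtain ⟨uq, huq, huq'⟩ := T.exists_unit_lift hu₀
  have hqbad : ∀ ℓ : Nat.Primes, (ℓ : ℕ) ∉ T.badPrimes → (ℓ : ℕ) ≠ (q : ℕ) := fun ℓ hℓ e =>
    hℓ (e ▸ T.mem_badPrimes_of_dvd q.2 ((T.dvd_level_of_mem hqE).trans (dvd_mul_right _ _)))
  refine ⟨Φ φ, fun ℓ => if ℓ = q then χc uq ^ h * b q
      else if hℓ : ℓ.Prime then χc (ℓ : ZMod T.level) ^ h * b ⟨ℓ, hℓ⟩ else 0,
    fun e => hφ0 (hΦ0 e), ?_, fun ℓ hℓ => ?_, fun ℓ hℓ h1 => ?_, fun ℓ hℓ hℓq => ?_⟩
  · simp only [if_pos]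
    rw [mul_pow, ← pow_mul, mul_comm h 2, hχc, ← map_pow, map_inv, hinv]
    rw [DFunLike.congr_fun htw, MonoidHom.comp_apply, T.twPart_twChar, huq]
    exact hsq
  · have hℓl : ¬ (ℓ : ℕ) ∣ T.level := fun e =>
      hℓ (T.mem_badPrimes_of_dvd ℓ.2 (e.trans (dvd_mul_right _ _)))
    simp only [if_neg (hqbad ℓ hℓ), dif_pos ℓ.2]
    rw [← HeckeCohom.coe_unitAt T.level ℓ.2 hℓl, hχc, ← map_pow, map_inv, twA, map_mul,
      show (⟨(ℓ : ℕ), ℓ.2⟩ : Nat.Primes) = ℓ from rfl, hb ℓ hℓ]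
    refine congrArg (· * χ (T.heckeA ℓ hℓ)) (congrArg eh ?_)
    show (T.twChar (HeckeCohom.unitAt T.level ℓ))⁻¹ ^ h =
      (T.twChar (HeckeCohom.unitAt T.level ℓ)) ^ T.halfExp
    rw [show T.halfExp = h + 1 by
      show (p ^ n + 1) / 2 = h + 1
      omega, inv_pow]
    refine inv_eq_of_mul_eq_one_left ?_
    rw [← pow_add, show h + 1 + h = 2 * h + 1 by ring]
    exact hord _
  · simp only [if_neg (hqbad ℓ hℓ), dif_pos ℓ.2, h1, map_one, one_pow, one_mul]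
    rfl
  · have := Fact.mk hℓ
    by_cases hℓe : ℓ = (q : ℕ)
    · subst hℓe
      rw [hΦT _ (T.notMem_qNat hqE) uq huq', hφT, map_smul, smul_smul]
      simp only [if_pos]
      rfl
    · have hnb : ℓ ∉ T.badPrimes := hℓq.resolve_right hℓe
      have hnl : ¬ ℓ ∣ T.level := fun e =>
        hnb (T.mem_badPrimes_of_dvd hℓ (e.trans (dvd_mul_right _ _)))
      have hns : ℓ ∉ T.qNat := fun hm => hnl (T.prop_of_mem_qNat hm).2.1
      rw [hΦT ℓ hns (ZMod.unitOfCoprime ℓ (hℓ.coprime_iff_not_dvd.2 hnl))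
        fun x _ hx => map_natCast _ ℓ, hφT, map_smul, smul_smul]
      simp only [if_neg hℓe, dif_pos hℓ]
      rfl

omit [IsAdicComplete (maximalIdeal O) O] in
/-- A twisted eigenclass of the residual system is parabolic. -/
theorem isParabolicHom_of_witness (hW : X.Witness) {b : Nat.Primes → K} {R : Reduction O K}
    (hR : ∀ ℓ, R.Reduces (b ℓ) (T.sys ℓ))
    (φ : Additive (CongruenceSubgroup.Gamma0 T.qTwLevel) →+ K) {a : ℕ → K}
    (ha : ∀ (ℓ : Nat.Primes), (ℓ : ℕ) ∉ T.badPrimes → ((ℓ : ℕ) : ZMod T.level) = 1 →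
      a (ℓ : ℕ) = b ℓ)
    (heig : ∀ (ℓ : ℕ) (hℓ : ℓ.Prime), ℓ ∉ T.badPrimes →
      HeckeCohom.heckeOp T.qTwLevel ℓ hℓ K φ = a ℓ • φ) :
    ModularCurve.Period.IsParabolicHom (CongruenceSubgroup.Gamma0 T.qTwLevel) φ := by
  obtain ⟨ℓ₀, hℓ₀, hℓ₀1, hℓ₀a⟩ := hW.nonEis T.qTwLevel (NeZero.ne _) T.badPrimes
  have hℓ₀l : ((ℓ₀ : ℕ) : ZMod T.level) = 1 := by
    have hdvd : T.level ∣ T.qTwLevel := dvd_mul_right _ _
    have := congrArg (ZMod.castHom hdvd (ZMod T.level)) hℓ₀1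
    rwa [map_natCast, map_one] at this
  have hb₀ : b ℓ₀ ≠ ((1 + (ℓ₀ : ℕ) : ℤ) : K) := fun e => hℓ₀a <| by
    rw [← T.sys_eq_of_notMem hℓ₀, add_comm]
    refine (hR ℓ₀).unique ?_
    rw [e]
    push_cast
    simpa using (R.reduces_natCast 1).add (R.reduces_natCast (ℓ₀ : ℕ))
  intro γ hγ
  have := Fact.mk ℓ₀.2
  have h2 := HeckeCohom.isParabolicHom_heckeOp_sub hℓ₀1 φ γ hγ
  rw [heig ℓ₀ ℓ₀.2 hℓ₀, AddMonoidHom.sub_apply, AddMonoidHom.smul_apply,
    AddMonoidHom.smul_apply, ← Int.cast_smul_eq_zsmul K, ← sub_smul, smul_eq_mul,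
    ha ℓ₀ hℓ₀ hℓ₀l] at h2
  exact (mul_eq_zero.mp h2).resolve_left (sub_ne_zero.mpr hb₀)

omit [IsAdicComplete (maximalIdeal O) O] in
/-- A parabolic eigenclass with the eigenvalues of the point and of square one at `q` gives a
newform with `q` exactly dividing its level. -/
theorem exists_formAt_of_eigenHom {χ : T.Alg →ₐ[O] K} {q : Nat.Primes} (hqE : (q : ℕ) ∈ X.E)
    {φ : Additive (CongruenceSubgroup.Gamma0 T.qTwLevel) →+ K} (hφ0 : φ ≠ 0)
    (hpar : ModularCurve.Period.IsParabolicHom (CongruenceSubgroup.Gamma0 T.qTwLevel) φ)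
    {a : ℕ → K} (hqsq : a (q : ℕ) ^ 2 = 1)
    (hgood : ∀ (ℓ : Nat.Primes) (h : (ℓ : ℕ) ∉ T.badPrimes), a (ℓ : ℕ) = χ (T.twA ℓ h))
    (heig : ∀ (ℓ : ℕ) (hℓ : ℓ.Prime), ℓ ∉ T.badPrimes ∨ ℓ = (q : ℕ) →
      HeckeCohom.heckeOp T.qTwLevel ℓ hℓ K φ = a ℓ • φ) :
    ∃ (M : ℕ) (_ : NeZero M) (g : CuspForm (CongruenceSubgroup.Gamma0 M) 2),
      T.FormAt χ M g ∧ (q : ℕ) ∣ M ∧ ¬ (q : ℕ) ^ 2 ∣ M := by
  let S : Set ℕ := {ℓ | ℓ ∈ T.badPrimes ∧ ℓ ≠ (q : ℕ)}
  obtain ⟨f, hf, ι, hι, hfa⟩ := HeckeCohom.exists_eigenform_of_eigenHom (S := S)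
    (HeckeCohom.eichlerShimuraSurjective T.qTwLevel) φ hpar hφ0 a fun ℓ hℓ hn =>
      heig ℓ hℓ (or_iff_not_and_not.2 fun e => hn ⟨not_not.1 e.1, e.2⟩)
  obtain ⟨M₀, hM₀, hM₀pos, g, hg, hgf⟩ := Newforms.exists_newform T.qTwLevel f hf
  have : NeZero M₀ := ⟨hM₀pos.ne'⟩
  have hM'bad : ∀ ℓ : ℕ, ℓ.Prime → ℓ ∉ T.badPrimes → ¬ ℓ ∣ T.qTwLevel := fun ℓ hℓ hn e =>
    hn (T.mem_badPrimes_of_dvd hℓ (e.trans T.qTwLevel_dvd_twLevel))
  refine ⟨M₀, inferInstance, g, ⟨hg, hM₀.trans T.qTwLevel_dvd_twLevel,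
    (HeckeEigen.eigenChar hf S).range, fun ℓ hℓ hn => ?_, ι, fun ℓ hn => ?_⟩, ?_, fun e =>
      T.not_sq_dvd_qTwLevel hqE (by rw [← pow_two]; exact e.trans hM₀)⟩
  · rw [hgf ℓ hℓ (hM'bad ℓ hℓ hn)]
    exact (hfa ℓ hℓ fun e => hn e.1).1
  · obtain ⟨hmem, hval⟩ := hfa ℓ ℓ.2 fun e => hn e.1
    rw [← hgood ℓ hn, ← hval]
    exact congrArg ι (Subtype.ext (hgf ℓ ℓ.2 (hM'bad ℓ ℓ.2 hn)).symm)
  · by_contra hqM₀
    obtain ⟨hmem, hval⟩ := hfa (q : ℕ) q.2 fun e => e.2 rfl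
    have hfq : qCoeff ⇑f (q : ℕ) ^ 2 = 1 := by
      have h1 : (⟨_, hmem⟩ : (HeckeEigen.eigenChar hf S).range) ^ 2 = 1 :=
        hι (by rw [map_pow, hval, hqsq, map_one])
      exact congrArg Subtype.val h1
    exact qCoeff_sq_ne_one_of_not_dvd (L := T.qTwLevel) q.2
      ((T.dvd_level_of_mem hqE).trans (dvd_mul_right _ _))
      (T.not_sq_dvd_qTwLevel hqE) hM₀ hqM₀ hf hg.1 hgf hfq

/-- **A point trivial at the exceptional primes is Steinberg at one of them.** -/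
theorem trivialPoint : T.TrivialPoint := by
  classical
  intro _ _ hW hB χ hχ
  have := X.fact_prime
  let K := AlgebraicClosure (FractionRing O)
  have hinj : Function.Injective (algebraMap O K) := by
    rw [IsScalarTower.algebraMap_eq O (FractionRing O) K]
    exact (algebraMap (FractionRing O) K).injective.comp (IsFractionRing.injective O _)
  have : FaithfulSMul O K := (faithfulSMul_iff_algebraMap_injective O K).2 hinj
  have : CharZero K := charZero_of_injective_ringHom hinj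
  -- the eigenclass of the point
  obtain ⟨v, b, e, hv0, hv, hve, hker, hed, hbG⟩ := exists_eigen_of_point T.topChar
    T.topChar_surjective T.mem_subH_iff T.idl (K := K) {ℓ | (ℓ : ℕ) ∉ T.badPrimes} χ
  have he : ∀ δ, e δ = T.pointChar χ δ := fun δ => hed δ _
  simp only [he] at hve
  have htw : T.pointChar χ = (T.pointChar χ).comp T.twPart := T.eq_comp_twPart _ hχ
  have hd : ∀ g, diaLin g v =
      T.pointChar χ (T.botChar (ZMod.unitsMap T.botLevel_dvd_level (ulUnit g))) • v := fun g => by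
    rw [← deckLin_eq_diaLin T.topChar T.topChar_surjective T.mem_subH_iff, hve,
      ← T.twPart_twChar]
    exact congrArg (· • v) (DFunLike.congr_fun htw _)
  obtain ⟨R, hR⟩ := exists_reduction b (fun ℓ => isIntegral_of_eigen hv0 hv ℓ) T.sys hker
  obtain ⟨q, u₀, hqE, hu₀, hsq⟩ := T.exists_sq_eq_one hW hB hv0 hv _ hd hR
  -- twist it to a parabolic class on `Γ₀` and take its newform
  obtain ⟨φ, a, hφ0, hqsq, hgood, hone, heig⟩ :=
    T.exists_twisted_hom χ htw hv0 hv hve (fun ℓ h => hbG ℓ h _) hqE hu₀ hsq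
  exact ⟨(q : ℕ), hqE, T.exists_formAt_of_eigenHom hqE hφ0
    (T.isParabolicHom_of_witness hW hR φ hone fun ℓ hℓ hn => heig ℓ hℓ (Or.inl hn))
    hqsq hgood heig⟩

end AvoidSetup.TWTuple

end Fermat.Agent.LevelLowering.Avoid
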