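import Fermat.Agent.LevelLowering.Avoid.Statements

/-!
# Ihara avoidance: elementary facts about one level

The primes of a tuple and of its level, the residual system on them, `-1 ∈ H`, and the auxiliary
primes which are not Eisenstein at the level.
-/

set_option autoImplicit false

noncomputable section

open IsLocalRing
open Fermat.Agent.GroupH1

namespace Fermat.Agent.LevelLowering.Avoid

variable {O : Type} [CommRing O] [IsDomain O] [IsDiscreteValuationRing O]

namespace AvoidSetup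

variable {p : ℕ} {X : AvoidSetup p O}

namespace TWTuple

variable {r : ℕ} (T : X.TWTuple r)

theorem q_mem_badPrimes (j : Fin r) : (T.q j : ℕ) ∈ T.badPrimes := by
  refine Finset.mem_insert_of_mem (Nat.mem_primeFactors.2 ⟨(T.q j).2, ?_, NeZero.ne _⟩)
  have h := T.pr_dvd_level (Fin.castAdd X.E.card j)
  rwa [pr, Fin.append_left] at h

/-- The residual system at a Taylor–Wiles prime. -/
theorem sys_q (j : Fin r) : T.sys (T.q j) = T.α j := by
  have h : ∃ j', T.q j' = T.q j := ⟨j, rfl⟩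
  rw [sys, dif_pos h, T.inj h.choose_spec]

/-- The residual system agrees with the given one away from the Taylor–Wiles primes. -/
theorem sys_eq_of_forall_ne {ℓ : Nat.Primes} (h : ∀ j, T.q j ≠ ℓ) : T.sys ℓ = X.a ℓ :=
  dif_neg fun ⟨j, hj⟩ => h j hj

/-- The residual system agrees with the given one away from the bad primes. -/
theorem sys_eq_of_notMem {ℓ : Nat.Primes} (h : (ℓ : ℕ) ∉ T.badPrimes) : T.sys ℓ = X.a ℓ :=
  T.sys_eq_of_forall_ne fun j hj => h (hj ▸ T.q_mem_badPrimes j)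

theorem pr_not_dvd_setupB (l : Fin (r + X.E.card)) : ¬ T.pr l ∣ X.B :=
  Fin.addCases (motive := fun l => ¬ T.pr l ∣ X.B)
    (fun j => by rw [pr, Fin.append_left]; exact T.not_dvd j)
    (fun i => by rw [pr, Fin.append_right]; exact (X.mem_E _ (T.primeE_mem i)).2.2) l

/-- Each prime of a tuple divides the level exactly once. -/
theorem not_sq_pr_dvd_level (l : Fin (r + X.E.card)) : ¬ T.pr l * T.pr l ∣ T.level := by
  intro h
  rw [level, ← Finset.mul_prod_erase _ T.pr (Finset.mem_univ l), mul_left_comm] at h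
  rcases (T.pr_prime l).dvd_mul.1 (Nat.dvd_of_mul_dvd_mul_left (T.pr_prime l).pos h) with h | h
  · exact T.pr_not_dvd_setupB l h
  · obtain ⟨l', hl', hd⟩ := (Prime.dvd_finsetProd_iff (T.pr_prime l).prime _).1 h
    exact (Finset.mem_erase.1 hl').1
      (T.pr_injective ((Nat.prime_dvd_prime_iff_eq (T.pr_prime l) (T.pr_prime l')).1 hd)).symm

/-- The level is the base level times the Taylor–Wiles primes. -/
theorem level_eq_baseLevel_mul : T.level = X.baseLevel * ∏ j, (T.q j : ℕ) := by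
  have hE : ∏ i, T.primeE i = ∏ q ∈ X.E, q := by
    rw [← Finset.prod_coe_sort X.E (fun q => q)]
    exact Fintype.prod_equiv X.E.equivFin.symm _ _ fun i => rfl
  rw [level, baseLevel, Fin.prod_univ_add, ← hE]
  simp only [pr, Fin.append_left, Fin.append_right]
  ring

instance neZero_baseLevel (X : AvoidSetup p O) : NeZero X.baseLevel :=
  ⟨mul_ne_zero X.B_ne_zero (Finset.prod_ne_zero_iff.2 fun q hq => (X.mem_E q hq).1.ne_zero)⟩

/-- `Δ` is a `p`-group. -/
theorem isPGroup_delta : IsPGroup p T.Delta := fun x => ⟨_, T.delta_pow_eq_one x⟩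

/-- `-1` lies in the subgroup of the level. -/
theorem neg_one_mem_subH : (-1 : (ZMod T.level)ˣ) ∈ T.subH := by
  rw [MonoidHom.mem_ker, ← T.pow_two_mul_halfExp (T.twChar (-1)), pow_mul, ← map_pow,
    neg_one_sq, map_one, one_pow]

/-- An auxiliary prime that is not Eisenstein, `≡ 1` modulo `M`, away from the level. -/
theorem exists_nonEis (hW : X.Witness) (M : ℕ) (hM : M ≠ 0) :
    ∃ ℓ : Nat.Primes, (ℓ : ℕ) ∉ T.badPrimes ∧ ((ℓ : ℕ) : ZMod M) = 1 ∧
      (MvPolynomial.X ℓ - MvPolynomial.C (((ℓ : ℕ) : O) + 1) : HeckePoly O) ∉ T.idl := by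
  obtain ⟨ℓ, hℓ, h1, hne⟩ := hW.nonEis M hM T.badPrimes
  refine ⟨ℓ, hℓ, h1, ?_⟩
  rw [X_sub_C_mem_eigIdeal_iff, T.sys_eq_of_notMem hℓ, map_add, map_natCast, map_one]
  exact hne

/-- Unless `3` is invertible some prime `≡ 2 (mod 3)` has a Hecke operator outside the ideal. -/
theorem exists_three (hW : X.Witness) : IsUnit (3 : O) ∨ ∃ ℓ : Nat.Primes, (ℓ : ℕ) % 3 = 2 ∧
    ¬ (ℓ : ℕ) ∣ T.level ∧ (MvPolynomial.X ℓ : HeckePoly O) ∉ T.idl := by
  refine hW.three.imp_right fun h => ?_
  obtain ⟨ℓ, hℓ, hmod, hne⟩ := h T.badPrimes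
  refine ⟨ℓ, hmod, fun hd => hℓ (T.mem_badPrimes_of_dvd ℓ.2 (hd.trans (dvd_mul_right _ _))), ?_⟩
  rw [mem_eigIdeal, MvPolynomial.eval₂Hom_X', T.sys_eq_of_notMem hℓ]
  exact hne

end TWTuple

end AvoidSetup

end Fermat.Agent.LevelLowering.Avoid
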