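import Fermat.Agent.LevelLowering.Avoid.Statements
import Fermat.Agent.LevelLowering.Avoid.Diamond
import Fermat.Agent.HeckeCohom.TwistRelations

/-!
# Diamond characters trivial at the exceptional primes

A character of the diamond operators trivial on the generators at the exceptional primes factors
through the level `B ∏ q_j`; a class fixed by the diamond operators of a larger group comes by
corestriction from that group.
-/

set_option autoImplicit false

noncomputable section

open IsLocalRing
open Fermat.Agent.GroupH1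
open scoped MatrixGroups

namespace Fermat.Agent.LevelLowering.Avoid

/-- An eigenclass of all Hecke and diamond operators. -/
def HasClass {K : Type} [CommRing K] (N : ℕ) (H : Subgroup (ZMod N)ˣ) (b : Nat.Primes → K)
    (ε : G₀ N → K) : Prop :=
  ∃ v : HMod N H K, v ≠ 0 ∧ (∀ ℓ, (MvPolynomial.X ℓ : HeckePoly K) • v = b ℓ • v) ∧
    ∀ g, diaLin g v = ε g • v

/-- An eigenclass is transported along equal subgroups and characters. -/
lemma HasClass.of_eq {K : Type} [CommRing K] {N : ℕ} {H H' : Subgroup (ZMod N)ˣ} (h : H = H')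
    {b : Nat.Primes → K} {ε ε' : G₀ N → K} (hε : ∀ g, ε g = ε' g) (hc : HasClass N H b ε) :
    HasClass N H' b ε' := by
  subst h
  obtain rfl : ε = ε' := funext hε
  exact hc

section Cor

variable {N : ℕ} [NeZero N] {H H' : Subgroup (ZMod N)ˣ} {K : Type} [Field K] [CharZero K]

/-- **Descent of the group.** -/
theorem HasClass.cor (hle : H ≤ H') {b : Nat.Primes → K} {ε : G₀ N → K}
    (hfix : ∀ g : G₀ N, ulUnit g ∈ H' → ε g = 1) (hc : HasClass N H b ε) :
    HasClass N H' b ε := by
  classical
  obtain ⟨v, hv0, hv, hd⟩ := hc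
  let Δ := H' ⧸ H.subgroupOf H'
  let _ : CommGroup Δ := QuotientGroup.Quotient.commGroup (H.subgroupOf H')
  let θ : H' →* Δ := QuotientGroup.mk' (H.subgroupOf H')
  have hθ : Function.Surjective θ := QuotientGroup.mk'_surjective _
  have hker : ∀ u : H', (u : (ZMod N)ˣ) ∈ H ↔ θ u = 1 := fun u => by
    rw [QuotientGroup.mk'_apply, QuotientGroup.eq_one_iff, Subgroup.mem_subgroupOf]
  let _ : Fintype Δ := Fintype.ofFinite _
  have hdeck : ∀ δ, deckLin hle θ hθ hker δ v = v := fun δ => by
    set s := (deckDataGammaH hle θ hθ hker).sec δ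
    have hs : ulUnit (⟨s, coe_mem_G₀ s⟩ : G₀ N) ∈ H' := (mem_GammaH_iff_ulUnit _).1 s.2
    refine Eq.trans ?_ (show diaLin ⟨s, coe_mem_G₀ s⟩ v = v by rw [hd, hfix _ hs, one_smul])
    obtain ⟨φ, rfl⟩ := toH.surjective v
    rw [deckLin_toH, diaLin_toH]
    refine congrArg toH (AddMonoidHom.ext fun γ => ?_)
    rw [← ofMul_toMul γ, HeckeCohom.conjSystem_transfer_apply, diaOp_apply]
    rfl
  have hinj : ∀ w : HMod N H' K, resLin hle θ hθ hker w = 0 → w = 0 := fun w hw => by
    obtain ⟨φ, rfl⟩ := toH.surjective w
    rw [resLin_toH, map_eq_zero_iff _ toH.injective] at hw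
    refine (map_eq_zero_iff _ toH.injective).2 (AddMonoidHom.ext fun δ => ?_)
    rw [← ofMul_toMul δ]
    obtain ⟨n, hn, -, hnmem⟩ := Subgroup.exists_pow_mem_of_index_ne_zero
      (GammaH N H).index_ne_zero_of_finite ((Additive.toMul δ : GammaH N H') : SL(2, ℤ))
    have h1 := DFunLike.congr_fun hw (Additive.ofMul (⟨_, hnmem⟩ : GammaH N H))
    rw [resHom_apply, show (⟨_, GammaH_mono hle hnmem⟩ : GammaH N H') = Additive.toMul δ ^ n from
      Subtype.ext rfl, ofMul_pow, map_nsmul, AddMonoidHom.zero_apply] at h1
    exact (nsmul_eq_zero_iff.1 h1).resolve_right hn.ne'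
  have hrc : resLin hle θ hθ hker (corLin hle θ hθ hker v) = (Fintype.card Δ : K) • v := by
    have h1 : resLin hle θ hθ hker (corLin hle θ hθ hker v) = ∑ δ, deckLin hle θ hθ hker δ v := by
      obtain ⟨φ, rfl⟩ := toH.surjective v
      simp only [corLin_toH, resLin_toH, deckLin_toH, ← map_sum]
      exact congrArg toH ((deckDataGammaH hle θ hθ hker).res_cor φ)
    simp only [h1, hdeck, Finset.sum_const, Finset.card_univ, Nat.cast_smul_eq_nsmul]
  have hcard : (Fintype.card Δ : K) ≠ 0 := Nat.cast_ne_zero.2 Fintype.card_ne_zero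
  refine ⟨corLin hle θ hθ hker v, fun h => hv0 ?_, fun ℓ => ?_, fun g => ?_⟩
  · rw [h, map_zero] at hrc
    exact smul_eq_zero_hMod hcard v hrc.symm
  · rw [← map_smul, hv, ← algebraMap_smul (HeckePoly K) (b ℓ) v, map_smul, algebraMap_smul]
  · refine sub_eq_zero.1 (hinj _ ?_)
    rw [map_sub, sub_eq_zero]
    have h2 : ∀ w : HMod N H' K, resLin hle θ hθ hker (diaLin g w) = diaLin g (resLin hle θ hθ hker w) :=
      fun w => by
        obtain ⟨φ, rfl⟩ := toH.surjective w
        rfl
    rw [h2, hrc, map_smul, hd, ← algebraMap_smul (HeckePoly K) (ε g) (corLin hle θ hθ hker v),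
      map_smul, algebraMap_smul, hrc, smul_comm]

end Cor

variable {O : Type} [CommRing O] [IsLocalRing O]

namespace AvoidSetup.TWTuple

variable {p : ℕ} {X : AvoidSetup p O} {r : ℕ} (T : X.TWTuple r)

/-- The level with the exceptional primes removed. -/
def botLevel : ℕ := X.B * ∏ j, (T.q j : ℕ)

instance neZero_botLevel : NeZero T.botLevel :=
  ⟨mul_ne_zero X.B_ne_zero (Finset.prod_ne_zero_iff.2 fun j _ => (T.q j).2.ne_zero)⟩

/-- The level is the bottom level times the exceptional primes. -/
theorem level_eq : T.level = T.botLevel * ∏ q ∈ X.E, q := by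
  rw [level, botLevel, Fin.prod_univ_add, mul_assoc]
  congr 2
  · exact Finset.prod_congr rfl fun j _ => by rw [pr, Fin.append_left]
  · simp only [pr, Fin.append_right, primeE]
    rw [← Finset.prod_coe_sort X.E, ← X.E.equivFin.symm.prod_comp]

/-- The bottom level divides the level. -/
theorem botLevel_dvd_level : T.botLevel ∣ T.level := T.level_eq ▸ dvd_mul_right _ _

/-- An exceptional prime does not divide the bottom level. -/
theorem not_dvd_botLevel {q : ℕ} (hq : q ∈ X.E) : ¬ q ∣ T.botLevel := fun h => by
  obtain ⟨hqp, -, hqB⟩ := X.mem_E q hq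
  rcases hqp.dvd_mul.1 h with h | h
  · exact hqB h
  · obtain ⟨j, -, hj⟩ := (hqp.prime.dvd_finsetProd_iff _).1 h
    exact T.notMem j ((Nat.prime_dvd_prime_iff_eq hqp (T.q j).2).1 hj ▸ hq)

/-- A Taylor–Wiles prime divides the bottom level. -/
theorem pr_castAdd_dvd (j : Fin r) : T.pr (Fin.castAdd X.E.card j) ∣ T.botLevel := by
  rw [T.pr_castAdd]
  exact (Finset.dvd_prod_of_mem _ (Finset.mem_univ j)).trans (dvd_mul_left _ X.B)

/-- The character of the Taylor–Wiles primes on the units modulo the level without exceptional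
primes. -/
def botChar : (ZMod T.botLevel)ˣ →* T.Delta :=
  MonoidHom.pi fun l => Fin.addCases
    (motive := fun l => (ZMod T.botLevel)ˣ →* Multiplicative (ZMod (p ^ T.expo l)))
    (fun j => (T.compChar (Fin.castAdd X.E.card j)).comp (ZMod.unitsMap (T.pr_castAdd_dvd j)))
    (fun _ => 1) l

/-- The projection to the Taylor–Wiles part. -/
def twPart : T.Delta →* T.Delta :=
  MonoidHom.pi fun l => Fin.addCases
    (motive := fun l => T.Delta →* Multiplicative (ZMod (p ^ T.expo l)))
    (fun j => Pi.evalMonoidHom _ (Fin.castAdd X.E.card j)) (fun _ => 1) l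

/-- The Taylor–Wiles part of the character factors through the bottom level. -/
theorem twPart_twChar (u : (ZMod T.level)ˣ) :
    T.twPart (T.twChar u) = T.botChar (ZMod.unitsMap T.botLevel_dvd_level u) := by
  refine funext fun l => ?_
  induction l using Fin.addCases with
  | left j =>
    simp only [twPart, botChar, MonoidHom.pi_apply, Fin.addCases_left, Pi.evalMonoidHom_apply,
      MonoidHom.comp_apply]
    show T.compChar _ _ = _
    rw [← MonoidHom.comp_apply (ZMod.unitsMap _) (ZMod.unitsMap _), ZMod.unitsMap_comp]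
  | right i => simp [twPart, botChar, Fin.addCases_right]

/-- The subgroup of the level dies at the bottom level. -/
theorem subH_le : T.subH ≤ T.botChar.ker.comap (ZMod.unitsMap T.botLevel_dvd_level) := fun u hu => by
  rw [Subgroup.mem_comap, MonoidHom.mem_ker, ← T.twPart_twChar, MonoidHom.mem_ker.1 hu, map_one]

/-- A character trivial on the generators at the exceptional primes only sees the other part. -/
theorem eq_comp_twPart {A : Type} [CommMonoid A] (e : T.Delta →* A)
    (he : ∀ i, e (Patching.genV (Fin.natAdd r i)) = 1) : e = e.comp T.twPart := by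
  have : NeZero p := ⟨X.fact_prime.out.ne_zero⟩
  refine Patching.delta_hom_ext fun l => ?_
  induction l using Fin.addCases with
  | left j =>
    refine congrArg e (funext fun l => ?_)
    induction l using Fin.addCases with
    | left k => simp [twPart, Fin.addCases_left]
    | right i =>
      simp only [twPart, MonoidHom.pi_apply, Fin.addCases_right, MonoidHom.one_apply]
      refine Pi.mulSingle_eq_of_ne (M := fun l => Multiplicative (ZMod (p ^ T.expo l))) ?_ _
      intro h
      have := congrArg Fin.val h
      simp only [Fin.val_natAdd, Fin.val_castAdd] at this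
      omega
  | right i =>
    rw [he, MonoidHom.comp_apply, ← map_one e]
    refine congrArg e (funext fun l => ?_)
    induction l using Fin.addCases with
    | left k =>
      simp only [twPart, MonoidHom.pi_apply, Fin.addCases_left, Pi.evalMonoidHom_apply,
        Pi.one_apply]
      refine (Pi.mulSingle_eq_of_ne (M := fun l => Multiplicative (ZMod (p ^ T.expo l))) ?_ _).symm
      intro h
      have := congrArg Fin.val h
      simp only [Fin.val_natAdd, Fin.val_castAdd] at this
      omega
    | right k => simp [twPart, Fin.addCases_right]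

/-- The exponent of `Δ` is odd. -/
theorem two_mul_add_one : 2 * ((p ^ (∑ l, T.expo l) - 1) / 2) + 1 = p ^ (∑ l, T.expo l) := by
  obtain ⟨k, hk⟩ : Odd (p ^ ∑ l, T.expo l) :=
    (X.fact_prime.out.odd_of_ne_two X.ne_two).pow
  rw [hk]
  omega

end AvoidSetup.TWTuple

end Fermat.Agent.LevelLowering.Avoid
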