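import Fermat.Agent.LevelLowering.Avoid.Statements
import Fermat.Agent.HeckeAlg.S29FromS30
import Fermat.Agent.S54

/-!
# Ihara avoidance: the deformation ring acts on a level

The local Hecke algebra of the twisted level carries a Galois representation; when its deformation
condition holds, the deformation ring maps to the algebra of the level, Frobenius traces going to
the twisted Hecke operators.
-/

set_option autoImplicit false

noncomputable section

open IsLocalRing Polynomial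
open Fermat.Agent.GaloisBasics (GalQ)

namespace Fermat.Agent.LevelLowering.Avoid

variable {O : Type} [CommRing O] [IsDomain O] [IsDiscreteValuationRing O]
  [IsAdicComplete (maximalIdeal O) O]

namespace AvoidSetup

variable {p : ℕ} {X : AvoidSetup p O} {r : ℕ} (T : X.TWTuple r)

namespace TWTuple

omit [IsAdicComplete (maximalIdeal O) O] in
theorem not_dvd_B_of_notMem {q : ℕ} (hq : q.Prime) (h : q ∉ T.badPrimes) :
    q ≠ p ∧ ¬ q ∣ X.B ∧ q ∉ X.E := by
  refine ⟨fun e => h (e ▸ T.mem_badPrimes_self), fun hd => h (T.mem_badPrimes_of_dvd hq ?_),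
    fun hE => h (T.mem_badPrimes_of_dvd hq ?_)⟩
  · exact (hd.trans (dvd_mul_right _ _)).trans (dvd_mul_right T.level _)
  · refine dvd_mul_of_dvd_right ((Eq.dvd ?_).trans
      (Finset.dvd_prod_of_mem T.pr (Finset.mem_univ (Fin.natAdd r (X.E.equivFin ⟨q, hE⟩))))) _
    simp [pr, primeE]

/-- The condition holds for every Galois representation of the twisted level. -/
def DatumCond (ρbar : ResidualGaloisRep (ResidueField O))
    (𝒟 : ∀ ⦃A : Type⦄ [CommRing A] [IsLocalRing A] [Algebra O A], GaloisRepAdic A → Prop) : Prop :=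
  ∀ (θ : CuspForm.heckeAlgebra T.twLevel 2 (↑T.badPrimes : Set ℕ) →+* ResidueField O)
    (H : CuspForm.HeckeGaloisRepDatum T.twLevel (↑T.badPrimes : Set ℕ) O θ
      (CuspForm.heckeLocal T.twLevel (↑T.badPrimes : Set ℕ) O θ)),
    H.ρ.residual.IsEquiv (ρbar.baseChangeAlong (ResidueField.map
      (algebraMap O (CuspForm.heckeLocal T.twLevel (↑T.badPrimes : Set ℕ) O θ)))) → 𝒟 H.ρ

/-- The Galois representation of the local Hecke algebra of the twisted level. -/
theorem exists_datum [CharZero O] [Finite (ResidueField O)] (hHL : T.HeckeLevel)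
    (hW : X.Witness) (hbase : Nontrivial X.BaseSpace)
    {ρbar : ResidualGaloisRep (ResidueField O)} (hρ : X.IsResidual ρbar) :
    IsReduced T.Alg ∧
    ∃ (θ : CuspForm.heckeAlgebra T.twLevel 2 (↑T.badPrimes : Set ℕ) →+* ResidueField O)
      (act : CuspForm.heckeLocal T.twLevel (↑T.badPrimes : Set ℕ) O θ →ₐ[O] T.Alg)
      (_ : ∀ (ℓ : ℕ) (hℓ : ℓ.Prime) (hℓN : ¬ ℓ ∣ T.twLevel)
        (hℓS : ℓ ∉ (↑T.badPrimes : Set ℕ)),
        θ (CuspForm.heckeAlgebra.T hℓ hℓN hℓS) = X.a ⟨ℓ, hℓ⟩ ∧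
          act (CuspForm.heckeLocal.π T.twLevel (↑T.badPrimes : Set ℕ) O θ
            (CuspForm.heckeAlgebra.T hℓ hℓN hℓS)) = T.twA ⟨ℓ, hℓ⟩ hℓS)
      (H : CuspForm.HeckeGaloisRepDatum T.twLevel (↑T.badPrimes : Set ℕ) O θ
        (CuspForm.heckeLocal T.twLevel (↑T.badPrimes : Set ℕ) O θ)),
      H.π = CuspForm.heckeLocal.π T.twLevel (↑T.badPrimes : Set ℕ) O θ ∧
        H.ρ.residual.IsEquiv (ρbar.baseChangeAlong (ResidueField.map
          (algebraMap O (CuspForm.heckeLocal T.twLevel (↑T.badPrimes : Set ℕ) O θ)))) := by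
  obtain ⟨hred, θ, act, hact⟩ := hHL inferInstance inferInstance hW hbase
  have := Fact.mk X.fact_prime.out
  have : Fact (CuspForm.HasIntegralStructure T.twLevel 2) :=
    HeckeRep.fact_hasIntegralStructure T.twLevel
  have hNS : ∀ q : ℕ, q.Prime → q ∣ T.twLevel → q ∈ T.badPrimes := fun q hq h =>
    T.mem_badPrimes_of_dvd hq h
  have hθ : ∀ (ℓ : ℕ) (hℓ : ℓ.Prime) (hℓN : ¬ ℓ ∣ T.twLevel)
      (hℓS : ℓ ∉ (↑T.badPrimes : Set ℕ)),
      ∀ A : ValuationSubring (AlgebraicClosure ℚ), A.LiesOverPrime ℓ →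
        ∀ σ : GalQ, A.IsFrobeniusAt σ ℓ → LinearMap.charpoly (ρbar.ρ σ) =
          Polynomial.X ^ 2 - C (θ (CuspForm.heckeAlgebra.T hℓ hℓN hℓS)) * Polynomial.X +
            C ((ℓ : ResidueField O)) := by
    intro ℓ hℓ hℓN hℓS A hA σ hσ
    obtain ⟨h1, h2, h3⟩ := T.not_dvd_B_of_notMem hℓ hℓS
    rw [(hact ℓ hℓ hℓN hℓS).1]
    exact hρ.frob ⟨ℓ, hℓ⟩ h1 h2 h3 A hA σ hσ
  obtain ⟨H, hHπ, -⟩ := HeckeRep.nonempty_heckeGaloisRepDatum p T.twLevel T.badPrimes O θ
    T.mem_badPrimes_self hNS X.p_mem ρbar hρ.absIrr hθ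
  set L := CuspForm.heckeLocal T.twLevel (↑T.badPrimes : Set ℕ) O θ
  have hres : H.ρ.residual.IsEquiv
      (ρbar.baseChangeAlong (ResidueField.map (algebraMap O L))) := by
    obtain ⟨e⟩ := RepTheory.residual_isEquiv_of_frobenius
      (TWTwist.frobGenerates_chebotarev T.badPrimes)
      (ρbar.baseChangeAlong (ResidueField.map (algebraMap O L))) H.ρ.residual
      (RepTheory.isAbsolutelyIrreducible_baseChangeAlong _ _ hρ.absIrr) (by
        rintro φ ⟨ℓ, hℓ, hℓS, A, hA, hφ⟩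
        have hℓN : ¬ ℓ ∣ T.twLevel := fun h => hℓS (Finset.mem_coe.mpr (hNS ℓ hℓ h))
        rw [HeckeAlg.charpoly_baseChangeAlong, hθ ℓ hℓ hℓN hℓS A hA φ hφ,
          HeckeAlg.charpoly_residual, H.charpoly_frob ℓ hℓ hℓN hℓS A hA φ hφ]
        simp only [Polynomial.map_sub, Polynomial.map_add, Polynomial.map_mul, Polynomial.map_pow,
          Polynomial.map_X, Polynomial.map_C, Polynomial.map_natCast, map_natCast, H.residue_π]
        rfl)
    exact ⟨e.symm⟩
  exact ⟨hred, θ, act, hact, H, hHπ, hres⟩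

/-- The deformation ring maps to the algebra of the level. -/
theorem exists_algHom [CharZero O] [Finite (ResidueField O)] (hHL : T.HeckeLevel)
    (hW : X.Witness) (hbase : Nontrivial X.BaseSpace)
    {ρbar : ResidualGaloisRep (ResidueField O)} (hρ : X.IsResidual ρbar)
    {𝒟 : ∀ ⦃A : Type⦄ [CommRing A] [IsLocalRing A] [Algebra O A], GaloisRepAdic A → Prop}
    (DQ : GaloisRep.DeformationRingData O ρbar 𝒟) (h𝒟 : T.DatumCond ρbar 𝒟) :
    IsReduced T.Alg ∧ ∃ φ : DQ.R →ₐ[O] T.Alg, T.HasTraces DQ.ρ.trace φ := by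
  obtain ⟨hred, θ, act, hact, H, hHπ, hres⟩ := T.exists_datum hHL hW hbase hρ
  refine ⟨hred, ?_⟩
  have hNS : ∀ q : ℕ, q.Prime → q ∣ T.twLevel → q ∈ T.badPrimes := fun q hq h =>
    T.mem_badPrimes_of_dvd hq h
  set L := CuspForm.heckeLocal T.twLevel (↑T.badPrimes : Set ℕ) O θ
  obtain ⟨ψ, -, hloc, ⟨e⟩⟩ := Fermat.Agent.S54.result DQ H
    (fun q hq hqN => Finset.mem_coe.mpr (hNS q hq hqN)) (h𝒟 θ H hres) hres
  refine ⟨act.comp ψ, fun ℓ h P hP σ hσ => ?_⟩
  have hℓN : ¬ (ℓ : ℕ) ∣ T.twLevel := fun hd => h (hNS ℓ ℓ.2 hd)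
  rw [AlgHom.comp_apply, show T.twA ℓ h = T.twA ⟨(ℓ : ℕ), ℓ.2⟩ h from rfl, ← (hact ℓ ℓ.2 hℓN h).2]
  congr 1
  have h1 : ((DQ.ρ.baseChangeAlong (ψ : DQ.R →+* _) hloc).ρ σ).charpoly =
      (H.ρ.ρ σ).charpoly := by
    rw [← e.toLinearEquiv.charpoly_conj]
    congr 1
    refine LinearMap.ext fun v => ?_
    simp [LinearEquiv.conj_apply, e.map_apply]
  rw [Fermat.Agent.S54.charpoly_baseChangeAlong,
    H.charpoly_frob ℓ ℓ.2 hℓN h P hP σ hσ, hHπ] at h1
  let b := Module.finBasisOfFinrankEq DQ.R DQ.ρ.V DQ.ρ.finrank_eq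
  rw [← LinearMap.charpoly_toMatrix (DQ.ρ.ρ σ) b, Matrix.charpoly_fin_two,
    ← LinearMap.trace_eq_matrix_trace] at h1
  have h2 := congrArg (fun f : Polynomial L => f.coeff 1) h1
  simp [Polynomial.coeff_X_pow, Polynomial.coeff_C] at h2
  exact neg_injective h2

end TWTuple

end AvoidSetup

end Fermat.Agent.LevelLowering.Avoid
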